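import Fermat.Agent.S27.Contract

/-!
# Program PJ (statement S27), strand G: the interface of the global chain

Vocabulary of `S27/Contract.lean`: `Sol K F n k c` are the solutions `(G, Fs)` of type
`(k, g - k)` in the class of `c` (`card G = k`, `card G + card Fs = g = gR K F`, the `g` points
distinct and non-special, `sum G + n * sum Fs - c` principal).

* `Pt K F` : the type of unordered solutions, `Finset (Place K F) × Finset (Place K F)`.
* `Tup K F n k c` : the REGULAR POINTS of type `(k + 1, g - k)` in the class of `c`: pairs
  `(G, Fs)` of disjoint sets, `card G = k + 1`, `card G + card Fs = g + 1`, such that removing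
  ANY one of the `g + 1` points leaves a solution (`Sol`) in the class corrected by that point.
  (Then the Jacobian of the system at the point is onto and every point can be the parameter.)
* `TransferUp K F k`, `TransferDown K F k` : THE interface of strand G with the carrier (C), the
  local theorem (L), the fibres (M) and formal uniqueness (U).  Among the regular points of
  type `(k + 1, g - k)` in one class: finitely many through a point `A` in the first set give,
  for every `B` outside a finite set, at least `1 / (C n ^ 2)` times as many through `B` in the
  second set; and finitely many through `B` in the second set give, for every `A` outside a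
  finite set, at least `n ^ 2 / C` times as many through `A` in the first set.  The constant
  does not depend on `n`.  They are theorems for `k < g`.

The steps `StepUp K F k`, `StepDown K F k` of the contract follow from the two transfers by
general position of one added point (insert a general point, transfer, erase the new point).
-/

set_option autoImplicit false

namespace Fermat.Agent.S27.G.Defs

open AlgebraicCurve

open Classical

variable (K F : Type*) [Field K] [Field F] [Algebra K F]

/-- An unordered solution: the set of simple points and the set of `n`-fold points. -/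
abbrev Pt : Type _ := Finset (Place K F) × Finset (Place K F)

/-- The regular points of type `(k + 1, g - k)` in the class of `c`: removing any one of the
`g + 1` points leaves a solution in the corrected class. -/
def Tup (n k : ℕ) (c : Divisor K F) : Set (Pt K F) :=
  {x | Disjoint x.1 x.2 ∧ x.1.card = k + 1 ∧ x.1.card + x.2.card = S17.R.gR K F + 1 ∧
    (∀ P ∈ x.1, (x.1.erase P, x.2) ∈ Sol K F n k (c - Finsupp.single P (1 : ℤ))) ∧
    (∀ Q ∈ x.2, (x.1, x.2.erase Q) ∈
      Sol K F n (k + 1) (c - (n : ℤ) • Finsupp.single Q (1 : ℤ)))}

/-- **The upper transfer** at type `(k + 1, g - k)`: from the regular points through `A` (a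
simple point) to the regular points through a general `B` (an `n`-fold point). -/
def TransferUp (k : ℕ) : Prop :=
  ∃ C : ℕ, ∀ n : ℕ, 2 ≤ n → ∀ (c : Divisor K F) (A : Place K F) (X : Finset (Pt K F)),
    (∀ x ∈ X, x ∈ Tup K F n k c ∧ A ∈ x.1) →
    ∃ Bad : Finset (Place K F), ∀ B : Place K F, B ∉ Bad →
      ∃ Y : Finset (Pt K F), (∀ y ∈ Y, y ∈ Tup K F n k c ∧ B ∈ y.2) ∧
        X.card ≤ C * n ^ 2 * Y.card

/-- **The lower transfer** at type `(k + 1, g - k)`: from the regular points through `B` (an
`n`-fold point) to the regular points through a general `A` (a simple point). -/
def TransferDown (k : ℕ) : Prop :=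
  ∃ C : ℕ, ∀ n : ℕ, 2 ≤ n → ∀ (c : Divisor K F) (B : Place K F) (Y : Finset (Pt K F)),
    (∀ y ∈ Y, y ∈ Tup K F n k c ∧ B ∈ y.2) →
    ∃ Bad : Finset (Place K F), ∀ A : Place K F, A ∉ Bad →
      ∃ X : Finset (Pt K F), (∀ x ∈ X, x ∈ Tup K F n k c ∧ A ∈ x.1) ∧
        n ^ 2 * Y.card ≤ C * X.card

end Fermat.Agent.S27.G.Defs
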