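import Fermat.Agent.S27.L.Defs
import Fermat.Agent.S27.G.Defs

/-!
# Program PJ (statement S27), strand G: the exits consumed by the assembly (statements only)

The assembly `G/AsmInst` of the two transfers `Defs.TransferUp K F k`, `Defs.TransferDown K F k`
is typed on the profile configuration `L.Data htr M (Fin e₁ ⊕ Fin e₂) (mu e₁ e₂ n) m B δ` of
strand L (`e₁` simple points `Sum.inl i`, `e₂` points of multiplicity `n`, `Sum.inr j`).  This
file states, as propositions, the exits of the other strands which it consumes.

* `Nsp htr htrM ρ w` : at the place `w` of `M` the centres of the points `ρ z` are pairwise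
  distinct and every family of all the points but one is non-special (`l = 1`) - the regular
  point (`Defs.Tup`) in ordered form.
* `CarrierExit htr e₁ e₂ n δ` (strand C): through every ordered regular point `T` there is a
  configuration `M`, generated over `K` by its points, with a place `w₀` of centres `T`,
  unramified for every point.
* `UniqueExit htr e₁ e₂ n δ` (strand C, formal uniqueness): two configurations generated by
  their points, with places `w`, `w'` unramified for every point and of the same ordered
  centres, regular, are isomorphic over all the points, and the isomorphism carries `w` to `w'`.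
* `PropExit htr` (propagation of the invariant): a family of `gR` points of a configuration,
  non-special with distinct centres at ONE place, is non-special at all but finitely many of the
  places where its centres are pairwise distinct.
* `LocExit htr e₁ e₂ n δ C₁` (strand L, in natural numbers): on a configuration with one
  regular place, `I_G ≤ C₁ n² I_F` and `n² I_F ≤ C₁ I_G`.
-/

set_option autoImplicit false

open AlgebraicCurve

namespace Fermat.Agent.S27.G.AsmIface

open Fermat.Agent.S17 Fermat.Agent.S17.HB

universe u v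

variable {K : Type u} {F : Type v} [Field K] [Field F] [Algebra K F]

/-- The multiplicities of a profile of type `(e₁, e₂)` at level `n`. -/
abbrev mu (e₁ e₂ n : ℕ) : Fin e₁ ⊕ Fin e₂ → ℕ := Sum.elim (fun _ => 1) (fun _ => n)

/-- The ordered regular point at a place: pairwise distinct centres, and every family of all the
points but one is non-special. -/
def Nsp (htr : Algebra.trdeg K F = 1) {M : Type*} [Field M] [Algebra K M]
    (htrM : Algebra.trdeg K M = 1) {ι : Type*} [Fintype ι] [DecidableEq ι]
    (ρ : ι → (F →ₐ[K] M)) (w : Place K M) : Prop :=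
  Function.Injective (fun z => L.cen htr htrM (ρ z) w) ∧
    ∀ z, Module.finrank K ↥(riemannRochSpace
      (∑ z' ∈ Finset.univ.erase z, Finsupp.single (L.cen htr htrM (ρ z') w) (1 : ℤ))) = 1

variable [IsAlgClosed K] [CharZero K] [Algebra.EssFiniteType K F]

/-- **The exit of strand C (carrier)**: a generated configuration through every ordered regular
point, with an unramified base place. -/
def CarrierExit (htr : Algebra.trdeg K F = 1) (e₁ e₂ n : ℕ) (δ : Derivation K F F) : Prop :=
  ∀ T : Fin e₁ ⊕ Fin e₂ → Place K F, Function.Injective T →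
    (∀ z, Module.finrank K ↥(riemannRochSpace
      (∑ z' ∈ Finset.univ.erase z, Finsupp.single (T z') (1 : ℤ))) = 1) →
    ∃ (M : Type u) (_ : Field M) (_ : Algebra K M) (_ : Algebra.EssFiniteType K M)
      (htrM : Algebra.trdeg K M = 1) (m : ℕ)
      (d : L.Data htr M (Fin e₁ ⊕ Fin e₂) (mu e₁ e₂ n) m
        (∑ z, (mu e₁ e₂ n z : ℤ) • Finsupp.single (T z) (1 : ℤ)) δ) (w₀ : Place K M),
      (∀ z, L.cen htr htrM (d.ρ z) w₀ = T z) ∧ (∀ z, Loc2.ram (d.ρ z) w₀ = 1) ∧
      IntermediateField.adjoin K (⋃ z, Set.range (d.ρ z)) = ⊤

/-- **The exit of strand C (formal uniqueness)**: two generated configurations with unramified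
regular places of the same ordered centres are isomorphic over all the points, the isomorphism
carrying the one place to the other. -/
def UniqueExit (htr : Algebra.trdeg K F = 1) (e₁ e₂ n : ℕ) (δ : Derivation K F F) : Prop :=
  ∀ (M M' : Type u) [Field M] [Algebra K M] [Algebra.EssFiniteType K M] [Field M'] [Algebra K M']
    [Algebra.EssFiniteType K M'] (htrM : Algebra.trdeg K M = 1) (htrM' : Algebra.trdeg K M' = 1)
    (m m' : ℕ) (B B' : Divisor K F)
    (d : L.Data htr M (Fin e₁ ⊕ Fin e₂) (mu e₁ e₂ n) m B δ)
    (d' : L.Data htr M' (Fin e₁ ⊕ Fin e₂) (mu e₁ e₂ n) m' B' δ)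
    (w : Place K M) (w' : Place K M'),
    IntermediateField.adjoin K (⋃ z, Set.range (d.ρ z)) = ⊤ →
    IntermediateField.adjoin K (⋃ z, Set.range (d'.ρ z)) = ⊤ →
    (∀ z, Loc2.ram (d.ρ z) w = 1) → (∀ z, Loc2.ram (d'.ρ z) w' = 1) →
    Nsp htr htrM d.ρ w →
    (∀ z, L.cen htr htrM (d.ρ z) w = L.cen htr htrM' (d'.ρ z) w') →
    ∃ φ : M ≃ₐ[K] M', (∀ z, (φ : M →ₐ[K] M').comp (d.ρ z) = d'.ρ z) ∧
      ∀ x : M, w'.ord (φ x) = w.ord x

/-- **Propagation of the invariant**: `gR` points of a configuration which are non-special with
pairwise distinct centres at one place are non-special at all but finitely many of the places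
where their centres are pairwise distinct. -/
def PropExit (htr : Algebra.trdeg K F = 1) : Prop :=
  ∀ (M : Type u) [Field M] [Algebra K M] [Algebra.EssFiniteType K M]
    (htrM : Algebra.trdeg K M = 1) (κ : Type) [Fintype κ] (σ : κ → (F →ₐ[K] M)),
    Fintype.card κ = R.gR K F → ∀ w₁ : Place K M,
    Function.Injective (fun k => L.cen htr htrM (σ k) w₁) →
    Module.finrank K ↥(riemannRochSpace
      (∑ k, Finsupp.single (L.cen htr htrM (σ k) w₁) (1 : ℤ))) = 1 →
    {w : Place K M | Function.Injective (fun k => L.cen htr htrM (σ k) w) ∧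
      Module.finrank K ↥(riemannRochSpace
        (∑ k, Finsupp.single (L.cen htr htrM (σ k) w) (1 : ℤ))) ≠ 1}.Finite

/-- **The exit of strand L in natural numbers**: on a configuration with one regular place the
two total degrees are comparable up to `n ^ 2` and the constant `C₁`. -/
def LocExit (htr : Algebra.trdeg K F = 1) (e₁ e₂ n : ℕ) (δ : Derivation K F F) (C₁ : ℕ) : Prop :=
  ∀ (M : Type u) [Field M] [Algebra K M] [Algebra.EssFiniteType K M]
    (htrM : Algebra.trdeg K M = 1) (m : ℕ) (B : Divisor K F)
    (d : L.Data htr M (Fin e₁ ⊕ Fin e₂) (mu e₁ e₂ n) m B δ) (w : Place K M),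
    Nsp htr htrM d.ρ w →
    ∑ i, finrankAlong K (d.ρ (Sum.inl i)) ≤ C₁ * n ^ 2 * ∑ j, finrankAlong K (d.ρ (Sum.inr j)) ∧
    n ^ 2 * ∑ j, finrankAlong K (d.ρ (Sum.inr j)) ≤ C₁ * ∑ i, finrankAlong K (d.ρ (Sum.inl i))

end Fermat.Agent.S27.G.AsmIface
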