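import Mathlib

/-!
# Program PJ (statement S27), strand G: the abstract assembly of a system of curves

No curve occurs in this file.  `P` is a type of points; an unordered solution is a pair
`x : Finset P × Finset P` (the points of the first kind, the points of the second kind), and `T`
is the set of admissible unordered solutions (strand G: `Tup n a b D`).

A SYSTEM OF CONFIGURATIONS is a family `Cfg` with, for `c : Cfg`, a type `Pl c` of places, the
ordered centres `cG c w : ιG → P`, `cF c w : ιF → P` of a place `w`, and the degrees `dG c z`,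
`dF c z` of the points.  A place is GOOD if its unordered tuple `tup (cG c w) (cF c w)` is in `T`.
The hypotheses of `exists_curves` are the exits of the strands of program PJ:

* `hcov` (carrier): every `x ∈ T` is the unordered tuple of a place of a configuration;
* `huni` (formal uniqueness, up to the labels): if `c` and `c'` share one good unordered tuple,
  every good unordered tuple of `c` is an unordered tuple of `c'`;
* `hinj` (formal uniqueness inside one configuration): a good ORDERED tuple determines the place;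
* `hfibG`, `hfibF` (fibres): the places over `A` along one point are finite, at most the degree;
* `hgen` (general fibres; propagation of goodness): in a configuration with one good place,
  off a finite set of `A` the fibres are full and consist of good places;
* `hloc` (the local theorem): in a configuration with one good place, the relation `R` holds
  between the two total degrees.

The conclusion is a set `GG` of pairwise disjoint subsets of `T` covering `T`, each with two
degrees `d₁`, `d₂` in the relation `R`, such that the members through a point `A` on either side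
are at most the degree, and, off a finite set of `A`, at least the degree up to the constant
`C₂ = |ιG| ^ |ιG| * |ιF| ^ |ιF|`.  This is the interface `HasCurves` of the chain.
-/

set_option autoImplicit false

namespace Fermat.Agent.S27.G.Asm

section Count

/-- The union bound for finitely many finite sets. -/
theorem ncard_iUnion_le_sum {W ι : Type*} [Fintype ι] (s : ι → Set W) (hs : ∀ z, (s z).Finite) :
    (⋃ z, s z).ncard ≤ ∑ z, (s z).ncard := by
  classical
  have h1 : (⋃ z, s z) = ↑(Finset.univ.biUnion fun z => (hs z).toFinset) := by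
    ext w
    simp
  rw [h1, Set.ncard_coe_finset]
  refine Finset.card_biUnion_le.trans (le_of_eq ?_)
  refine Finset.sum_congr rfl fun z _ => ?_
  rw [Set.ncard_eq_toFinset_card _ (hs z)]

variable {P : Type*}

/-- The members of a family of tuples through the point `A`, counted by the places: at most the
sum of the degrees. -/
theorem side_le {W X ι : Type*} [Fintype ι] (c : W → ι → P) (d : ι → ℕ) (A : P)
    (hfib : ∀ z, {w : W | c w z = A}.Finite ∧ {w : W | c w z = A}.ncard ≤ d z)
    (t : W → X) (S : Set X) (hS : S ⊆ t '' {w | ∃ z, c w z = A}) :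
    S.Finite ∧ S.ncard ≤ ∑ z, d z := by
  classical
  have hU : {w : W | ∃ z, c w z = A} = ⋃ z, {w : W | c w z = A} := by
    ext w
    simp
  have hfin : {w : W | ∃ z, c w z = A}.Finite := by
    rw [hU]
    exact Set.finite_iUnion fun z => (hfib z).1
  refine ⟨(hfin.image t).subset hS, ?_⟩
  calc S.ncard ≤ (t '' {w | ∃ z, c w z = A}).ncard := Set.ncard_le_ncard hS (hfin.image t)
    _ ≤ {w : W | ∃ z, c w z = A}.ncard := Set.ncard_image_le hfin
    _ ≤ ∑ z, {w : W | c w z = A}.ncard := by
        rw [hU]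
        exact ncard_iUnion_le_sum _ fun z => (hfib z).1
    _ ≤ ∑ z, d z := Finset.sum_le_sum fun z _ => (hfib z).2

/-- The members of a family of tuples through the point `A`, counted by the places: at least the
sum of the degrees up to the size `C₂` of the fibres of `place ↦ tuple`, when the fibres over `A`
are full. -/
theorem side_ge {W X ι : Type*} [Fintype ι] (c : W → ι → P) (d : ι → ℕ) (A : P)
    (hfin : ∀ z, {w : W | c w z = A}.Finite)
    (hge : ∀ z, d z ≤ {w : W | c w z = A}.ncard)
    (hz : ∀ w z z', c w z = A → c w z' = A → z = z')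
    (t : W → X) (C₂ : ℕ)
    (hfibre : ∀ s : Finset W, (∀ w ∈ s, ∃ z, c w z = A) → (∀ w ∈ s, ∀ w' ∈ s, t w = t w') →
      s.card ≤ C₂)
    (S : Set X) (hSfin : S.Finite) (hS : t '' {w | ∃ z, c w z = A} ⊆ S) :
    ∑ z, d z ≤ C₂ * S.ncard := by
  classical
  set U : Finset W := Finset.univ.biUnion fun z => (hfin z).toFinset with hUdef
  have hUmem : ∀ w, w ∈ U ↔ ∃ z, c w z = A := by
    intro w
    simp [hUdef]
  have h1 : ∑ z, d z ≤ U.card := by
    rw [hUdef, Finset.card_biUnion]
    · refine Finset.sum_le_sum fun z _ => ?_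
      rw [← Set.ncard_eq_toFinset_card _ (hfin z)]
      exact hge z
    · intro z _ z' _ hne
      show Disjoint (hfin z).toFinset (hfin z').toFinset
      rw [Finset.disjoint_left]
      intro w hw hw'
      rw [Set.Finite.mem_toFinset] at hw hw'
      exact hne (hz w z z' hw hw')
  have h2 : U.card ≤ C₂ * (U.image t).card := by
    refine Finset.card_le_mul_card_image U C₂ ?_
    intro x _
    refine hfibre _ ?_ ?_
    · intro w hw
      exact (hUmem w).mp (Finset.mem_filter.mp hw).1
    · intro w hw w' hw'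
      rw [(Finset.mem_filter.mp hw).2, (Finset.mem_filter.mp hw').2]
  have h3 : (U.image t).card ≤ S.ncard := by
    rw [← Set.ncard_coe_finset]
    refine Set.ncard_le_ncard ?_ hSfin
    intro x hx
    obtain ⟨w, hw, rfl⟩ := Finset.mem_image.mp (Finset.mem_coe.mp hx)
    exact hS ⟨w, (hUmem w).mp hw, rfl⟩
  calc ∑ z, d z ≤ U.card := h1
    _ ≤ C₂ * (U.image t).card := h2
    _ ≤ C₂ * S.ncard := Nat.mul_le_mul_left _ h3

end Count

section Tuples

variable {P : Type*} [DecidableEq P] {ιG ιF : Type*} [Fintype ιG] [Fintype ιF]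

/-- The unordered tuple of a labelled family of points of the two kinds. -/
def tup (f : ιG → P) (h : ιF → P) : Finset P × Finset P :=
  (Finset.univ.image f, Finset.univ.image h)

omit [Fintype ιF] in
theorem injective_of_card_image {f : ιG → P}
    (hf : (Finset.univ.image f).card = Fintype.card ιG) : Function.Injective f := by
  have h := Finset.card_image_iff.mp (hf.trans Finset.card_univ.symm)
  exact fun a b hab => h (Finset.mem_coe.mpr (Finset.mem_univ a))
    (Finset.mem_coe.mpr (Finset.mem_univ b)) hab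

/-- The places with a given unordered tuple `x` are at most `|x.1| ^ |ιG| * |x.2| ^ |ιF|`, if the
ordered tuple determines the place. -/
theorem card_fibre_le {W : Type*} (cG : W → ιG → P) (cF : W → ιF → P) (s : Finset W)
    (hinj : ∀ w ∈ s, ∀ w' ∈ s, cG w = cG w' → cF w = cF w' → w = w')
    (x : Finset P × Finset P) (hx : ∀ w ∈ s, tup (cG w) (cF w) = x) :
    s.card ≤ x.1.card ^ Fintype.card ιG * x.2.card ^ Fintype.card ιF := by
  classical
  have hcard : ((Fintype.piFinset fun _ : ιG => x.1) ×ˢ (Fintype.piFinset fun _ : ιF => x.2)).card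
      = x.1.card ^ Fintype.card ιG * x.2.card ^ Fintype.card ιF := by
    rw [Finset.card_product, Fintype.card_piFinset, Fintype.card_piFinset, Finset.prod_const,
      Finset.prod_const, Finset.card_univ, Finset.card_univ]
  rw [← hcard]
  refine Finset.card_le_card_of_injOn (fun w => (cG w, cF w)) ?_ ?_
  · intro w hw
    have h := hx w (Finset.mem_coe.mp hw)
    rw [Finset.mem_coe, Finset.mem_product, Fintype.mem_piFinset, Fintype.mem_piFinset]
    refine ⟨fun z => ?_, fun z => ?_⟩
    · rw [← h]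
      exact Finset.mem_image_of_mem _ (Finset.mem_univ z)
    · rw [← h]
      exact Finset.mem_image_of_mem _ (Finset.mem_univ z)
  · intro w hw w' hw' h
    have h1 : cG w = cG w' := congrArg Prod.fst h
    have h2 : cF w = cF w' := congrArg Prod.snd h
    exact hinj w (Finset.mem_coe.mp hw) w' (Finset.mem_coe.mp hw') h1 h2

end Tuples

section Main

variable {P : Type*} [DecidableEq P] {ιG ιF : Type*} [Fintype ιG] [Fintype ιF]

/-- **The abstract assembly of strand G**: a system of configurations with the six exits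
(carrier, uniqueness up to labels, uniqueness inside a configuration, fibres, general fibres,
local theorem) gives the system of curves consumed by the chain. -/
theorem exists_curves (T : Set (Finset P × Finset P))
    (hT : ∀ x ∈ T, x.1.card = Fintype.card ιG ∧ x.2.card = Fintype.card ιF)
    (R : ℕ → ℕ → Prop) {Cfg : Type*} (Pl : Cfg → Type*)
    (cG : ∀ c, Pl c → ιG → P) (cF : ∀ c, Pl c → ιF → P)
    (dG : Cfg → ιG → ℕ) (dF : Cfg → ιF → ℕ)
    (hcov : ∀ x ∈ T, ∃ c, ∃ w : Pl c, tup (cG c w) (cF c w) = x)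
    (huni : ∀ c c' (w : Pl c) (w' : Pl c'), tup (cG c w) (cF c w) ∈ T →
      tup (cG c w) (cF c w) = tup (cG c' w') (cF c' w') →
      ∀ w₁ : Pl c, tup (cG c w₁) (cF c w₁) ∈ T →
        ∃ w₁' : Pl c', tup (cG c' w₁') (cF c' w₁') = tup (cG c w₁) (cF c w₁))
    (hinj : ∀ c (w w' : Pl c), tup (cG c w) (cF c w) ∈ T → cG c w = cG c w' →
      cF c w = cF c w' → w = w')
    (hfibG : ∀ c z A, {w : Pl c | cG c w z = A}.Finite ∧ {w : Pl c | cG c w z = A}.ncard ≤ dG c z)
    (hfibF : ∀ c z A, {w : Pl c | cF c w z = A}.Finite ∧ {w : Pl c | cF c w z = A}.ncard ≤ dF c z)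
    (hgen : ∀ c, (∃ w : Pl c, tup (cG c w) (cF c w) ∈ T) → ∃ Bad : Finset P, ∀ A, A ∉ Bad →
      (∀ z, dG c z ≤ {w : Pl c | cG c w z = A}.ncard ∧
        ∀ w : Pl c, cG c w z = A → tup (cG c w) (cF c w) ∈ T) ∧
      (∀ z, dF c z ≤ {w : Pl c | cF c w z = A}.ncard ∧
        ∀ w : Pl c, cF c w z = A → tup (cG c w) (cF c w) ∈ T))
    (hloc : ∀ c, (∃ w : Pl c, tup (cG c w) (cF c w) ∈ T) → R (∑ z, dG c z) (∑ z, dF c z)) :
    ∃ GG : Set (Set (Finset P × Finset P)),
      (∀ x ∈ T, ∃ Γ ∈ GG, x ∈ Γ) ∧
      (∀ Γ ∈ GG, ∀ Γ' ∈ GG, (Γ ∩ Γ').Nonempty → Γ = Γ') ∧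
      ∀ Γ ∈ GG, Γ ⊆ T ∧ ∃ d₁ d₂ : ℕ,
        (∀ A, {x | x ∈ Γ ∧ A ∈ x.1}.Finite ∧ {x | x ∈ Γ ∧ A ∈ x.1}.ncard ≤ d₁ ∧
          {x | x ∈ Γ ∧ A ∈ x.2}.Finite ∧ {x | x ∈ Γ ∧ A ∈ x.2}.ncard ≤ d₂) ∧
        (∃ Bad : Finset P, ∀ A, A ∉ Bad →
          d₁ ≤ (Fintype.card ιG ^ Fintype.card ιG * Fintype.card ιF ^ Fintype.card ιF) *
              {x | x ∈ Γ ∧ A ∈ x.1}.ncard ∧
          d₂ ≤ (Fintype.card ιG ^ Fintype.card ιG * Fintype.card ιF ^ Fintype.card ιF) *
              {x | x ∈ Γ ∧ A ∈ x.2}.ncard) ∧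
        R d₁ d₂ := by
  classical
  -- the curve of a configuration: the unordered tuples of its good places
  set Gam : Cfg → Set (Finset P × Finset P) :=
    fun c => {x | x ∈ T ∧ ∃ w : Pl c, tup (cG c w) (cF c w) = x} with hGam
  have hsub : ∀ c c', (Gam c ∩ Gam c').Nonempty → Gam c ⊆ Gam c' := by
    rintro c c' ⟨x, ⟨hxT, w, hw⟩, ⟨-, w', hw'⟩⟩ y ⟨hyT, w₁, hw₁⟩
    obtain ⟨w₁', hw₁'⟩ := huni c c' w w' (hw ▸ hxT) (hw.trans hw'.symm) w₁ (hw₁ ▸ hyT)
    exact ⟨hyT, w₁', hw₁'.trans hw₁⟩
  refine ⟨{Γ | ∃ c, (∃ w : Pl c, tup (cG c w) (cF c w) ∈ T) ∧ Γ = Gam c}, ?_, ?_, ?_⟩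
  · intro x hx
    obtain ⟨c, w, hw⟩ := hcov x hx
    exact ⟨Gam c, ⟨c, ⟨w, hw ▸ hx⟩, rfl⟩, hx, w, hw⟩
  · rintro Γ ⟨c, -, rfl⟩ Γ' ⟨c', -, rfl⟩ hne
    exact Set.Subset.antisymm (hsub c c' hne) (hsub c' c (by rwa [Set.inter_comm]))
  · rintro Γ ⟨c, hgood, rfl⟩
    refine ⟨fun x hx => hx.1, ∑ z, dG c z, ∑ z, dF c z, ?_, ?_, hloc c hgood⟩
    · intro A
      have h1 := side_le (cG c) (dG c) A (hfibG c · A) (fun w => tup (cG c w) (cF c w))
        {x | x ∈ Gam c ∧ A ∈ x.1} (by
          rintro x ⟨⟨-, w, rfl⟩, hA⟩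
          obtain ⟨z, -, hz⟩ := Finset.mem_image.mp hA
          exact ⟨w, ⟨z, hz⟩, rfl⟩)
      have h2 := side_le (cF c) (dF c) A (hfibF c · A) (fun w => tup (cG c w) (cF c w))
        {x | x ∈ Gam c ∧ A ∈ x.2} (by
          rintro x ⟨⟨-, w, rfl⟩, hA⟩
          obtain ⟨z, -, hz⟩ := Finset.mem_image.mp hA
          exact ⟨w, ⟨z, hz⟩, rfl⟩)
      exact ⟨h1.1, h1.2, h2.1, h2.2⟩
    · obtain ⟨Bad, hBad⟩ := hgen c hgood
      refine ⟨Bad, fun A hA => ?_⟩
      obtain ⟨hG, hF⟩ := hBad A hA
      -- the fibres of `place ↦ unordered tuple` on good places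
      have hfibre : ∀ s : Finset (Pl c), (∀ w ∈ s, tup (cG c w) (cF c w) ∈ T) →
          (∀ w ∈ s, ∀ w' ∈ s, tup (cG c w) (cF c w) = tup (cG c w') (cF c w')) →
          s.card ≤ Fintype.card ιG ^ Fintype.card ιG * Fintype.card ιF ^ Fintype.card ιF := by
        intro s hs1 hs2
        rcases s.eq_empty_or_nonempty with rfl | ⟨w₀, hw₀⟩
        · simp
        · have h := card_fibre_le (cG c) (cF c) s
            (fun w hw w' _ h1 h2 => hinj c w w' (hs1 w hw) h1 h2)
            (tup (cG c w₀) (cF c w₀)) (fun w hw => hs2 w hw w₀ hw₀)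
          rwa [(hT _ (hs1 w₀ hw₀)).1, (hT _ (hs1 w₀ hw₀)).2] at h
      constructor
      · refine side_ge (cG c) (dG c) A (fun z => (hfibG c z A).1) (fun z => (hG z).1) ?_
          (fun w => tup (cG c w) (cF c w)) _ ?_ _ ?_ ?_
        · intro w z z' h1 h2
          exact injective_of_card_image (hT _ ((hG z).2 w h1)).1 (h1.trans h2.symm)
        · intro s hs1 hs2
          exact hfibre s (fun w hw => by obtain ⟨z, hz⟩ := hs1 w hw; exact (hG z).2 w hz) hs2
        · exact (side_le (cG c) (dG c) A (hfibG c · A) (fun w => tup (cG c w) (cF c w))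
            {x | x ∈ Gam c ∧ A ∈ x.1} (by
              rintro x ⟨⟨-, w, rfl⟩, hA⟩
              obtain ⟨z, -, hz⟩ := Finset.mem_image.mp hA
              exact ⟨w, ⟨z, hz⟩, rfl⟩)).1
        · rintro x ⟨w, ⟨z, hz⟩, rfl⟩
          exact ⟨⟨(hG z).2 w hz, w, rfl⟩, Finset.mem_image.mpr ⟨z, Finset.mem_univ z, hz⟩⟩
      · refine side_ge (cF c) (dF c) A (fun z => (hfibF c z A).1) (fun z => (hF z).1) ?_
          (fun w => tup (cG c w) (cF c w)) _ ?_ _ ?_ ?_
        · intro w z z' h1 h2
          exact injective_of_card_image (hT _ ((hF z).2 w h1)).2 (h1.trans h2.symm)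
        · intro s hs1 hs2
          exact hfibre s (fun w hw => by obtain ⟨z, hz⟩ := hs1 w hw; exact (hF z).2 w hz) hs2
        · exact (side_le (cF c) (dF c) A (hfibF c · A) (fun w => tup (cG c w) (cF c w))
            {x | x ∈ Gam c ∧ A ∈ x.2} (by
              rintro x ⟨⟨-, w, rfl⟩, hA⟩
              obtain ⟨z, -, hz⟩ := Finset.mem_image.mp hA
              exact ⟨w, ⟨z, hz⟩, rfl⟩)).1
        · rintro x ⟨w, ⟨z, hz⟩, rfl⟩
          exact ⟨⟨(hF z).2 w hz, w, rfl⟩, Finset.mem_image.mpr ⟨z, Finset.mem_univ z, hz⟩⟩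

end Main

end Fermat.Agent.S27.G.Asm
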