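import Mathlib
import Fermat.Agent.S27.G.AsmIface
import Fermat.Agent.S27.G.Asm
import Fermat.Agent.S27.C.PlaceSol

/-!
# Program PJ (statement S27), strand G: the good places of a configuration (GOODCHAR)

`d : L.Data htr M (Fin e₁ ⊕ Fin e₂) (AsmIface.mu e₁ e₂ n) m B δ` is a profile configuration of
type `(e₁, e₂)` at level `n` (`e₁ = k + 1` simple points, `e₂` points of multiplicity `n`,
`e₁ + e₂ = g + 1`), `w` a place of its field `M`.  The unordered tuple of the centres at `w` is
a regular point `Defs.Tup K F n k c` of the chain exactly when `B - c` is principal and the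
ordered tuple is regular (`AsmIface.Nsp`: the centres are pairwise distinct and every family of
all the centres but one is non-special):

* `Sol_congr`, `Tup_congr` : the solutions and the regular points depend on the class of `c`
  only;
* `tup_mem_Tup_of_nsp` : the ordered regular point gives the unordered one (`PlaceSol.mem_Tup`
  and the change of class);
* `nsp_of_tup_mem_Tup` : the converse, with the class of `B`;
* `tup_mem_Tup_iff` : the characterisation consumed by the assembly `G/AsmInst`.
-/

set_option autoImplicit false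
set_option linter.unusedSectionVars false
set_option linter.unusedVariables false

open AlgebraicCurve

namespace Fermat.Agent.S27.G.GoodChar

open Classical

section Congr

variable {K F : Type*} [Field K] [Field F] [Algebra K F]

/-- The solutions depend on the class only (one inclusion). -/
theorem sol_subset_of_principal {n k : ℕ} {c c' : Divisor K F}
    (h : c - c' ∈ Divisor.principal (K := K) (F := F)) : Sol K F n k c ⊆ Sol K F n k c' := by
  rintro p ⟨h1, h2, h3, h4, h5⟩
  refine ⟨h1, h2, h3, h4, ?_⟩
  have h6 := add_mem h5 h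
  rwa [sub_add_sub_cancel] at h6

/-- The solutions depend on the class only. -/
theorem Sol_congr {n k : ℕ} {c c' : Divisor K F}
    (h : c - c' ∈ Divisor.principal (K := K) (F := F)) : Sol K F n k c = Sol K F n k c' := by
  refine Set.Subset.antisymm (sol_subset_of_principal h) (sol_subset_of_principal ?_)
  have h' := neg_mem h
  rwa [neg_sub] at h'

/-- The regular points depend on the class only (one inclusion). -/
theorem tup_subset_of_principal {n k : ℕ} {c c' : Divisor K F}
    (h : c - c' ∈ Divisor.principal (K := K) (F := F)) :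
    Defs.Tup K F n k c ⊆ Defs.Tup K F n k c' := by
  rintro x ⟨h1, h2, h3, h4, h5⟩
  refine ⟨h1, h2, h3, fun P hP => ?_, fun Q hQ => ?_⟩
  · refine sol_subset_of_principal ?_ (h4 P hP)
    rwa [sub_sub_sub_cancel_right]
  · refine sol_subset_of_principal ?_ (h5 Q hQ)
    rwa [sub_sub_sub_cancel_right]

/-- The regular points depend on the class only. -/
theorem Tup_congr {n k : ℕ} {c c' : Divisor K F}
    (h : c - c' ∈ Divisor.principal (K := K) (F := F)) :
    Defs.Tup K F n k c = Defs.Tup K F n k c' := by
  refine Set.Subset.antisymm (tup_subset_of_principal h) (tup_subset_of_principal ?_)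
  have h' := neg_mem h
  rwa [neg_sub] at h'

end Congr

section Sums

variable {K F : Type*} [Field K] [Field F] [Algebra K F]

theorem cancel_inl {A : Type*} [AddCommGroup A] {S p Tot G' G₀ F₀ : A} (h1 : S + p = Tot)
    (h2 : G' + p = G₀) (h3 : Tot = G₀ + F₀) : S = G' + F₀ := by
  rw [eq_sub_of_add_eq h1, h3, ← h2]
  abel

theorem cancel_inr {A : Type*} [AddCommGroup A] {S p Tot F' G₀ F₀ : A} (h1 : S + p = Tot)
    (h2 : F' + p = F₀) (h3 : Tot = G₀ + F₀) : S = G₀ + F' := by
  rw [eq_sub_of_add_eq h1, h3, ← h2]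
  abel

variable {α β : Type*} [Fintype α] [Fintype β]

/-- The sum of all the points of an injective labelled family, in unordered form. -/
theorem sum_all (T : α ⊕ β → Place K F) (hT : Function.Injective T) :
    (∑ z : α ⊕ β, Finsupp.single (T z) (1 : ℤ) : Divisor K F) =
      ∑ v ∈ Finset.univ.image (fun i => T (Sum.inl i)), Finsupp.single v (1 : ℤ) +
        ∑ v ∈ Finset.univ.image (fun j => T (Sum.inr j)), Finsupp.single v (1 : ℤ) := by
  rw [Fintype.sum_sum_type, Finset.sum_image (fun i _ i' _ h => Sum.inl_injective (hT h)),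
    Finset.sum_image (fun j _ j' _ h => Sum.inr_injective (hT h))]

/-- The sum of all the points but a simple one, in unordered form. -/
theorem sum_erase_inl [DecidableEq (α ⊕ β)] (T : α ⊕ β → Place K F)
    (hT : Function.Injective T) (a : α) :
    (∑ z' ∈ Finset.univ.erase (Sum.inl a), Finsupp.single (T z') (1 : ℤ) : Divisor K F) =
      ∑ v ∈ (Finset.univ.image (fun i => T (Sum.inl i))).erase (T (Sum.inl a)),
          Finsupp.single v (1 : ℤ) +
        ∑ v ∈ Finset.univ.image (fun j => T (Sum.inr j)), Finsupp.single v (1 : ℤ) := by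
  have hmem : T (Sum.inl a) ∈ Finset.univ.image (fun i => T (Sum.inl i)) :=
    Finset.mem_image_of_mem _ (Finset.mem_univ a)
  exact cancel_inl
    (Finset.sum_erase_add Finset.univ (fun z' => (Finsupp.single (T z') (1 : ℤ) : Divisor K F))
      (Finset.mem_univ (Sum.inl a)))
    (Finset.sum_erase_add _ (fun v => (Finsupp.single v (1 : ℤ) : Divisor K F)) hmem)
    (sum_all T hT)

/-- The sum of all the points but one of multiplicity `n`, in unordered form. -/
theorem sum_erase_inr [DecidableEq (α ⊕ β)] (T : α ⊕ β → Place K F)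
    (hT : Function.Injective T) (b : β) :
    (∑ z' ∈ Finset.univ.erase (Sum.inr b), Finsupp.single (T z') (1 : ℤ) : Divisor K F) =
      ∑ v ∈ Finset.univ.image (fun i => T (Sum.inl i)), Finsupp.single v (1 : ℤ) +
        ∑ v ∈ (Finset.univ.image (fun j => T (Sum.inr j))).erase (T (Sum.inr b)),
          Finsupp.single v (1 : ℤ) := by
  have hmem : T (Sum.inr b) ∈ Finset.univ.image (fun j => T (Sum.inr j)) :=
    Finset.mem_image_of_mem _ (Finset.mem_univ b)
  exact cancel_inr
    (Finset.sum_erase_add Finset.univ (fun z' => (Finsupp.single (T z') (1 : ℤ) : Divisor K F))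
      (Finset.mem_univ (Sum.inr b)))
    (Finset.sum_erase_add _ (fun v => (Finsupp.single v (1 : ℤ) : Divisor K F)) hmem)
    (sum_all T hT)

/-- A labelled family whose two unordered halves are disjoint of full cardinality is
injective. -/
theorem injective_of_halves (T : α ⊕ β → Place K F)
    (hdisj : Disjoint (Finset.univ.image (fun i => T (Sum.inl i)))
      (Finset.univ.image (fun j => T (Sum.inr j))))
    (h1 : (Finset.univ.image (fun i => T (Sum.inl i))).card = Fintype.card α)
    (h2 : (Finset.univ.image (fun j => T (Sum.inr j))).card = Fintype.card β) :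
    Function.Injective T := by
  have hl : Function.Injective (fun i => T (Sum.inl i)) := Asm.injective_of_card_image h1
  have hr : Function.Injective (fun j => T (Sum.inr j)) := Asm.injective_of_card_image h2
  have hne : ∀ (a : α) (b : β), T (Sum.inl a) ≠ T (Sum.inr b) := by
    intro a b hab
    have hm : T (Sum.inl a) ∈ Finset.univ.image (fun j => T (Sum.inr j)) := by
      rw [hab]
      exact Finset.mem_image_of_mem _ (Finset.mem_univ b)
    exact Finset.disjoint_left.mp hdisj (Finset.mem_image_of_mem _ (Finset.mem_univ a)) hm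
  rintro (a | b) (a' | b') hab
  · exact congrArg Sum.inl (hl hab)
  · exact absurd hab (hne a b')
  · exact absurd hab.symm (hne a' b)
  · exact congrArg Sum.inr (hr hab)

/-- The class of the constant divisor of a configuration, read off at one simple point. -/
theorem principal_of_erase {xG xF : Finset (Place K F)} {P : Place K F} (hP : P ∈ xG) {n : ℕ}
    {B c : Divisor K F}
    (h5 : (∑ v ∈ xG.erase P, Finsupp.single v (1 : ℤ) +
        (n : ℤ) • ∑ v ∈ xF, Finsupp.single v (1 : ℤ)) - (c - Finsupp.single P (1 : ℤ)) ∈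
      Divisor.principal (K := K) (F := F))
    (h6 : (∑ v ∈ xG, Finsupp.single v (1 : ℤ) +
        (n : ℤ) • ∑ v ∈ xF, Finsupp.single v (1 : ℤ)) - B ∈
      Divisor.principal (K := K) (F := F)) :
    B - c ∈ Divisor.principal (K := K) (F := F) := by
  have h7 : (∑ v ∈ xG.erase P, Finsupp.single v (1 : ℤ) : Divisor K F) +
      Finsupp.single P (1 : ℤ) = ∑ v ∈ xG, Finsupp.single v (1 : ℤ) :=
    Finset.sum_erase_add _ _ hP
  have key : B - c = ((∑ v ∈ xG.erase P, Finsupp.single v (1 : ℤ) +
        (n : ℤ) • ∑ v ∈ xF, Finsupp.single v (1 : ℤ)) - (c - Finsupp.single P (1 : ℤ))) -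
      ((∑ v ∈ xG, Finsupp.single v (1 : ℤ) +
        (n : ℤ) • ∑ v ∈ xF, Finsupp.single v (1 : ℤ)) - B) := by
    rw [← h7]
    abel
  rw [key]
  exact sub_mem h5 h6

end Sums

section Main

variable {K F M : Type*} [Field K] [Field F] [Algebra K F] [Field M] [Algebra K M]
  [IsAlgClosed K] [CharZero K] [Algebra.EssFiniteType K F] [Algebra.EssFiniteType K M]

/-- **The ordered regular point gives the unordered one.**  At a place `w` of a configuration of
type `(e₁, e₂)` where the ordered tuple of centres is regular, the unordered tuple of centres is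
a regular point of the chain, in every class `c` with `B - c` principal. -/
theorem tup_mem_Tup_of_nsp (htr : Algebra.trdeg K F = 1) (htrM : Algebra.trdeg K M = 1)
    {e₁ e₂ n m k : ℕ} (he₁ : e₁ = k + 1) (he : e₁ + e₂ = S17.R.gR K F + 1)
    {B : Divisor K F} {δ : Derivation K F F}
    (d : L.Data htr M (Fin e₁ ⊕ Fin e₂) (AsmIface.mu e₁ e₂ n) m B δ) (c : Divisor K F)
    (w : Place K M) (hB : B - c ∈ Divisor.principal (K := K) (F := F))
    (hN : AsmIface.Nsp htr htrM d.ρ w) :
    Asm.tup (fun i => L.cen htr htrM (d.ρ (Sum.inl i)) w)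
      (fun j => L.cen htr htrM (d.ρ (Sum.inr j)) w) ∈ Defs.Tup K F n k c := by
  obtain ⟨hinj, hns⟩ := hN
  have hIG : ∀ P ∈ C.PlaceSol.ptsG htr htrM d.ρ w, Module.finrank K ↥(riemannRochSpace
      (∑ v ∈ (C.PlaceSol.ptsG htr htrM d.ρ w).erase P, Finsupp.single v (1 : ℤ) +
        ∑ v ∈ C.PlaceSol.ptsF htr htrM d.ρ w, Finsupp.single v (1 : ℤ))) = 1 := by
    intro P hP
    have hP' := hP
    unfold C.PlaceSol.ptsG at hP'
    obtain ⟨a, -, rfl⟩ := Finset.mem_image.mp hP'
    have h := hns (Sum.inl a)
    rw [sum_erase_inl (fun z => L.cen htr htrM (d.ρ z) w) hinj a] at h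
    exact h
  have hIF : ∀ Q ∈ C.PlaceSol.ptsF htr htrM d.ρ w, Module.finrank K ↥(riemannRochSpace
      (∑ v ∈ C.PlaceSol.ptsG htr htrM d.ρ w, Finsupp.single v (1 : ℤ) +
        ∑ v ∈ (C.PlaceSol.ptsF htr htrM d.ρ w).erase Q, Finsupp.single v (1 : ℤ))) = 1 := by
    intro Q hQ
    have hQ' := hQ
    unfold C.PlaceSol.ptsF at hQ'
    obtain ⟨b, -, rfl⟩ := Finset.mem_image.mp hQ'
    have h := hns (Sum.inr b)
    rw [sum_erase_inr (fun z => L.cen htr htrM (d.ρ z) w) hinj b] at h
    exact h
  have hα : Fintype.card (Fin e₁) = k + 1 := by rw [Fintype.card_fin, he₁]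
  have hcard : Fintype.card (Fin e₁) + Fintype.card (Fin e₂) = S17.R.gR K F + 1 := by
    rw [Fintype.card_fin, Fintype.card_fin, he]
  exact tup_subset_of_principal hB (C.PlaceSol.mem_Tup htr htrM d w hinj hα hcard hIG hIF)

/-- **The unordered regular point gives the ordered one**, and the class of the constant
divisor `B` of the configuration. -/
theorem nsp_of_tup_mem_Tup (htr : Algebra.trdeg K F = 1) (htrM : Algebra.trdeg K M = 1)
    {e₁ e₂ n m k : ℕ} (he₁ : e₁ = k + 1) (he : e₁ + e₂ = S17.R.gR K F + 1)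
    {B : Divisor K F} {δ : Derivation K F F}
    (d : L.Data htr M (Fin e₁ ⊕ Fin e₂) (AsmIface.mu e₁ e₂ n) m B δ) (c : Divisor K F)
    (w : Place K M)
    (h : Asm.tup (fun i => L.cen htr htrM (d.ρ (Sum.inl i)) w)
      (fun j => L.cen htr htrM (d.ρ (Sum.inr j)) w) ∈ Defs.Tup K F n k c) :
    B - c ∈ Divisor.principal (K := K) (F := F) ∧ AsmIface.Nsp htr htrM d.ρ w := by
  obtain ⟨hdisj, hc1, hc2, hG, hF⟩ := h
  have hc1' : (Finset.univ.image
      (fun i : Fin e₁ => L.cen htr htrM (d.ρ (Sum.inl i)) w)).card = k + 1 := hc1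
  have hc2' : (Finset.univ.image (fun i : Fin e₁ => L.cen htr htrM (d.ρ (Sum.inl i)) w)).card +
      (Finset.univ.image (fun j : Fin e₂ => L.cen htr htrM (d.ρ (Sum.inr j)) w)).card =
      S17.R.gR K F + 1 := hc2
  have hinj : Function.Injective (fun z => L.cen htr htrM (d.ρ z) w) := by
    refine injective_of_halves (fun z => L.cen htr htrM (d.ρ z) w) hdisj ?_ ?_
    · rw [Fintype.card_fin]
      exact hc1'.trans he₁.symm
    · rw [Fintype.card_fin]
      omega
  have hmemG : ∀ a : Fin e₁, L.cen htr htrM (d.ρ (Sum.inl a)) w ∈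
      Finset.univ.image (fun i : Fin e₁ => L.cen htr htrM (d.ρ (Sum.inl i)) w) :=
    fun a => Finset.mem_image_of_mem _ (Finset.mem_univ a)
  have hmemF : ∀ b : Fin e₂, L.cen htr htrM (d.ρ (Sum.inr b)) w ∈
      Finset.univ.image (fun j : Fin e₂ => L.cen htr htrM (d.ρ (Sum.inr j)) w) :=
    fun b => Finset.mem_image_of_mem _ (Finset.mem_univ b)
  refine ⟨?_, hinj, fun z => ?_⟩
  · have hpos : 0 < e₁ := by omega
    exact principal_of_erase (hmemG ⟨0, hpos⟩) (hG _ (hmemG ⟨0, hpos⟩)).2.2.2.2
      (C.PlaceSol.dv_mem_principal htr htrM d w hinj)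
  · rcases z with a | b
    · rw [sum_erase_inl (fun z => L.cen htr htrM (d.ρ z) w) hinj a]
      exact (hG _ (hmemG a)).2.2.2.1
    · rw [sum_erase_inr (fun z => L.cen htr htrM (d.ρ z) w) hinj b]
      exact (hF _ (hmemF b)).2.2.2.1

/-- **GOODCHAR**: the unordered tuple of the centres at a place `w` of a configuration of type
`(e₁, e₂)` at level `n` is a regular point of the chain in the class of `c` if and only if
`B - c` is principal and the ordered tuple of the centres at `w` is regular. -/
theorem tup_mem_Tup_iff (htr : Algebra.trdeg K F = 1) (htrM : Algebra.trdeg K M = 1)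
    {e₁ e₂ n m k : ℕ} (hn : 0 < n) (he₁ : e₁ = k + 1) (he : e₁ + e₂ = S17.R.gR K F + 1)
    {B : Divisor K F} {δ : Derivation K F F}
    (d : L.Data htr M (Fin e₁ ⊕ Fin e₂) (AsmIface.mu e₁ e₂ n) m B δ) (c : Divisor K F)
    (w : Place K M) :
    Asm.tup (fun i => L.cen htr htrM (d.ρ (Sum.inl i)) w)
        (fun j => L.cen htr htrM (d.ρ (Sum.inr j)) w) ∈ Defs.Tup K F n k c ↔
      (B - c ∈ Divisor.principal (K := K) (F := F) ∧ AsmIface.Nsp htr htrM d.ρ w) :=
  ⟨nsp_of_tup_mem_Tup htr htrM he₁ he d c w,
    fun h => tup_mem_Tup_of_nsp htr htrM he₁ he d c w h.1 h.2⟩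

end Main

end Fermat.Agent.S27.G.GoodChar
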