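import Fermat.Agent.S27.G.AsmWire
import Fermat.Agent.S27.G.GoodChar
import Fermat.Agent.S17.HB.CarDer

/-!
# Program PJ (statement S27), strand G: the two bounds from the two exits of strand C

`AsmWire.bounds_of_carrier` with the character of the regular points
(`GoodChar.tup_mem_Tup_iff`) and a non-zero derivation (`S17.HB.CarDer.exists_derivation_ne_zero`)
plugged in.  The only hypotheses left are the two exits of strand C, for every non-zero
derivation `δ`:

* `hcar` : `AsmIface.CarrierExit htr e₁ e₂ n δ` (a generated configuration through every ordered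
  regular point, with an unramified base place);
* `huniq` : `AsmIface.UniqueExit htr e₁ e₂ n δ` (formal uniqueness, with the transport of the
  place).
-/

set_option autoImplicit false

open AlgebraicCurve

namespace Fermat.Agent.S27.G.AsmC

open Fermat.Agent.S17 Fermat.Agent.S17.HB Fermat.Agent.S27.G.AsmIface

universe u v

variable {K : Type u} {F : Type v} [Field K] [Field F] [Algebra K F]
variable [IsAlgClosed K] [CharZero K] [Algebra.EssFiniteType K F]

/-- The character of the regular points, in the literal of `AsmInst.GoodChar`. -/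
theorem goodChar (htr : Algebra.trdeg K F = 1) : AsmInst.GoodChar htr :=
  fun _ _ _ _ htrM _ _ _ _ _ hn he₁ he _ _ d c w =>
    GoodChar.tup_mem_Tup_iff htr htrM hn he₁ he d c w

/-- **The two bounds of the contract from the two exits of strand C.** -/
theorem bounds_of_C (htr : Algebra.trdeg K F = 1) (l : ℕ) (hl : 2 ≤ l)
    (hcar : ∀ δ : Derivation K F F, δ ≠ 0 → ∀ e₁ e₂ n : ℕ, 0 < n → e₁ + e₂ = R.gR K F + 1 →
      CarrierExit htr e₁ e₂ n δ)
    (huniq : ∀ δ : Derivation K F F, δ ≠ 0 → ∀ e₁ e₂ n : ℕ, 0 < n → e₁ + e₂ = R.gR K F + 1 →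
      UniqueExit htr e₁ e₂ n δ) :
    UpperBound K F l ∧ LowerBound K F l := by
  obtain ⟨δ, hδ⟩ := CarDer.exists_derivation_ne_zero htr
  exact AsmWire.bounds_of_carrier htr l hl δ hδ (goodChar htr) (hcar δ hδ) (huniq δ hδ)

end Fermat.Agent.S27.G.AsmC
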