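import Fermat.Agent.S27.G.Asm
import Fermat.Agent.S27.G.Defs

/-!
# Program PJ (statement S27), strand G: from a system of curves to the two transfers

* `HasCurves T C₂ R` : the conclusion of `Asm.exists_curves` as a definition - a set `GG` of
  pairwise disjoint subsets of `T` covering `T`, each with two degrees `d₁`, `d₂` in the relation
  `R`, the members through a point on either side being at most the degree, and off a finite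
  set at least the degree up to the constant `C₂`.
* `hasCurves_of_exits` : `Asm.exists_curves` in this vocabulary.
* `transfer` : the counting step of the chain, for two abstract sides `s₁`, `s₂`: finitely many
  members of `T` through `A` on the side `s₁` give, for every `B` off a finite set, at least
  `m / (C * C₂)` times as many members through `B` on the side `s₂` (`m * e₁ ≤ C * e₂` being the
  relation between the degrees of the two sides).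
* `transferUp_transferDown` : `Defs.TransferUp K F k ∧ Defs.TransferDown K F k` from a system of
  curves on every `Defs.Tup K F n k c` with the relation of the local theorem
  `d₁ ≤ C₁ * n ^ 2 * d₂ ∧ n ^ 2 * d₂ ≤ C₁ * d₁`.
-/

set_option autoImplicit false

namespace Fermat.Agent.S27.G.Transfer

open AlgebraicCurve

/-- A system of curves on the set `T` of unordered solutions (the conclusion of
`Asm.exists_curves`). -/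
def HasCurves {P : Type*} (T : Set (Finset P × Finset P)) (C₂ : ℕ) (R : ℕ → ℕ → Prop) : Prop :=
  ∃ GG : Set (Set (Finset P × Finset P)),
    (∀ x ∈ T, ∃ Γ ∈ GG, x ∈ Γ) ∧
    (∀ Γ ∈ GG, ∀ Γ' ∈ GG, (Γ ∩ Γ').Nonempty → Γ = Γ') ∧
    ∀ Γ ∈ GG, Γ ⊆ T ∧ ∃ d₁ d₂ : ℕ,
      (∀ A, {x | x ∈ Γ ∧ A ∈ x.1}.Finite ∧ {x | x ∈ Γ ∧ A ∈ x.1}.ncard ≤ d₁ ∧
        {x | x ∈ Γ ∧ A ∈ x.2}.Finite ∧ {x | x ∈ Γ ∧ A ∈ x.2}.ncard ≤ d₂) ∧
      (∃ Bad : Finset P, ∀ A, A ∉ Bad →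
        d₁ ≤ C₂ * {x | x ∈ Γ ∧ A ∈ x.1}.ncard ∧ d₂ ≤ C₂ * {x | x ∈ Γ ∧ A ∈ x.2}.ncard) ∧
      R d₁ d₂

/-- `Asm.exists_curves` in the vocabulary of this file. -/
theorem hasCurves_of_exits {P : Type*} [DecidableEq P] {ιG ιF : Type*} [Fintype ιG] [Fintype ιF]
    (T : Set (Finset P × Finset P))
    (hT : ∀ x ∈ T, x.1.card = Fintype.card ιG ∧ x.2.card = Fintype.card ιF)
    (R : ℕ → ℕ → Prop) {Cfg : Type*} (Pl : Cfg → Type*)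
    (cG : ∀ c, Pl c → ιG → P) (cF : ∀ c, Pl c → ιF → P)
    (dG : Cfg → ιG → ℕ) (dF : Cfg → ιF → ℕ)
    (hcov : ∀ x ∈ T, ∃ c, ∃ w : Pl c, Asm.tup (cG c w) (cF c w) = x)
    (huni : ∀ c c' (w : Pl c) (w' : Pl c'), Asm.tup (cG c w) (cF c w) ∈ T →
      Asm.tup (cG c w) (cF c w) = Asm.tup (cG c' w') (cF c' w') →
      ∀ w₁ : Pl c, Asm.tup (cG c w₁) (cF c w₁) ∈ T →
        ∃ w₁' : Pl c', Asm.tup (cG c' w₁') (cF c' w₁') = Asm.tup (cG c w₁) (cF c w₁))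
    (hinj : ∀ c (w w' : Pl c), Asm.tup (cG c w) (cF c w) ∈ T → cG c w = cG c w' →
      cF c w = cF c w' → w = w')
    (hfibG : ∀ c z A, {w : Pl c | cG c w z = A}.Finite ∧ {w : Pl c | cG c w z = A}.ncard ≤ dG c z)
    (hfibF : ∀ c z A, {w : Pl c | cF c w z = A}.Finite ∧ {w : Pl c | cF c w z = A}.ncard ≤ dF c z)
    (hgen : ∀ c, (∃ w : Pl c, Asm.tup (cG c w) (cF c w) ∈ T) → ∃ Bad : Finset P, ∀ A, A ∉ Bad →
      (∀ z, dG c z ≤ {w : Pl c | cG c w z = A}.ncard ∧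
        ∀ w : Pl c, cG c w z = A → Asm.tup (cG c w) (cF c w) ∈ T) ∧
      (∀ z, dF c z ≤ {w : Pl c | cF c w z = A}.ncard ∧
        ∀ w : Pl c, cF c w z = A → Asm.tup (cG c w) (cF c w) ∈ T))
    (hloc : ∀ c, (∃ w : Pl c, Asm.tup (cG c w) (cF c w) ∈ T) → R (∑ z, dG c z) (∑ z, dF c z)) :
    HasCurves T (Fintype.card ιG ^ Fintype.card ιG * Fintype.card ιF ^ Fintype.card ιF) R :=
  Asm.exists_curves T hT R Pl cG cF dG dF hcov huni hinj hfibG hfibF hgen hloc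

/-- **The counting step of the chain**, for two abstract sides. -/
theorem transfer {P X₀ : Type*} (s₁ s₂ : P → X₀ → Prop) (T : Set X₀) (GG : Set (Set X₀))
    (hcov : ∀ x ∈ T, ∃ Γ ∈ GG, x ∈ Γ)
    (hdisj : ∀ Γ ∈ GG, ∀ Γ' ∈ GG, (Γ ∩ Γ').Nonempty → Γ = Γ')
    (m C C₂ : ℕ)
    (hΓ : ∀ Γ ∈ GG, Γ ⊆ T ∧ ∃ e₁ e₂ : ℕ,
      (∀ A, {x | x ∈ Γ ∧ s₁ A x}.Finite ∧ {x | x ∈ Γ ∧ s₁ A x}.ncard ≤ e₁) ∧
      (∀ B, {x | x ∈ Γ ∧ s₂ B x}.Finite) ∧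
      (∃ Bad : Finset P, ∀ B, B ∉ Bad → e₂ ≤ C₂ * {x | x ∈ Γ ∧ s₂ B x}.ncard) ∧
      m * e₁ ≤ C * e₂)
    (A : P) (X : Finset X₀) (hX : ∀ x ∈ X, x ∈ T ∧ s₁ A x) :
    ∃ Bad : Finset P, ∀ B, B ∉ Bad → ∃ Y : Finset X₀, (∀ y ∈ Y, y ∈ T ∧ s₂ B y) ∧
      m * X.card ≤ C * C₂ * Y.card := by
  classical
  have key : ∀ Γ : Set X₀, ∃ (e₁ e₂ : ℕ) (Bad : Finset P), Γ ∈ GG →
      (Γ ⊆ T ∧ (∀ A, {x | x ∈ Γ ∧ s₁ A x}.Finite ∧ {x | x ∈ Γ ∧ s₁ A x}.ncard ≤ e₁) ∧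
      (∀ B, {x | x ∈ Γ ∧ s₂ B x}.Finite) ∧
      (∀ B, B ∉ Bad → e₂ ≤ C₂ * {x | x ∈ Γ ∧ s₂ B x}.ncard) ∧ m * e₁ ≤ C * e₂) := by
    intro Γ
    by_cases hG : Γ ∈ GG
    · obtain ⟨h1, e₁, e₂, h2, h3, ⟨Bad, h4⟩, h5⟩ := hΓ Γ hG
      exact ⟨e₁, e₂, Bad, fun _ => ⟨h1, h2, h3, h4, h5⟩⟩
    · exact ⟨0, 0, ∅, fun h => absurd h hG⟩
  choose e₁ e₂ Bad hprop using key
  have hch : ∀ x : X₀, ∃ Γ : Set X₀, x ∈ X → Γ ∈ GG ∧ x ∈ Γ := by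
    intro x
    by_cases hx : x ∈ X
    · obtain ⟨Γ, hΓ1, hΓ2⟩ := hcov x (hX x hx).1
      exact ⟨Γ, fun _ => ⟨hΓ1, hΓ2⟩⟩
    · exact ⟨∅, fun h => absurd h hx⟩
  choose γ hγ using hch
  set MM : Finset (Set X₀) := X.image γ with hMM
  have hMMG : ∀ Γ ∈ MM, Γ ∈ GG := by
    intro Γ hΓm
    obtain ⟨x, hx, rfl⟩ := Finset.mem_image.mp hΓm
    exact (hγ x hx).1
  refine ⟨MM.biUnion Bad, fun B hB => ?_⟩
  have hfin : ∀ Γ ∈ MM, {x | x ∈ Γ ∧ s₂ B x}.Finite :=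
    fun Γ hΓm => (hprop Γ (hMMG Γ hΓm)).2.2.1 B
  set YΓ : Set X₀ → Finset X₀ :=
    fun Γ => if h : {x | x ∈ Γ ∧ s₂ B x}.Finite then h.toFinset else ∅ with hYΓ
  have hYmem : ∀ Γ ∈ MM, ∀ y, y ∈ YΓ Γ ↔ y ∈ Γ ∧ s₂ B y := by
    intro Γ hΓm y
    simp only [hYΓ, dif_pos (hfin Γ hΓm), Set.Finite.mem_toFinset, Set.mem_ofPred_eq]
  have hYcard : ∀ Γ ∈ MM, (YΓ Γ).card = {x | x ∈ Γ ∧ s₂ B x}.ncard := by
    intro Γ hΓm
    simp only [hYΓ, dif_pos (hfin Γ hΓm)]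
    exact (Set.ncard_eq_toFinset_card _ (hfin Γ hΓm)).symm
  refine ⟨MM.biUnion YΓ, ?_, ?_⟩
  · intro y hy
    obtain ⟨Γ, hΓm, hyΓ⟩ := Finset.mem_biUnion.mp hy
    have h := (hYmem Γ hΓm y).mp hyΓ
    exact ⟨(hprop Γ (hMMG Γ hΓm)).1 h.1, h.2⟩
  · have hdis : ∀ Γ ∈ MM, ∀ Γ' ∈ MM, Γ ≠ Γ' → Disjoint (YΓ Γ) (YΓ Γ') := by
      intro Γ hΓm Γ' hΓm' hne
      rw [Finset.disjoint_left]
      intro y hy hy'
      exact hne (hdisj Γ (hMMG Γ hΓm) Γ' (hMMG Γ' hΓm')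
        ⟨y, ((hYmem Γ hΓm y).mp hy).1, ((hYmem Γ' hΓm' y).mp hy').1⟩)
    rw [Finset.card_biUnion hdis]
    have hstep1 : ∀ Γ ∈ MM, (X.filter fun x => γ x = Γ).card ≤ e₁ Γ := by
      intro Γ hΓm
      have hp := (hprop Γ (hMMG Γ hΓm)).2.1 A
      refine le_trans ?_ hp.2
      rw [← Set.ncard_coe_finset]
      refine Set.ncard_le_ncard ?_ hp.1
      intro x hx
      have hx' := Finset.mem_filter.mp (Finset.mem_coe.mp hx)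
      exact ⟨hx'.2 ▸ (hγ x hx'.1).2, (hX x hx'.1).2⟩
    have hstep2 : ∀ Γ ∈ MM, e₂ Γ ≤ C₂ * (YΓ Γ).card := by
      intro Γ hΓm
      rw [hYcard Γ hΓm]
      refine (hprop Γ (hMMG Γ hΓm)).2.2.2.1 B fun hBm => hB ?_
      exact Finset.mem_biUnion.mpr ⟨Γ, hΓm, hBm⟩
    calc m * X.card = m * ∑ Γ ∈ MM, (X.filter fun x => γ x = Γ).card := by
          rw [hMM, ← Finset.card_eq_sum_card_image γ X]
      _ ≤ m * ∑ Γ ∈ MM, e₁ Γ := Nat.mul_le_mul_left _ (Finset.sum_le_sum hstep1)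
      _ = ∑ Γ ∈ MM, m * e₁ Γ := Finset.mul_sum _ _ _
      _ ≤ ∑ Γ ∈ MM, C * e₂ Γ :=
          Finset.sum_le_sum fun Γ hΓm => (hprop Γ (hMMG Γ hΓm)).2.2.2.2
      _ ≤ ∑ Γ ∈ MM, C * (C₂ * (YΓ Γ).card) :=
          Finset.sum_le_sum fun Γ hΓm => Nat.mul_le_mul_left _ (hstep2 Γ hΓm)
      _ = C * C₂ * ∑ Γ ∈ MM, (YΓ Γ).card := by
          rw [Finset.mul_sum]
          exact Finset.sum_congr rfl fun Γ _ => (mul_assoc _ _ _).symm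

section Curve

variable {K F : Type*} [Field K] [Field F] [Algebra K F]

/-- **The two transfers of the chain** from a system of curves on every set of regular points,
with the relation of the local theorem between the two degrees. -/
theorem transferUp_transferDown (k C₁ C₂ : ℕ)
    (h : ∀ n : ℕ, 2 ≤ n → ∀ c : Divisor K F, HasCurves (Defs.Tup K F n k c) C₂
      (fun d₁ d₂ => d₁ ≤ C₁ * n ^ 2 * d₂ ∧ n ^ 2 * d₂ ≤ C₁ * d₁)) :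
    Defs.TransferUp K F k ∧ Defs.TransferDown K F k := by
  constructor
  · refine ⟨C₁ * C₂, fun n hn c A X hX => ?_⟩
    obtain ⟨GG, hcov, hdisj, hΓ⟩ := h n hn c
    obtain ⟨Bad, hBad⟩ := transfer (fun A x => A ∈ x.1) (fun B x => B ∈ x.2)
      (Defs.Tup K F n k c) GG hcov hdisj 1 (C₁ * n ^ 2) C₂ (fun Γ hG => by
        obtain ⟨h1, d₁, d₂, h2, ⟨Bad, h3⟩, h4⟩ := hΓ Γ hG
        exact ⟨h1, d₁, d₂, fun A => ⟨(h2 A).1, (h2 A).2.1⟩, fun B => (h2 B).2.2.1,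
          ⟨Bad, fun B hB => (h3 B hB).2⟩, by rw [one_mul]; exact h4.1⟩) A X hX
    refine ⟨Bad, fun B hB => ?_⟩
    obtain ⟨Y, hY1, hY2⟩ := hBad B hB
    refine ⟨Y, hY1, ?_⟩
    calc X.card = 1 * X.card := (one_mul _).symm
      _ ≤ C₁ * n ^ 2 * C₂ * Y.card := hY2
      _ = C₁ * C₂ * n ^ 2 * Y.card := by ring
  · refine ⟨C₁ * C₂, fun n hn c B Y hY => ?_⟩
    obtain ⟨GG, hcov, hdisj, hΓ⟩ := h n hn c
    obtain ⟨Bad, hBad⟩ := transfer (fun B x => B ∈ x.2) (fun A x => A ∈ x.1)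
      (Defs.Tup K F n k c) GG hcov hdisj (n ^ 2) C₁ C₂ (fun Γ hG => by
        obtain ⟨h1, d₁, d₂, h2, ⟨Bad, h3⟩, h4⟩ := hΓ Γ hG
        exact ⟨h1, d₂, d₁, fun B => ⟨(h2 B).2.2.1, (h2 B).2.2.2⟩, fun A => (h2 A).1,
          ⟨Bad, fun A hA => (h3 A hA).1⟩, h4.2⟩) B Y hY
    exact ⟨Bad, hBad⟩

end Curve

end Fermat.Agent.S27.G.Transfer
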