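import Fermat.Agent.S27.G.AsmIface
import Fermat.Agent.S27.G.Transfer
import Fermat.Agent.S27.C.Cen
import Fermat.Agent.S27.M.Fibre
import Fermat.Agent.S27.M.FibreCount
import Fermat.Agent.S17.HB.Deg.Pullback

/-!
# Program PJ (statement S27), strand G: the assembly of the two transfers

`Defs.TransferUp K F k ∧ Defs.TransferDown K F k` from the exits of `G/AsmIface` (carrier,
formal uniqueness, propagation of the invariant, local theorem) and four bookkeeping leaves
(stated here as propositions: `GoodChar`, `Transport`, `PlaceExt`, `Ordering`).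

The system of configurations fed to `Transfer.hasCurves_of_exits`:
* `Cfg htr e₁ e₂ n δ` : a configuration field `M` (in the universe of `K`) with a profile
  configuration `d : L.Data htr M (Fin e₁ ⊕ Fin e₂) (mu e₁ e₂ n) m B δ`, generated over `K` by
  its points;
* its places `Pl c` : the places of `M` unramified for every point;
* the ordered centres `cG c w i`, `cF c w j` and the degrees `finrankAlong K (c.d.ρ z)`.
-/

set_option autoImplicit false

open AlgebraicCurve

namespace Fermat.Agent.S27.G.AsmInst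

open Fermat.Agent.S17 Fermat.Agent.S17.HB Fermat.Agent.S27.G.AsmIface

open Classical

universe u v

variable {K : Type u} {F : Type v} [Field K] [Field F] [Algebra K F]

/-! ### Mathlib-level bookkeeping -/

section Bookkeeping

/-- Two homomorphisms of fields over `K` which agree on a set generating the source agree. -/
theorem algHom_eq_of_adjoin_eq_top {M N : Type*} [Field M] [Algebra K M] [Field N] [Algebra K N]
    (S : Set M) (hS : IntermediateField.adjoin K S = ⊤) (f g : M →ₐ[K] N)
    (h : ∀ x ∈ S, f x = g x) : f = g := by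
  let E : IntermediateField K M :=
    { carrier := {x | f x = g x}
      mul_mem' := fun {a b} ha hb => by
        show f (a * b) = g (a * b)
        rw [map_mul, map_mul, ha, hb]
      add_mem' := fun {a b} ha hb => by
        show f (a + b) = g (a + b)
        rw [map_add, map_add, ha, hb]
      algebraMap_mem' := fun r => by
        show f (algebraMap K M r) = g (algebraMap K M r)
        rw [f.commutes, g.commutes]
      inv_mem' := fun a ha => by
        show f a⁻¹ = g a⁻¹
        rw [map_inv₀, map_inv₀, ha] }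
  have hle : IntermediateField.adjoin K S ≤ E := IntermediateField.adjoin_le_iff.mpr h
  ext x
  have hx : x ∈ IntermediateField.adjoin K S := by
    rw [hS]
    exact IntermediateField.mem_top
  exact hle hx

/-- The preimage of a finite set of `ncard ≤ N` under the inclusion of a subtype. -/
theorem subtype_fibre_le {W : Type*} (p : W → Prop) (S : Set W) (N : ℕ) (hfin : S.Finite)
    (hN : S.ncard ≤ N) :
    {w : {w // p w} | w.1 ∈ S}.Finite ∧ {w : {w // p w} | w.1 ∈ S}.ncard ≤ N := by
  have h1 : {w : {w // p w} | w.1 ∈ S}.Finite :=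
    hfin.preimage (Subtype.val_injective.injOn)
  refine ⟨h1, le_trans ?_ hN⟩
  exact Set.ncard_le_ncard_of_injOn Subtype.val (fun a ha => ha) Subtype.val_injective.injOn hfin

/-- The preimage under the inclusion of a subtype of a set inside the subtype has the same
`ncard`. -/
theorem subtype_fibre_eq {W : Type*} (p : W → Prop) (S : Set W) (hS : ∀ w ∈ S, p w) :
    {w : {w // p w} | w.1 ∈ S}.ncard = S.ncard := by
  have h1 : Subtype.val '' {w : {w // p w} | w.1 ∈ S} = S := by
    ext w
    constructor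
    · rintro ⟨⟨w', hw'⟩, hmem, rfl⟩
      exact hmem
    · intro hw
      exact ⟨⟨w, hS w hw⟩, hw, rfl⟩
  rw [← Set.ncard_image_of_injective _ Subtype.val_injective, h1]

/-- Two injective enumerations of the same finite set differ by a permutation. -/
theorem exists_perm_of_image_eq {ι P : Type*} [Fintype ι] (f g : ι → P)
    (hf : Function.Injective f) (hg : Function.Injective g)
    (h : Finset.univ.image f = Finset.univ.image g) : ∃ s : ι ≃ ι, ∀ i, g (s i) = f i := by
  have hmem : ∀ i, ∃ j, g j = f i := by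
    intro i
    have h1 : f i ∈ Finset.univ.image g := h ▸ Finset.mem_image_of_mem f (Finset.mem_univ i)
    obtain ⟨j, -, hj⟩ := Finset.mem_image.mp h1
    exact ⟨j, hj⟩
  choose s hs using hmem
  have hinj : Function.Injective s := by
    intro a b hab
    apply hf
    rw [← hs a, ← hs b, hab]
  exact ⟨Equiv.ofBijective s (Finite.injective_iff_bijective.mp hinj), hs⟩

end Bookkeeping

variable [IsAlgClosed K] [CharZero K] [Algebra.EssFiniteType K F]

/-! ### The system of configurations -/

/-- A configuration of type `(e₁, e₂)` at level `n`, generated over `K` by its points. -/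
structure Cfg (htr : Algebra.trdeg K F = 1) (e₁ e₂ n : ℕ) (δ : Derivation K F F) :
    Type (max (u + 1) v) where
  M : Type u
  [fld : Field M]
  [alg : Algebra K M]
  [ess : Algebra.EssFiniteType K M]
  htrM : Algebra.trdeg K M = 1
  m : ℕ
  B : Divisor K F
  d : L.Data htr M (Fin e₁ ⊕ Fin e₂) (mu e₁ e₂ n) m B δ
  gen : IntermediateField.adjoin K (⋃ z, Set.range (d.ρ z)) = ⊤

attribute [instance] Cfg.fld Cfg.alg Cfg.ess

section System

variable {htr : Algebra.trdeg K F = 1} {e₁ e₂ n : ℕ} {δ : Derivation K F F}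

/-- The places of a configuration which are unramified for every point. -/
abbrev Pl (c : Cfg htr e₁ e₂ n δ) : Type u :=
  {w : Place K c.M // ∀ z, Loc2.ram (c.d.ρ z) w = 1}

/-- The ordered centres of the simple points. -/
noncomputable def cG (c : Cfg htr e₁ e₂ n δ) (w : Pl c) : Fin e₁ → Place K F :=
  fun i => L.cen htr c.htrM (c.d.ρ (Sum.inl i)) w.1

/-- The ordered centres of the points of multiplicity `n`. -/
noncomputable def cF (c : Cfg htr e₁ e₂ n δ) (w : Pl c) : Fin e₂ → Place K F :=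
  fun j => L.cen htr c.htrM (c.d.ρ (Sum.inr j)) w.1

end System

/-! ### Fibres -/

section Fibres

variable {M : Type*} [Field M] [Algebra K M] [Algebra.EssFiniteType K M]

/-- The places over `A` along one point: finitely many, at most the degree. -/
theorem fibre_le (htr : Algebra.trdeg K F = 1) (htrM : Algebra.trdeg K M = 1) (ρ : F →ₐ[K] M)
    (A : Place K F) :
    {w : Place K M | L.cen htr htrM ρ w = A}.Finite ∧
      {w : Place K M | L.cen htr htrM ρ w = A}.ncard ≤ finrankAlong K ρ := by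
  have hfin : {w : Place K M | L.cen htr htrM ρ w = A}.Finite :=
    Deg.Pullback.finite_centre_eq htr htrM ρ A
  refine ⟨hfin, ?_⟩
  have hsum := Deg.Pullback.sum_ite_centre_eq htr htrM ρ A hfin.toFinset
    (fun c hc => hfin.mem_toFinset.mpr hc)
  have hone : ∀ c ∈ hfin.toFinset, (1 : ℤ) ≤
      (if Loc2.centre ρ (Loc2.algHom_isIntegral htr htrM ρ) c = A
        then (Loc2.ram ρ c : ℤ) else 0) := by
    intro c hc
    have hcA : Loc2.centre ρ (Loc2.algHom_isIntegral htr htrM ρ) c = A :=
      hfin.mem_toFinset.mp hc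
    rw [if_pos hcA]
    have := Loc2.ram_pos ρ (Loc2.algHom_isIntegral htr htrM ρ) c
    exact_mod_cast this
  have h2 := Finset.sum_le_sum hone
  rw [Finset.sum_const, nsmul_eq_mul, mul_one, hsum] at h2
  rw [Set.ncard_eq_toFinset_card _ hfin]
  exact_mod_cast h2

end Fibres

/-! ### The bookkeeping leaves (statements) -/

section Leaves

/-- **GOODCHAR**: the unordered tuple of the centres at a place is a regular point in the class of
`c` if and only if `B ~ c` and the ordered tuple is regular. -/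
def GoodChar (htr : Algebra.trdeg K F = 1) : Prop :=
  ∀ (M : Type u) [Field M] [Algebra K M] [Algebra.EssFiniteType K M]
    (htrM : Algebra.trdeg K M = 1) (e₁ e₂ n m k : ℕ), 0 < n → e₁ = k + 1 →
    e₁ + e₂ = R.gR K F + 1 → ∀ (B : Divisor K F) (δ : Derivation K F F)
    (d : L.Data htr M (Fin e₁ ⊕ Fin e₂) (mu e₁ e₂ n) m B δ) (c : Divisor K F) (w : Place K M),
    Asm.tup (fun i => L.cen htr htrM (d.ρ (Sum.inl i)) w)
        (fun j => L.cen htr htrM (d.ρ (Sum.inr j)) w) ∈ Defs.Tup K F n k c ↔
      (B - c ∈ Divisor.principal (K := K) (F := F) ∧ Nsp htr htrM d.ρ w)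

/-- **TRANSPORT**: a place goes over to an isomorphic field, with its orders, centres and
ramification indices. -/
def Transport (htr : Algebra.trdeg K F = 1) : Prop :=
  ∀ (M M' : Type u) [Field M] [Algebra K M] [Algebra.EssFiniteType K M] [Field M'] [Algebra K M']
    [Algebra.EssFiniteType K M'] (htrM : Algebra.trdeg K M = 1) (htrM' : Algebra.trdeg K M' = 1)
    (φ : M ≃ₐ[K] M') (w : Place K M),
    ∃ w' : Place K M', (∀ x : M, w'.ord (φ x) = w.ord x) ∧
      ∀ ρ : F →ₐ[K] M, L.cen htr htrM' ((φ : M →ₐ[K] M').comp ρ) w' = L.cen htr htrM ρ w ∧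
        Loc2.ram ((φ : M →ₐ[K] M').comp ρ) w' = Loc2.ram ρ w

omit [IsAlgClosed K] [CharZero K] [Algebra.EssFiniteType K F] in
/-- **PLACEEXT**: a place is determined by its order function. -/
def PlaceExt (K : Type u) [Field K] : Prop :=
  ∀ (M : Type u) [Field M] [Algebra K M] (_ : Algebra.trdeg K M = 1) (w w' : Place K M),
    (∀ x, w'.ord x = w.ord x) → w = w'

/-- **ORDERING**: a regular point has an ordered form. -/
def Ordering (htr : Algebra.trdeg K F = 1) : Prop :=
  ∀ (n k : ℕ), k < R.gR K F → ∀ (c : Divisor K F) (x : Finset (Place K F) × Finset (Place K F)),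
    x ∈ Defs.Tup K F n k c →
    ∃ T : Fin (k + 1) ⊕ Fin (R.gR K F - k) → Place K F, Function.Injective T ∧
      (∀ z, Module.finrank K ↥(riemannRochSpace
        (∑ z' ∈ Finset.univ.erase z, Finsupp.single (T z') (1 : ℤ))) = 1) ∧
      Asm.tup (fun i => T (Sum.inl i)) (fun j => T (Sum.inr j)) = x

end Leaves

/-! ### The assembly -/

section Main

/-- Relabelling the points of a profile configuration by a permutation which preserves the
multiplicities. -/
def reindex {htr : Algebra.trdeg K F = 1} {M : Type*} [Field M] [Algebra K M] {ι : Type*}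
    [Fintype ι] {μ : ι → ℕ} {m : ℕ} {B : Divisor K F} {δ : Derivation K F F}
    (d : L.Data htr M ι μ m B δ) (σ : ι ≃ ι) (hσ : ∀ z, μ (σ z) = μ z) :
    L.Data htr M ι μ m B δ :=
  { d with
    ρ := fun z => d.ρ (σ z)
    ρ_inj := d.ρ_inj.comp σ.injective
    jets := fun z i hi => d.jets (σ z) i (by rw [hσ]; exact hi) }

/-- In a configuration with one regular place, all but finitely many places are unramified for
every point and regular. -/
theorem finite_bad (htr : Algebra.trdeg K F = 1) (hprop : PropExit htr) {e₁ e₂ n : ℕ}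
    {δ : Derivation K F F} (he : e₁ + e₂ = R.gR K F + 1) (c : Cfg htr e₁ e₂ n δ)
    (w₁ : Place K c.M) (h₁ : Nsp htr c.htrM c.d.ρ w₁) :
    {w : Place K c.M | ¬((∀ z, Loc2.ram (c.d.ρ z) w = 1) ∧ Nsp htr c.htrM c.d.ρ w)}.Finite := by
  have hA : (⋃ z, {w : Place K c.M | 1 < Loc2.ram (c.d.ρ z) w}).Finite :=
    Set.finite_iUnion fun z => M.FibreCount.finite_ram htr c.htrM (c.d.ρ z)
  obtain ⟨S, hS⟩ := C.Cen.exists_finset_injective_cen htr c.htrM c.d.ρ c.d.ρ_inj
  have hC : ∀ z, {w : Place K c.M |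
      Function.Injective (fun z' => L.cen htr c.htrM (c.d.ρ z') w) ∧
      Module.finrank K ↥(riemannRochSpace (∑ z' ∈ Finset.univ.erase z,
        Finsupp.single (L.cen htr c.htrM (c.d.ρ z') w) (1 : ℤ))) ≠ 1}.Finite := by
    intro z
    have hsum : ∀ w : Place K c.M,
        ∑ k : {z' : Fin e₁ ⊕ Fin e₂ // z' ≠ z},
          Finsupp.single (L.cen htr c.htrM (c.d.ρ k.1) w) (1 : ℤ) =
        ∑ z' ∈ Finset.univ.erase z,
          Finsupp.single (L.cen htr c.htrM (c.d.ρ z') w) (1 : ℤ) := by
      intro w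
      exact (Finset.sum_subtype (Finset.univ.erase z) (by intro x; simp)
        (fun z' => Finsupp.single (L.cen htr c.htrM (c.d.ρ z') w) (1 : ℤ))).symm
    have hcard : Fintype.card {z' : Fin e₁ ⊕ Fin e₂ // z' ≠ z} = R.gR K F := by
      have h1 : Fintype.card {z' : Fin e₁ ⊕ Fin e₂ // z' ≠ z} =
          Fintype.card (Fin e₁ ⊕ Fin e₂) - Fintype.card {z' : Fin e₁ ⊕ Fin e₂ // z' = z} :=
        Fintype.card_subtype_compl _
      rw [h1, Fintype.card_sum, Fintype.card_fin, Fintype.card_fin, Fintype.card_subtype_eq]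
      omega
    have h := hprop c.M c.htrM {z' : Fin e₁ ⊕ Fin e₂ // z' ≠ z} (fun k => c.d.ρ k.1) hcard w₁
      (fun a b hab => Subtype.ext (h₁.1 hab)) (by rw [hsum]; exact h₁.2 z)
    refine h.subset ?_
    rintro w ⟨hinj, hne⟩
    refine ⟨fun a b hab => Subtype.ext (hinj hab), ?_⟩
    rw [hsum]
    exact hne
  refine ((hA.union S.finite_toSet).union (Set.finite_iUnion hC)).subset ?_
  intro w hw
  by_cases hr : ∀ z, Loc2.ram (c.d.ρ z) w = 1
  · by_cases hi : Function.Injective (fun z' => L.cen htr c.htrM (c.d.ρ z') w)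
    · right
      have hns : ¬∀ z, Module.finrank K ↥(riemannRochSpace (∑ z' ∈ Finset.univ.erase z,
          Finsupp.single (L.cen htr c.htrM (c.d.ρ z') w) (1 : ℤ))) = 1 :=
        fun h => hw ⟨hr, hi, h⟩
      obtain ⟨z, hz⟩ := not_forall.mp hns
      exact Set.mem_iUnion.mpr ⟨z, hi, hz⟩
    · left
      right
      by_contra hwS
      exact hi (hS w hwS)
  · left
    left
    obtain ⟨z, hz⟩ := not_forall.mp hr
    have hpos := L.ram_pos htr c.htrM (c.d.ρ z) w
    exact Set.mem_iUnion.mpr ⟨z, by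
      show 1 < Loc2.ram (c.d.ρ z) w
      omega⟩

/-- **The system of curves on the regular points of type `(k + 1, g - k)`** in the class of
`cls`, from the exits of the strands. -/
theorem hasCurves_tup (htr : Algebra.trdeg K F = 1) (hprop : PropExit htr)
    (hchar : GoodChar htr) (htrans : Transport htr) (hext : PlaceExt K) (hordg : Ordering htr)
    (δ : Derivation K F F) (n k C₁ : ℕ) (hn : 0 < n) (hk : k < R.gR K F)
    (hcar : CarrierExit htr (k + 1) (R.gR K F - k) n δ)
    (huniq : UniqueExit htr (k + 1) (R.gR K F - k) n δ)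
    (hloc : LocExit htr (k + 1) (R.gR K F - k) n δ C₁) (cls : Divisor K F) :
    Transfer.HasCurves (Defs.Tup K F n k cls)
      (Fintype.card (Fin (k + 1)) ^ Fintype.card (Fin (k + 1)) *
        Fintype.card (Fin (R.gR K F - k)) ^ Fintype.card (Fin (R.gR K F - k)))
      (fun d₁ d₂ => d₁ ≤ C₁ * n ^ 2 * d₂ ∧ n ^ 2 * d₂ ≤ C₁ * d₁) := by
  have he : k + 1 + (R.gR K F - k) = R.gR K F + 1 := by omega
  -- goodness of a place, in ordered form
  have hgc : ∀ (c : Cfg htr (k + 1) (R.gR K F - k) n δ) (w : Pl c),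
      Asm.tup (cG c w) (cF c w) ∈ Defs.Tup K F n k cls ↔
        (c.B - cls ∈ Divisor.principal (K := K) (F := F) ∧ Nsp htr c.htrM c.d.ρ w.1) :=
    fun c w => hchar c.M c.htrM (k + 1) (R.gR K F - k) n c.m k hn rfl he c.B δ c.d cls w.1
  refine Transfer.hasCurves_of_exits (ιG := Fin (k + 1)) (ιF := Fin (R.gR K F - k))
    (Defs.Tup K F n k cls) ?_ _ (Cfg := Cfg htr (k + 1) (R.gR K F - k) n δ) (fun c => Pl c)
    cG cF (fun c i => finrankAlong K (c.d.ρ (Sum.inl i)))
    (fun c j => finrankAlong K (c.d.ρ (Sum.inr j))) ?_ ?_ ?_ ?_ ?_ ?_ ?_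
  · -- the cardinalities on `Tup`
    rintro x ⟨-, h1, h2, -, -⟩
    rw [Fintype.card_fin, Fintype.card_fin]
    exact ⟨h1, by omega⟩
  · -- carrier
    intro x hx
    obtain ⟨T, hTinj, hTns, hTx⟩ := hordg n k hk cls x hx
    obtain ⟨M, iF, iA, iE, htrM, m, d, w₀, hcen, hram, hgen⟩ := hcar T hTinj hTns
    refine ⟨{ M := M, htrM := htrM, m := m, B := _, d := d, gen := hgen }, ⟨w₀, hram⟩, ?_⟩
    rw [← hTx]
    show Asm.tup (fun i => L.cen htr htrM (d.ρ (Sum.inl i)) w₀)
      (fun j => L.cen htr htrM (d.ρ (Sum.inr j)) w₀) = _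
    simp only [hcen]
  · -- uniqueness up to the labels
    intro c c' w w' hgood heq w₁ _
    obtain ⟨-, hN⟩ := (hgc c w).mp hgood
    have hGinj : Function.Injective (cG c w) := fun a b hab => Sum.inl_injective (hN.1 hab)
    have hFinj : Function.Injective (cF c w) := fun a b hab => Sum.inr_injective (hN.1 hab)
    have heq1 : Finset.univ.image (cG c w) = Finset.univ.image (cG c' w') :=
      congrArg Prod.fst heq
    have heq2 : Finset.univ.image (cF c w) = Finset.univ.image (cF c' w') :=
      congrArg Prod.snd heq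
    have hGinj' : Function.Injective (cG c' w') := Asm.injective_of_card_image (by
      rw [← heq1, Finset.card_image_of_injective _ hGinj, Finset.card_univ])
    have hFinj' : Function.Injective (cF c' w') := Asm.injective_of_card_image (by
      rw [← heq2, Finset.card_image_of_injective _ hFinj, Finset.card_univ])
    obtain ⟨s₁, hs₁⟩ := exists_perm_of_image_eq (cG c w) (cG c' w') hGinj hGinj' heq1
    obtain ⟨s₂, hs₂⟩ := exists_perm_of_image_eq (cF c w) (cF c' w') hFinj hFinj' heq2
    have hσμ : ∀ z, mu (k + 1) (R.gR K F - k) n (Equiv.sumCongr s₁ s₂ z) =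
        mu (k + 1) (R.gR K F - k) n z := by
      rintro (i | j) <;> rfl
    have hgen'' : IntermediateField.adjoin K
        (⋃ z, Set.range ((reindex c'.d (Equiv.sumCongr s₁ s₂) hσμ).ρ z)) = ⊤ := by
      have h1 : (⋃ z, Set.range ((reindex c'.d (Equiv.sumCongr s₁ s₂) hσμ).ρ z)) =
          ⋃ z, Set.range (c'.d.ρ z) :=
        (Equiv.sumCongr s₁ s₂).surjective.iUnion_comp (fun z => Set.range (c'.d.ρ z))
      rw [h1]
      exact c'.gen
    obtain ⟨φ, hφ, -⟩ := huniq c.M c'.M c.htrM c'.htrM c.m c'.m c.B c'.B c.d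
      (reindex c'.d (Equiv.sumCongr s₁ s₂) hσμ) w.1 w'.1 c.gen hgen'' w.2
      (fun z => w'.2 (Equiv.sumCongr s₁ s₂ z)) hN (by
        rintro (i | j)
        · exact (hs₁ i).symm
        · exact (hs₂ j).symm)
    obtain ⟨w₁', -, hw₁'⟩ := htrans c.M c'.M c.htrM c'.htrM φ w₁.1
    have hρ : ∀ z, c'.d.ρ (Equiv.sumCongr s₁ s₂ z) = (φ : c.M →ₐ[K] c'.M).comp (c.d.ρ z) :=
      fun z => (hφ z).symm
    have hram : ∀ z', Loc2.ram (c'.d.ρ z') w₁' = 1 := by
      intro z'
      obtain ⟨z, rfl⟩ := (Equiv.sumCongr s₁ s₂).surjective z'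
      rw [hρ z, (hw₁' (c.d.ρ z)).2]
      exact w₁.2 z
    have hcen : ∀ z, L.cen htr c'.htrM (c'.d.ρ (Equiv.sumCongr s₁ s₂ z)) w₁' =
        L.cen htr c.htrM (c.d.ρ z) w₁.1 := by
      intro z
      rw [hρ z]
      exact (hw₁' (c.d.ρ z)).1
    refine ⟨⟨w₁', hram⟩, ?_⟩
    refine Prod.ext ?_ ?_
    · show Finset.univ.image (fun i => L.cen htr c'.htrM (c'.d.ρ (Sum.inl i)) w₁') =
        Finset.univ.image (fun i => L.cen htr c.htrM (c.d.ρ (Sum.inl i)) w₁.1)
      ext P
      simp only [Finset.mem_image, Finset.mem_univ, true_and]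
      constructor
      · rintro ⟨i, rfl⟩
        refine ⟨s₁.symm i, ?_⟩
        have h := hcen (Sum.inl (s₁.symm i))
        rw [Equiv.sumCongr_apply, Sum.map_inl, Equiv.apply_symm_apply] at h
        exact h.symm
      · rintro ⟨i, rfl⟩
        exact ⟨s₁ i, hcen (Sum.inl i)⟩
    · show Finset.univ.image (fun j => L.cen htr c'.htrM (c'.d.ρ (Sum.inr j)) w₁') =
        Finset.univ.image (fun j => L.cen htr c.htrM (c.d.ρ (Sum.inr j)) w₁.1)
      ext P
      simp only [Finset.mem_image, Finset.mem_univ, true_and]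
      constructor
      · rintro ⟨j, rfl⟩
        refine ⟨s₂.symm j, ?_⟩
        have h := hcen (Sum.inr (s₂.symm j))
        rw [Equiv.sumCongr_apply, Sum.map_inr, Equiv.apply_symm_apply] at h
        exact h.symm
      · rintro ⟨j, rfl⟩
        exact ⟨s₂ j, hcen (Sum.inr j)⟩
  · -- an ordered regular tuple determines the place
    intro c w w' hgood hG hF
    obtain ⟨-, hN⟩ := (hgc c w).mp hgood
    obtain ⟨φ, hφ, hφord⟩ := huniq c.M c.M c.htrM c.htrM c.m c.m c.B c.B c.d c.d w.1 w'.1
      c.gen c.gen w.2 w'.2 hN (by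
        rintro (i | j)
        · exact congrFun hG i
        · exact congrFun hF j)
    have hid : (φ : c.M →ₐ[K] c.M) = AlgHom.id K c.M :=
      algHom_eq_of_adjoin_eq_top _ c.gen _ _ (by
        intro x hx
        obtain ⟨z, hz⟩ := Set.mem_iUnion.mp hx
        obtain ⟨f, rfl⟩ := hz
        exact congrArg (fun g => g f) (hφ z))
    have hord : ∀ x, w'.1.ord x = w.1.ord x := by
      intro x
      have h := hφord x
      have hx : φ x = x := congrArg (fun g => g x) hid
      rwa [hx] at h
    exact Subtype.ext (hext c.M c.htrM w.1 w'.1 hord)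
  · -- fibres, simple points
    intro c z A
    have h := fibre_le htr c.htrM (c.d.ρ (Sum.inl z)) A
    exact subtype_fibre_le _ _ _ h.1 h.2
  · -- fibres, points of multiplicity `n`
    intro c z A
    have h := fibre_le htr c.htrM (c.d.ρ (Sum.inr z)) A
    exact subtype_fibre_le _ _ _ h.1 h.2
  · -- general fibres
    rintro c ⟨w₀, hgood₀⟩
    obtain ⟨hBc, hN₀⟩ := (hgc c w₀).mp hgood₀
    have hbad := finite_bad htr hprop he c w₀.1 hN₀
    obtain ⟨S₂, hS₂⟩ := M.Fibre.exists_finset_forall_ncard_fibre htr c.htrM c.d.ρ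
    refine ⟨(hbad.toFinset.biUnion fun w =>
      Finset.univ.image fun z => L.cen htr c.htrM (c.d.ρ z) w) ∪ S₂, ?_⟩
    intro A hA
    rw [Finset.mem_union, not_or] at hA
    have key : ∀ z (w : Place K c.M), L.cen htr c.htrM (c.d.ρ z) w = A →
        (∀ z', Loc2.ram (c.d.ρ z') w = 1) ∧ Nsp htr c.htrM c.d.ρ w := by
      intro z w hw
      by_contra hcon
      apply hA.1
      rw [Finset.mem_biUnion]
      exact ⟨w, hbad.mem_toFinset.mpr hcon, Finset.mem_image.mpr ⟨z, Finset.mem_univ z, hw⟩⟩
    have hfull : ∀ z, finrankAlong K (c.d.ρ z) ≤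
        {w : Pl c | L.cen htr c.htrM (c.d.ρ z) w.1 = A}.ncard := by
      intro z
      have h1 := subtype_fibre_eq (fun w : Place K c.M => ∀ z', Loc2.ram (c.d.ρ z') w = 1)
        {w : Place K c.M | L.cen htr c.htrM (c.d.ρ z) w = A} (fun w hw => (key z w hw).1)
      have h2 := hS₂ A hA.2 z
      exact le_of_eq (h2.symm.trans h1.symm)
    exact ⟨fun i => ⟨hfull (Sum.inl i), fun w hw =>
        (hgc c w).mpr ⟨hBc, (key (Sum.inl i) w.1 hw).2⟩⟩,
      fun j => ⟨hfull (Sum.inr j), fun w hw =>
        (hgc c w).mpr ⟨hBc, (key (Sum.inr j) w.1 hw).2⟩⟩⟩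
  · -- the local theorem
    rintro c ⟨w₀, hgood₀⟩
    obtain ⟨-, hN₀⟩ := (hgc c w₀).mp hgood₀
    exact hloc c.M c.htrM c.m c.B c.d w₀.1 hN₀

/-- **The exit of the assembly** in the literal consumed by `Wire.bounds_of_curves`: for every
`k < gR` a system of curves on every set of regular points of type `(k + 1, g - k)`, with
constants independent of the level `n` and of the class. -/
theorem hcur_of_exits (htr : Algebra.trdeg K F = 1) (hprop : PropExit htr)
    (hchar : GoodChar htr) (htrans : Transport htr) (hext : PlaceExt K) (hordg : Ordering htr)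
    (δ : Derivation K F F)
    (hcar : ∀ e₁ e₂ n : ℕ, 0 < n → e₁ + e₂ = R.gR K F + 1 → CarrierExit htr e₁ e₂ n δ)
    (huniq : ∀ e₁ e₂ n : ℕ, 0 < n → e₁ + e₂ = R.gR K F + 1 → UniqueExit htr e₁ e₂ n δ)
    (hloc : ∃ C₁ : ℕ, ∀ e₁ e₂ n : ℕ, 0 < n → 0 < e₁ → 0 < e₂ → e₁ + e₂ = R.gR K F + 1 →
      LocExit htr e₁ e₂ n δ C₁) :
    ∀ k, k < R.gR K F → ∃ C₁ C₂ : ℕ, ∀ n, 2 ≤ n → ∀ c : Divisor K F,
      Transfer.HasCurves (Defs.Tup K F n k c) C₂
        (fun d₁ d₂ => d₁ ≤ C₁ * n ^ 2 * d₂ ∧ n ^ 2 * d₂ ≤ C₁ * d₁) := by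
  intro k hk
  obtain ⟨C₁, hC₁⟩ := hloc
  refine ⟨C₁, Fintype.card (Fin (k + 1)) ^ Fintype.card (Fin (k + 1)) *
    Fintype.card (Fin (R.gR K F - k)) ^ Fintype.card (Fin (R.gR K F - k)), fun n hn c => ?_⟩
  have he : k + 1 + (R.gR K F - k) = R.gR K F + 1 := by omega
  exact hasCurves_tup htr hprop hchar htrans hext hordg δ n k C₁ (by omega) hk
    (hcar _ _ n (by omega) he) (huniq _ _ n (by omega) he)
    (hC₁ _ _ n (by omega) (by omega) (by omega) he) c

end Main

end Fermat.Agent.S27.G.AsmInst
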