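import Fermat.Agent.S27.G.Asm
import Fermat.Agent.S27.G.AsmIface

/-!
# Program PJ (statement S27), strand G: ordering a regular point

The assembly of the two transfers works with ORDERED points on a profile configuration (labels
`Fin (k + 1) ⊕ Fin (g - k)`: the simple points, then the points of multiplicity `n`), while the
chain counts UNORDERED regular points `x ∈ Defs.Tup K F n k c`.  This file is the bookkeeping
between the two.

* `exists_perm_of_image_eq` (Mathlib only): two injective labellings with the same image differ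
  by a permutation of the labels.
* `exists_ordering`: a regular point `x ∈ Defs.Tup K F n k c` has an ordering
  `T : Fin (k + 1) ⊕ Fin (g - k) → Place K F`: `T` is injective, every family of all the points
  but one is non-special, the unordered tuple of `T` is `x`, and the divisor
  `∑ z, mu z • T z` is in the class of `c`.  This is exactly the input of the carrier exit
  `AsmIface.CarrierExit`.
-/

set_option autoImplicit false

open AlgebraicCurve

namespace Fermat.Agent.S27.G.Ordering

open Classical

/-- Two injective labellings with the same image differ by a permutation of the labels. -/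
theorem exists_perm_of_image_eq {ι P : Type*} [Fintype ι] [DecidableEq P] (f g : ι → P)
    (hf : Function.Injective f) (_hg : Function.Injective g)
    (h : Finset.univ.image f = Finset.univ.image g) : ∃ s : ι ≃ ι, ∀ i, g (s i) = f i := by
  have hex : ∀ i, ∃ j, g j = f i := fun i => by
    have hi : f i ∈ Finset.univ.image g := h ▸ Finset.mem_image_of_mem f (Finset.mem_univ i)
    obtain ⟨j, -, hj⟩ := Finset.mem_image.mp hi
    exact ⟨j, hj⟩
  choose s hs using hex
  have hinj : Function.Injective s := fun i i' hii' => hf (by rw [← hs i, ← hs i', hii'])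
  exact ⟨Equiv.ofBijective s (Finite.injective_iff_bijective.mp hinj), hs⟩

universe u v

variable {K : Type u} {F : Type v} [Field K] [Field F] [Algebra K F]

/-- **Ordering a regular point.**  A regular point `x` of type `(k + 1, g - k)` in the class of
`c` is the unordered tuple of an injective labelling `T` of its `g + 1` points (the simple points
first), every family of all the points but one being non-special, and `∑ z, mu z • T z` lies in
the class of `c`. -/
theorem exists_ordering (_htr : Algebra.trdeg K F = 1) (n k : ℕ) (hk : k < S17.R.gR K F)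
    (c : Divisor K F) (x : Defs.Pt K F) (hx : x ∈ Defs.Tup K F n k c) :
    ∃ T : Fin (k + 1) ⊕ Fin (S17.R.gR K F - k) → Place K F, Function.Injective T ∧
      (∀ z, Module.finrank K ↥(riemannRochSpace
        (∑ z' ∈ Finset.univ.erase z, Finsupp.single (T z') (1 : ℤ))) = 1) ∧
      Asm.tup (fun i => T (Sum.inl i)) (fun j => T (Sum.inr j)) = x ∧
      (∑ z, (AsmIface.mu (k + 1) (S17.R.gR K F - k) n z : ℤ) • Finsupp.single (T z) (1 : ℤ)) - c ∈
        Divisor.principal (K := K) (F := F) := by
  obtain ⟨G, Fs⟩ := x
  obtain ⟨hdisj, hG, hcard, hP, hQ⟩ := hx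
  simp only at hdisj hG hcard hP hQ
  have hFs : Fs.card = S17.R.gR K F - k := by omega
  -- the two labellings
  let eG : G ≃ Fin (k + 1) := G.equivFinOfCardEq hG
  let eF : Fs ≃ Fin (S17.R.gR K F - k) := Fs.equivFinOfCardEq hFs
  let T : Fin (k + 1) ⊕ Fin (S17.R.gR K F - k) → Place K F :=
    Sum.elim (fun i => ((eG.symm i : G) : Place K F)) (fun j => ((eF.symm j : Fs) : Place K F))
  have hTl : ∀ i, T (Sum.inl i) ∈ G := fun i => (eG.symm i).2
  have hTr : ∀ j, T (Sum.inr j) ∈ Fs := fun j => (eF.symm j).2
  have hinjl : Function.Injective fun i => T (Sum.inl i) := fun i i' h =>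
    eG.symm.injective (Subtype.ext h)
  have hinjr : Function.Injective fun j => T (Sum.inr j) := fun j j' h =>
    eF.symm.injective (Subtype.ext h)
  have himG : Finset.univ.image (fun i => T (Sum.inl i)) = G := by
    ext v
    constructor
    · intro hv
      obtain ⟨i, -, rfl⟩ := Finset.mem_image.mp hv
      exact hTl i
    · intro hv
      refine Finset.mem_image.mpr ⟨eG ⟨v, hv⟩, Finset.mem_univ _, ?_⟩
      show ((eG.symm (eG ⟨v, hv⟩) : G) : Place K F) = v
      rw [Equiv.symm_apply_apply]
  have himF : Finset.univ.image (fun j => T (Sum.inr j)) = Fs := by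
    ext v
    constructor
    · intro hv
      obtain ⟨j, -, rfl⟩ := Finset.mem_image.mp hv
      exact hTr j
    · intro hv
      refine Finset.mem_image.mpr ⟨eF ⟨v, hv⟩, Finset.mem_univ _, ?_⟩
      show ((eF.symm (eF ⟨v, hv⟩) : Fs) : Place K F) = v
      rw [Equiv.symm_apply_apply]
  have hTinj : Function.Injective T := by
    rintro (i | j) (i' | j') h
    · exact congrArg Sum.inl (hinjl h)
    · exact absurd (hTr j') (Finset.disjoint_left.mp hdisj (h ▸ hTl i))
    · exact absurd (hTr j) (Finset.disjoint_left.mp hdisj (h ▸ hTl i'))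
    · exact congrArg Sum.inr (hinjr h)
  -- sums over the labels are sums over the two sets
  have hsumG : ∀ f : Place K F → Divisor K F, ∑ i, f (T (Sum.inl i)) = ∑ v ∈ G, f v := by
    intro f
    conv_rhs => rw [← himG]
    exact (Finset.sum_image fun i _ i' _ h => hinjl h).symm
  have hsumF : ∀ f : Place K F → Divisor K F, ∑ j, f (T (Sum.inr j)) = ∑ v ∈ Fs, f v := by
    intro f
    conv_rhs => rw [← himF]
    exact (Finset.sum_image fun j _ j' _ h => hinjr h).symm
  have key : ∀ z, ∑ z' ∈ Finset.univ.erase z, Finsupp.single (T z') (1 : ℤ) =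
      (∑ v ∈ G, Finsupp.single v (1 : ℤ) + ∑ v ∈ Fs, Finsupp.single v (1 : ℤ)) -
        Finsupp.single (T z) (1 : ℤ) := by
    intro z
    rw [Finset.sum_erase_eq_sub (Finset.mem_univ z), Fintype.sum_sum_type,
      hsumG fun v => Finsupp.single v (1 : ℤ), hsumF fun v => Finsupp.single v (1 : ℤ)]
  refine ⟨T, hTinj, ?_, ?_, ?_⟩
  · -- non-speciality of every family of all the points but one
    rintro (i | j)
    · have h1 := (hP _ (hTl i)).2.2.2.1
      rw [Finset.sum_erase_eq_sub (hTl i)] at h1
      rw [key]
      have hd : (∑ v ∈ G, Finsupp.single v (1 : ℤ) + ∑ v ∈ Fs, Finsupp.single v (1 : ℤ)) -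
          Finsupp.single (T (Sum.inl i)) (1 : ℤ) =
          ∑ v ∈ G, Finsupp.single v (1 : ℤ) - Finsupp.single (T (Sum.inl i)) (1 : ℤ) +
            ∑ v ∈ Fs, Finsupp.single v (1 : ℤ) := by
        abel
      rw [hd]
      exact h1
    · have h1 := (hQ _ (hTr j)).2.2.2.1
      rw [Finset.sum_erase_eq_sub (hTr j)] at h1
      rw [key]
      have hd : (∑ v ∈ G, Finsupp.single v (1 : ℤ) + ∑ v ∈ Fs, Finsupp.single v (1 : ℤ)) -
          Finsupp.single (T (Sum.inr j)) (1 : ℤ) =
          ∑ v ∈ G, Finsupp.single v (1 : ℤ) +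
            (∑ v ∈ Fs, Finsupp.single v (1 : ℤ) - Finsupp.single (T (Sum.inr j)) (1 : ℤ)) := by
        abel
      rw [hd]
      exact h1
  · -- the unordered tuple
    show (Finset.univ.image (fun i => T (Sum.inl i)), Finset.univ.image (fun j => T (Sum.inr j)))
      = (G, Fs)
    rw [himG, himF]
  · -- the class
    have hne : G.Nonempty := Finset.card_pos.mp (by omega)
    obtain ⟨P, hPG⟩ := hne
    have h2 := (hP P hPG).2.2.2.2
    rw [Finset.sum_erase_eq_sub hPG] at h2
    have hsum : ∑ z, (AsmIface.mu (k + 1) (S17.R.gR K F - k) n z : ℤ) •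
        Finsupp.single (T z) (1 : ℤ) =
        ∑ v ∈ G, Finsupp.single v (1 : ℤ) + (n : ℤ) • ∑ v ∈ Fs, Finsupp.single v (1 : ℤ) := by
      rw [Fintype.sum_sum_type]
      simp only [AsmIface.mu, Sum.elim_inl, Sum.elim_inr, Nat.cast_one, one_smul]
      rw [hsumG fun v => Finsupp.single v (1 : ℤ),
        hsumF fun v => (n : ℤ) • Finsupp.single v (1 : ℤ), Finset.smul_sum]
    rw [hsum]
    have hd : ∑ v ∈ G, Finsupp.single v (1 : ℤ) + (n : ℤ) • ∑ v ∈ Fs, Finsupp.single v (1 : ℤ) - c =
        ∑ v ∈ G, Finsupp.single v (1 : ℤ) - Finsupp.single P (1 : ℤ) +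
          (n : ℤ) • ∑ v ∈ Fs, Finsupp.single v (1 : ℤ) - (c - Finsupp.single P (1 : ℤ)) := by
      abel
    rw [hd]
    exact h2

end Fermat.Agent.S27.G.Ordering
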