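import Mathlib
import Fermat.Agent.S17.HB.Loc2
import Fermat.Agent.S17.HB.Deg.Defs
import Fermat.Agent.S27.L.Defs

/-!
# Program PJ (statement S27), strand G: transport of places along an isomorphism

`e : M ≃ₐ[K] M'` is an isomorphism of two configuration fields (function fields of one variable
over `K`), `ρ : F →ₐ[K] M` a point of the first one.

* `map e w` : the place of `M'` corresponding to the place `w` of `M` (local ring `e (O_w)`);
* `ord_map_apply` : `(map e w).ord (e x) = w.ord x`;
* `centre_comp`, `cen_comp`, `cen_of_comp_eq` : the centre on `F` of `e ∘ ρ` at `map e w` is the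
  centre of `ρ` at `w`;
* `ram_comp`, `ram_of_comp_eq` : the same for the ramification index;
* `image_cen_of_comp_eq` : the unordered centre tuples of two families of points identified by
  `e` up to a relabelling agree;
* `equiv e` : the bijection `Place K M ≃ Place K M'`.

Used by the assembly of strand G: the isomorphism of two configurations over all their points
(formal uniqueness, `C/UniqIso.exists_algEquiv`) carries the places of the first to the places
of the second, with the same centres and the same ramification.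
-/

set_option autoImplicit false

open AlgebraicCurve

namespace Fermat.Agent.S27.G.PlaceMap

open Fermat.Agent.S17 Fermat.Agent.S17.HB

variable {K F M M' : Type*} [Field K] [Field F] [Algebra K F] [Field M] [Algebra K M]
  [Field M'] [Algebra K M']

/-- An isomorphism is integral. -/
theorem isIntegral_algEquiv (e : M ≃ₐ[K] M') : (e : M →ₐ[K] M').toRingHom.IsIntegral :=
  RingHom.isIntegral_of_surjective _ fun y => ⟨e.symm y, e.apply_symm_apply y⟩

/-- The place of `M'` corresponding to the place `w` of `M` under the isomorphism `e`. -/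
noncomputable def map (e : M ≃ₐ[K] M') (w : Place K M) : Place K M' :=
  Loc2.centre (e.symm : M' →ₐ[K] M) (isIntegral_algEquiv e.symm) w

theorem mem_map_iff (e : M ≃ₐ[K] M') (w : Place K M) (y : M') :
    y ∈ (map e w).toValuationSubring ↔ e.symm y ∈ w.toValuationSubring :=
  Loc2.mem_centre_iff (e.symm : M' →ₐ[K] M) (isIntegral_algEquiv e.symm) w y

theorem apply_mem_map_iff (e : M ≃ₐ[K] M') (w : Place K M) (x : M) :
    e x ∈ (map e w).toValuationSubring ↔ x ∈ w.toValuationSubring := by
  rw [mem_map_iff, e.symm_apply_apply]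

theorem map_symm_map (e : M ≃ₐ[K] M') (w : Place K M) : map e.symm (map e w) = w := by
  refine Place.ext (SetLike.ext fun x => ?_)
  rw [mem_map_iff, mem_map_iff, AlgEquiv.symm_symm, e.symm_apply_apply]

theorem map_map_symm (e : M ≃ₐ[K] M') (w' : Place K M') : map e (map e.symm w') = w' := by
  have h := map_symm_map e.symm w'
  rwa [AlgEquiv.symm_symm] at h

/-- The bijection between the places of two isomorphic fields. -/
noncomputable def equiv (e : M ≃ₐ[K] M') : Place K M ≃ Place K M' where
  toFun := map e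
  invFun := map e.symm
  left_inv := map_symm_map e
  right_inv := map_map_symm e

/-- The centre of `e ∘ ρ` at the transported place is the centre of `ρ`. -/
theorem centre_comp (e : M ≃ₐ[K] M') (ρ : F →ₐ[K] M) (hρ : ρ.toRingHom.IsIntegral)
    (hρ' : ((e : M →ₐ[K] M').comp ρ).toRingHom.IsIntegral) (w : Place K M) :
    Loc2.centre ((e : M →ₐ[K] M').comp ρ) hρ' (map e w) = Loc2.centre ρ hρ w := by
  refine Place.ext (SetLike.ext fun f => ?_)
  rw [Loc2.mem_centre_iff, Loc2.mem_centre_iff, AlgHom.comp_apply]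
  exact apply_mem_map_iff e w (ρ f)

/-- The order at the transported place. -/
theorem ord_map_apply (e : M ≃ₐ[K] M') (w : Place K M) (x : M) :
    (map e w).ord (e x) = w.ord x := by
  have h1 : ∀ y : M', w.ord (e.symm y) =
      (Loc2.ram (e.symm : M' →ₐ[K] M) w : ℤ) * (map e w).ord y := fun y =>
    Loc2.ord_map (e.symm : M' →ₐ[K] M) (isIntegral_algEquiv e.symm) w y
  have hc : Loc2.centre (e : M →ₐ[K] M') (isIntegral_algEquiv e) (map e w) = w := by
    refine Place.ext (SetLike.ext fun x => ?_)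
    rw [Loc2.mem_centre_iff]
    exact apply_mem_map_iff e w x
  have h2 : ∀ x : M, (map e w).ord (e x) =
      (Loc2.ram (e : M →ₐ[K] M') (map e w) : ℤ) * w.ord x := by
    intro x
    have h := Loc2.ord_map (e : M →ₐ[K] M') (isIntegral_algEquiv e) (map e w) x
    rw [hc] at h
    exact h
  obtain ⟨ϖ, hϖ⟩ := Deg.exists_ord_eq_one w
  have h3 : (1 : ℤ) = (Loc2.ram (e.symm : M' →ₐ[K] M) w : ℤ) *
      (Loc2.ram (e : M →ₐ[K] M') (map e w) : ℤ) := by
    have h := h1 (e ϖ)
    rw [e.symm_apply_apply, hϖ, h2 ϖ, hϖ, mul_one] at h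
    exact h
  have h4 : Loc2.ram (e : M →ₐ[K] M') (map e w) = 1 := by
    have h5 : Loc2.ram (e.symm : M' →ₐ[K] M) w * Loc2.ram (e : M →ₐ[K] M') (map e w) = 1 := by
      exact_mod_cast h3.symm
    exact Nat.eq_one_of_mul_eq_one_left h5
  rw [h2 x, h4, Nat.cast_one, one_mul]

theorem ord_symm_apply (e : M ≃ₐ[K] M') (w : Place K M) (y : M') :
    w.ord (e.symm y) = (map e w).ord y := by
  rw [← ord_map_apply e w (e.symm y), e.apply_symm_apply]

/-- The ramification index of `e ∘ ρ` at the transported place is that of `ρ`. -/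
theorem ram_comp (e : M ≃ₐ[K] M') (ρ : F →ₐ[K] M) (hρ : ρ.toRingHom.IsIntegral)
    (hρ' : ((e : M →ₐ[K] M').comp ρ).toRingHom.IsIntegral) (w : Place K M) :
    Loc2.ram ((e : M →ₐ[K] M').comp ρ) (map e w) = Loc2.ram ρ w := by
  obtain ⟨t, ht⟩ := Deg.exists_ord_eq_one (Loc2.centre ρ hρ w)
  have h1 := Loc2.ord_map ((e : M →ₐ[K] M').comp ρ) hρ' (map e w) t
  rw [centre_comp e ρ hρ hρ' w, ht, mul_one, AlgHom.comp_apply] at h1
  have h2 := Loc2.ord_map ρ hρ w t
  rw [ht, mul_one] at h2
  have h3 : (map e w).ord ((e : M →ₐ[K] M') (ρ t)) = w.ord (ρ t) := ord_map_apply e w (ρ t)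
  have h4 : (Loc2.ram ((e : M →ₐ[K] M').comp ρ) (map e w) : ℤ) = (Loc2.ram ρ w : ℤ) :=
    h1.symm.trans (h3.trans h2)
  exact_mod_cast h4

section Curve

variable (htr : Algebra.trdeg K F = 1) (htrM : Algebra.trdeg K M = 1)
  (htrM' : Algebra.trdeg K M' = 1)

include htr htrM htrM'

/-- The centre (vocabulary of strand L) of `e ∘ ρ` at the transported place. -/
theorem cen_comp (e : M ≃ₐ[K] M') (ρ : F →ₐ[K] M) (w : Place K M) :
    L.cen htr htrM' ((e : M →ₐ[K] M').comp ρ) (map e w) = L.cen htr htrM ρ w :=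
  centre_comp e ρ (Loc2.algHom_isIntegral htr htrM ρ)
    (Loc2.algHom_isIntegral htr htrM' ((e : M →ₐ[K] M').comp ρ)) w

/-- The centre of a point `ρ'` of `M'` identified with the point `ρ` of `M` by `e`. -/
theorem cen_of_comp_eq (e : M ≃ₐ[K] M') {ρ : F →ₐ[K] M} {ρ' : F →ₐ[K] M'}
    (h : (e : M →ₐ[K] M').comp ρ = ρ') (w : Place K M) :
    L.cen htr htrM' ρ' (map e w) = L.cen htr htrM ρ w := by
  subst h
  exact cen_comp htr htrM htrM' e ρ w

/-- The ramification index of a point `ρ'` of `M'` identified with the point `ρ` of `M`. -/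
theorem ram_of_comp_eq (e : M ≃ₐ[K] M') {ρ : F →ₐ[K] M} {ρ' : F →ₐ[K] M'}
    (h : (e : M →ₐ[K] M').comp ρ = ρ') (w : Place K M) :
    Loc2.ram ρ' (map e w) = Loc2.ram ρ w := by
  subst h
  exact ram_comp e ρ (Loc2.algHom_isIntegral htr htrM ρ)
    (Loc2.algHom_isIntegral htr htrM' ((e : M →ₐ[K] M').comp ρ)) w

/-- Two families of points identified by `e` up to a relabelling `π` have the same unordered
centre tuple at corresponding places. -/
theorem image_cen_of_comp_eq [DecidableEq (Place K F)] (e : M ≃ₐ[K] M') {ι ι' : Type*}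
    [Fintype ι] [Fintype ι'] (ρ : ι → (F →ₐ[K] M)) (ρ' : ι' → (F →ₐ[K] M')) (π : ι ≃ ι')
    (h : ∀ z, (e : M →ₐ[K] M').comp (ρ z) = ρ' (π z)) (w : Place K M) :
    Finset.univ.image (fun z => L.cen htr htrM' (ρ' z) (map e w)) =
      Finset.univ.image (fun z => L.cen htr htrM (ρ z) w) := by
  ext P
  simp only [Finset.mem_image, Finset.mem_univ, true_and]
  constructor
  · rintro ⟨z', rfl⟩
    refine ⟨π.symm z', ?_⟩
    rw [← cen_of_comp_eq htr htrM htrM' e (h (π.symm z')) w, π.apply_symm_apply]
  · rintro ⟨z, rfl⟩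
    exact ⟨π z, cen_of_comp_eq htr htrM htrM' e (h z) w⟩

/-- Unramifiedness of all the points is preserved by the transport. -/
theorem unram_of_comp_eq (e : M ≃ₐ[K] M') {ι ι' : Type*} (ρ : ι → (F →ₐ[K] M))
    (ρ' : ι' → (F →ₐ[K] M')) (π : ι ≃ ι')
    (h : ∀ z, (e : M →ₐ[K] M').comp (ρ z) = ρ' (π z)) (w : Place K M)
    (hw : ∀ z, Loc2.ram (ρ z) w = 1) (z' : ι') : Loc2.ram (ρ' z') (map e w) = 1 := by
  have h1 := ram_of_comp_eq htr htrM htrM' e (h (π.symm z')) w
  rw [π.apply_symm_apply] at h1
  rw [h1]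
  exact hw (π.symm z')

end Curve

end Fermat.Agent.S27.G.PlaceMap
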