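import Mathlib
import Fermat.Agent.S24.FF.Ord
import Fermat.Agent.S17.HB.Loc2
import Fermat.Agent.S27.L.Defs
import Fermat.Agent.S27.G.PlaceMap

/-!
# Program PJ (statement S27), strand G: TRANSPORT (G-ASM LINE #1 (6))

Places along an isomorphism `φ : M ≃ₐ[K] M'` of two configuration fields, in the literal the
assembly `G/AsmInst` consumes:

* `exists_place_equiv` : every place `w` of `M` has a place `w'` of `M'` with
  `w'.ord (φ x) = w.ord x` for all `x`, and for every point `ρ : F →ₐ[K] M` the centre and the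
  ramification index of `φ ∘ ρ` at `w'` are those of `ρ` at `w`;
* `place_ext_ord` : a place is determined by its order function.

The transport itself is `G/PlaceMap.map` (landed); this file only packages it.
-/

set_option autoImplicit false

open AlgebraicCurve

namespace Fermat.Agent.S27.G.PlaceEquiv

open Fermat.Agent.S17 Fermat.Agent.S17.HB

variable {K F M M' : Type*} [Field K] [Field F] [Algebra K F] [Field M] [Algebra K M]
  [Field M'] [Algebra K M']

/-- **TRANSPORT.** Places along an isomorphism: orders, centres and ramification indices. -/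
theorem exists_place_equiv (htr : Algebra.trdeg K F = 1) (htrM : Algebra.trdeg K M = 1)
    (htrM' : Algebra.trdeg K M' = 1) (φ : M ≃ₐ[K] M') (w : Place K M) :
    ∃ w' : Place K M', (∀ x : M, w'.ord (φ x) = w.ord x) ∧
      ∀ ρ : F →ₐ[K] M,
        L.cen htr htrM' ((φ : M →ₐ[K] M').comp ρ) w' = L.cen htr htrM ρ w ∧
        Loc2.ram ((φ : M →ₐ[K] M').comp ρ) w' = Loc2.ram ρ w :=
  ⟨PlaceMap.map φ w, PlaceMap.ord_map_apply φ w, fun ρ =>
    ⟨PlaceMap.cen_comp htr htrM htrM' φ ρ w,
      PlaceMap.ram_comp φ ρ (Loc2.algHom_isIntegral htr htrM ρ)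
        (Loc2.algHom_isIntegral htr htrM' ((φ : M →ₐ[K] M').comp ρ)) w⟩⟩

/-- A place is determined by its order function. -/
theorem place_ext_ord (w w' : Place K M) (h : ∀ x : M, w'.ord x = w.ord x) : w = w' := by
  refine Place.ext (SetLike.ext fun x => ?_)
  by_cases hx : x = 0
  · rw [hx]
    exact ⟨fun _ => zero_mem _, fun _ => zero_mem _⟩
  · rw [← Fermat.Agent.S24.FF.ord_nonneg_iff w hx, ← Fermat.Agent.S24.FF.ord_nonneg_iff w' hx,
      h x]

/-- The transported place is unique: it is `PlaceMap.map φ w`. -/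
theorem eq_map_of_ord (φ : M ≃ₐ[K] M') (w : Place K M) (w' : Place K M')
    (h : ∀ x : M, w'.ord (φ x) = w.ord x) : w' = PlaceMap.map φ w := by
  refine (place_ext_ord (PlaceMap.map φ w) w' fun y => ?_).symm
  have h1 := h (φ.symm y)
  rw [φ.apply_symm_apply] at h1
  rw [h1, PlaceMap.ord_symm_apply]

end Fermat.Agent.S27.G.PlaceEquiv
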