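import Mathlib
import Fermat.Agent.S17.R.RRCor
import Fermat.Agent.S17.R.CanonicalOff
import Fermat.Agent.S17.HB.Deg.Pullback
import Fermat.Agent.S27.L.DetNe
import Fermat.Agent.S27.L.DetConv
import Fermat.Agent.S27.G.AsmIface

/-!
# Program PJ (statement S27), strand G: propagation of the invariant (`AsmIface.PropExit`)

`σ k : F →ₐ[K] M` (`k : κ`, `card κ = gR`) points of a configuration `M`.  If at ONE place `w₁` of
`M` the centres are pairwise distinct and non-special (`l(∑ centres) = 1`), then the centres are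
non-special at all but finitely many places of `M`:

* `finite_finrank_ne_one` : `{w | l(∑ k, centre k at w) ≠ 1}` is finite;
* `propExit` : `AsmIface.PropExit htr`, the exit consumed by the assembly `G/AsmInst`.

Proof: `W` a canonical divisor (Riemann-Roch of strand R), `u` a basis of `L(W)` (`l(W) = gR`),
`D = det [σ k (u b)]`.  `D ≠ 0` by `L.DetNe.evalDet_ne_zero_of_place` at `w₁`
(`L(W - ∑ centres) = 0` there).  At every place `w` where `ord_w D = 0` and `W` vanishes at the
centres, `L.DetConv.forall_eq_zero_of_ord_evalDet_eq_zero` gives `L(W - ∑ centres) = 0`, and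
Riemann-Roch gives `l(∑ centres) = 1`.  The other places are the support of `div D` and the
fibres of the points over the support of `W`: a finite set.
-/

set_option autoImplicit false

open AlgebraicCurve

namespace Fermat.Agent.S27.G.PropExit

open Fermat.Agent.S17 Fermat.Agent.S17.HB

universe u v

variable {K : Type u} {F : Type v} [Field K] [Field F] [Algebra K F]
variable [IsAlgClosed K] [CharZero K] [Algebra.EssFiniteType K F]

/-- **Propagation of non-speciality.**  `gR` points of a configuration which are non-special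
with pairwise distinct centres at one place are non-special at all but finitely many places. -/
theorem finite_finrank_ne_one {M : Type*} [Field M] [Algebra K M] [Algebra.EssFiniteType K M]
    (htr : Algebra.trdeg K F = 1) (htrM : Algebra.trdeg K M = 1) {κ : Type*} [Fintype κ]
    (σ : κ → (F →ₐ[K] M)) (hκ : Fintype.card κ = R.gR K F) (w₁ : Place K M)
    (hinj₁ : Function.Injective fun k => L.cen htr htrM (σ k) w₁)
    (h₁ : Module.finrank K ↥(riemannRochSpace
      (∑ k, Finsupp.single (L.cen htr htrM (σ k) w₁) (1 : ℤ))) = 1) :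
    {w : Place K M | Module.finrank K ↥(riemannRochSpace
      (∑ k, Finsupp.single (L.cen htr htrM (σ k) w) (1 : ℤ))) ≠ 1}.Finite := by
  classical
  -- labels in `Fin gR`
  obtain ⟨eqv⟩ : Nonempty (κ ≃ Fin (R.gR K F)) := ⟨Fintype.equivFinOfCardEq hκ⟩
  obtain ⟨τ, hτ⟩ : ∃ τ : Fin (R.gR K F) → (F →ₐ[K] M), τ = fun k => σ (eqv.symm k) := ⟨_, rfl⟩
  have hsum : ∀ w : Place K M,
      (∑ k, Finsupp.single (L.cen htr htrM (τ k) w) (1 : ℤ) : Divisor K F) =
        ∑ z, Finsupp.single (L.cen htr htrM (σ z) w) (1 : ℤ) := by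
    intro w
    rw [hτ]
    exact Equiv.sum_comp eqv.symm (fun z => Finsupp.single (L.cen htr htrM (σ z) w) (1 : ℤ))
  -- a canonical divisor and a basis of `L(W₀)`
  obtain ⟨W₀, hW₀, hRR⟩ := R.riemann_roch (K := K) (F := F) htr
  have hfr := R.CanonicalOff.finrank_L_canonical htr hW₀ hRR
  have hfinW : Module.Finite K ↥(riemannRochSpace W₀) := R.finite_L htr W₀
  obtain ⟨Bs⟩ : Nonempty (Module.Basis (Fin (R.gR K F)) K ↥(riemannRochSpace W₀)) :=
    ⟨Module.finBasisOfFinrankEq K _ hfr⟩
  obtain ⟨u, hudef⟩ : ∃ u : Fin (R.gR K F) → F,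
      u = fun b => ((Bs b : ↥(riemannRochSpace W₀)) : F) := ⟨_, rfl⟩
  have hu_apply : ∀ b, u b = ((Bs b : ↥(riemannRochSpace W₀)) : F) := by
    intro b
    rw [hudef]
  have hu : ∀ b, u b ∈ riemannRochSpace W₀ := by
    intro b
    rw [hu_apply]
    exact (Bs b).2
  have hli : LinearIndependent K u := by
    rw [hudef]
    exact Bs.linearIndependent.map' (riemannRochSpace W₀).subtype (Submodule.ker_subtype _)
  have hspan : riemannRochSpace W₀ ≤ Submodule.span K (Set.range u) := by
    intro f hf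
    rw [Submodule.mem_span_range_iff_exists_fun]
    refine ⟨fun b => Bs.repr ⟨f, hf⟩ b, ?_⟩
    have h := Bs.sum_repr ⟨f, hf⟩
    have h3 : (riemannRochSpace W₀).subtype (∑ b, Bs.repr ⟨f, hf⟩ b • Bs b) = f := by
      rw [h]
      rfl
    rw [map_sum] at h3
    refine Eq.trans ?_ h3
    refine Finset.sum_congr rfl fun b _ => ?_
    rw [map_smul, hu_apply]
    rfl
  -- the degree of the tuple
  have hdeg : ∀ w : Place K M, Divisor.degree
      (∑ z, Finsupp.single (L.cen htr htrM (σ z) w) (1 : ℤ) : Divisor K F) = (R.gR K F : ℤ) := by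
    intro w
    rw [map_sum, Finset.sum_congr rfl
      (fun z _ => R.RRCor.degree_single_one htr (L.cen htr htrM (σ z) w)), Finset.sum_const,
      Finset.card_univ, hκ]
    simp
  -- the determinant is not zero
  have hinjτ : Function.Injective fun k => L.cen htr htrM (τ k) w₁ := by
    rw [hτ]
    exact hinj₁.comp eqv.symm.injective
  have hG : L.DB.evalDet τ u ≠ 0 := by
    refine L.DetNe.evalDet_ne_zero_of_place htr htrM τ W₀ u hu hli w₁ hinjτ ?_
    rw [hsum w₁]
    have h0 := R.CanonicalOff.finrank_L_canonical_sub htr hRR h₁ (hdeg w₁)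
    have hfinE := R.finite_L htr (W₀ - ∑ z, Finsupp.single (L.cen htr htrM (σ z) w₁) (1 : ℤ))
    have hsub := Module.finrank_zero_iff.mp h0
    intro f hf
    exact congrArg Subtype.val (Subsingleton.elim
      (⟨f, hf⟩ : ↥(riemannRochSpace
        (W₀ - ∑ z, Finsupp.single (L.cen htr htrM (σ z) w₁) (1 : ℤ)))) 0)
  -- the exceptional places
  have hfib : ∀ k, {w : Place K M | W₀ (L.cen htr htrM (τ k) w) ≠ 0}.Finite := by
    intro k
    have h1 : {w : Place K M | W₀ (L.cen htr htrM (τ k) w) ≠ 0} ⊆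
        ⋃ v ∈ (W₀.support : Set (Place K F)), {w : Place K M | L.cen htr htrM (τ k) w = v} := by
      intro w hw
      rw [Set.mem_iUnion₂]
      exact ⟨L.cen htr htrM (τ k) w, Finset.mem_coe.mpr (Finsupp.mem_support_iff.mpr hw), rfl⟩
    refine Set.Finite.subset ?_ h1
    exact Set.Finite.biUnion W₀.support.finite_toSet fun v _ =>
      Deg.Pullback.finite_centre_eq htr htrM (τ k) v
  have hS2 : {w : Place K M | ∃ k, W₀ (L.cen htr htrM (τ k) w) ≠ 0}.Finite := by
    have h1 : {w : Place K M | ∃ k, W₀ (L.cen htr htrM (τ k) w) ≠ 0} =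
        ⋃ k, {w : Place K M | W₀ (L.cen htr htrM (τ k) w) ≠ 0} := by
      ext w
      simp
    rw [h1]
    exact Set.finite_iUnion hfib
  have hS1 : {w : Place K M | w.ord (L.DB.evalDet τ u) ≠ 0}.Finite := by
    refine Set.Finite.subset (R.divOf K (L.DB.evalDet τ u)).support.finite_toSet ?_
    intro w hw
    rw [Finset.mem_coe, Finsupp.mem_support_iff, R.divOf_apply htrM]
    exact hw
  refine Set.Finite.subset (hS1.union hS2) ?_
  intro w hw
  by_contra hnot
  rw [Set.mem_union, not_or] at hnot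
  obtain ⟨hn1, hn2⟩ := hnot
  have hord : w.ord (L.DB.evalDet τ u) = 0 := by
    by_contra h
    exact hn1 h
  have hW0 : ∀ k, W₀ (L.cen htr htrM (τ k) w) = 0 := by
    intro k
    by_contra h
    exact hn2 ⟨k, h⟩
  have hz := L.DetConv.forall_eq_zero_of_ord_evalDet_eq_zero htr htrM τ W₀ u hu hspan hG w hord
    hW0
  rw [hsum w] at hz
  have hfinE := R.finite_L htr (W₀ - ∑ z, Finsupp.single (L.cen htr htrM (σ z) w) (1 : ℤ))
  have h0 : Module.finrank K ↥(riemannRochSpace
      (W₀ - ∑ z, Finsupp.single (L.cen htr htrM (σ z) w) (1 : ℤ))) = 0 := by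
    rw [Module.finrank_zero_iff]
    exact ⟨fun a b => Subtype.ext (by rw [hz a.1 a.2, hz b.1 b.2])⟩
  have h := hRR (∑ z, Finsupp.single (L.cen htr htrM (σ z) w) (1 : ℤ))
  rw [hdeg w, h0] at h
  apply hw
  have h2 : (Module.finrank K ↥(riemannRochSpace
      (∑ z, Finsupp.single (L.cen htr htrM (σ z) w) (1 : ℤ))) : ℤ) = 1 := by
    rw [h]
    push_cast
    ring
  exact_mod_cast h2

/-- **The exit `AsmIface.PropExit`.** -/
theorem propExit (htr : Algebra.trdeg K F = 1) : AsmIface.PropExit htr := by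
  intro M _ _ _ htrM κ _ σ hκ w₁ hinj₁ h₁
  refine (finite_finrank_ne_one htr htrM σ hκ w₁ hinj₁ h₁).subset ?_
  intro w hw
  exact hw.2

end Fermat.Agent.S27.G.PropExit
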