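import Mathlib
import Fermat.Agent.S17.R.LSpace
import Fermat.Agent.S24.FF.Ord
import Fermat.Agent.S17.H.LD.Zeros
import Fermat.Agent.S27.Contract

/-!
# Program PJ (statement S27), strand G: the bottom end of the lower chain

`bottomLower`: the leaf `BottomLower K F` of the contract.  Solutions of type `(0, g)` in the
class of `c` at level `n` are sets `Fs` of `g` places with `l(∑ Fs) = 1` and `n ∑ Fs - c`
principal.  Fix one of them, `Fs₀`; then `Fs ↦ cl(∑ Fs - ∑ Fs₀)` takes its values in the classes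
killed by `n` and is injective: a function with divisor `∑ Fs' - ∑ Fs` lies in `L(∑ Fs)`, which
is the line of constants, so the divisor is zero and `Fs' = Fs`.
-/

set_option autoImplicit false

namespace Fermat.Agent.S27.G.EndLow

open AlgebraicCurve Fermat.Agent.S17.R Fermat.Agent.S24.FF Fermat.Agent.S17.H.LD

variable {K F : Type*} [Field K] [Field F] [Algebra K F]

/-- The divisor of a finite set of places at a place of the set. -/
theorem sumDiv_apply_of_mem {s : Finset (Place K F)} {w : Place K F} (h : w ∈ s) :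
    (∑ v ∈ s, Finsupp.single v (1 : ℤ)) w = 1 := by
  classical
  rw [Finsupp.finsetSum_apply, Finset.sum_eq_single w]
  · exact Finsupp.single_eq_same
  · intro v _ hvw
    rw [Finsupp.single_apply, if_neg hvw]
  · intro hw
    exact absurd h hw

/-- The divisor of a finite set of places at a place outside the set. -/
theorem sumDiv_apply_of_not_mem {s : Finset (Place K F)} {w : Place K F} (h : w ∉ s) :
    (∑ v ∈ s, Finsupp.single v (1 : ℤ)) w = 0 := by
  classical
  rw [Finsupp.finsetSum_apply]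
  refine Finset.sum_eq_zero fun v hv => ?_
  rw [Finsupp.single_apply, if_neg]
  rintro rfl
  exact h hv

theorem sumDiv_nonneg (s : Finset (Place K F)) (w : Place K F) :
    0 ≤ (∑ v ∈ s, Finsupp.single v (1 : ℤ)) w := by
  by_cases h : w ∈ s
  · rw [sumDiv_apply_of_mem h]
    exact zero_le_one
  · rw [sumDiv_apply_of_not_mem h]

/-- A finite set of places is determined by its divisor. -/
theorem sumDiv_injective {s t : Finset (Place K F)}
    (h : ∑ v ∈ s, Finsupp.single v (1 : ℤ) = ∑ v ∈ t, Finsupp.single v (1 : ℤ)) : s = t := by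
  ext w
  have hw := DFunLike.congr_fun h w
  by_cases hs : w ∈ s <;> by_cases ht : w ∈ t
  · exact ⟨fun _ => ht, fun _ => hs⟩
  · rw [sumDiv_apply_of_mem hs, sumDiv_apply_of_not_mem ht] at hw
    exact absurd hw one_ne_zero
  · rw [sumDiv_apply_of_not_mem hs, sumDiv_apply_of_mem ht] at hw
    exact absurd hw zero_ne_one
  · exact ⟨fun h' => absurd h' hs, fun h' => absurd h' ht⟩

/-- The degree of the divisor of a finite set of places. -/
theorem degree_sumDiv [IsAlgClosed K] (htr : Algebra.trdeg K F = 1) (s : Finset (Place K F)) :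
    Divisor.degree (∑ v ∈ s, Finsupp.single v (1 : ℤ)) = (s.card : ℤ) := by
  rw [map_sum, Finset.sum_congr rfl fun v _ => Zeros.degree_single_one htr v]
  simp

/-- If `l(∑ s) = 1` and `∑ t - ∑ s` is principal, then `t = s`. -/
theorem eq_of_principal_sub {s t : Finset (Place K F)}
    (hs : Module.finrank K ↥(riemannRochSpace (∑ v ∈ s, Finsupp.single v (1 : ℤ))) = 1)
    (h : ∑ v ∈ t, Finsupp.single v (1 : ℤ) - ∑ v ∈ s, Finsupp.single v (1 : ℤ) ∈
      Divisor.principal (K := K) (F := F)) : t = s := by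
  obtain ⟨f, hf0, hf⟩ := h
  have h1mem : (1 : F) ∈ riemannRochSpace (∑ v ∈ s, Finsupp.single v (1 : ℤ)) := by
    rw [mem_L_iff]
    refine Or.inr fun v => ?_
    rw [Place.ord_one]
    have := sumDiv_nonneg s v
    omega
  have hfmem : f ∈ riemannRochSpace (∑ v ∈ s, Finsupp.single v (1 : ℤ)) := by
    rw [mem_L_iff]
    refine Or.inr fun v => ?_
    have h1 := hf v
    rw [Finsupp.sub_apply] at h1
    have := sumDiv_nonneg t v
    omega
  have hne : (⟨1, h1mem⟩ : ↥(riemannRochSpace (∑ v ∈ s, Finsupp.single v (1 : ℤ)))) ≠ 0 := by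
    intro h0
    exact one_ne_zero (congrArg Subtype.val h0)
  obtain ⟨a, ha⟩ := (finrank_eq_one_iff_of_nonzero' _ hne).mp hs ⟨f, hfmem⟩
  have hfa : f = algebraMap K F a := by
    have h2 : a • (1 : F) = f := congrArg Subtype.val ha
    rw [← h2, Algebra.algebraMap_eq_smul_one]
  apply sumDiv_injective
  ext v
  have h1 := hf v
  rw [Finsupp.sub_apply, hfa, ord_algebraMap] at h1
  omega

/-- **The bottom end of the lower chain** (`BottomLower` of the contract): solutions of type
`(0, g)` in one class give as many classes killed by `n`. -/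
theorem bottomLower [IsAlgClosed K] (htr : Algebra.trdeg K F = 1) : BottomLower K F := by
  classical
  intro n c S hS
  rcases S.eq_empty_or_nonempty with rfl | ⟨p₀, hp₀⟩
  · exact ⟨∅, by simp, by simp⟩
  have hsol : ∀ p ∈ S, p.1 = ∅ ∧ p.2.card = gR K F ∧
      Module.finrank K ↥(riemannRochSpace (∑ v ∈ p.2, Finsupp.single v (1 : ℤ))) = 1 ∧
      ((n : ℤ) • ∑ v ∈ p.2, Finsupp.single v (1 : ℤ)) - c ∈
        Divisor.principal (K := K) (F := F) := by
    intro p hp
    obtain ⟨-, h1, h2, h3, h4⟩ := hS (Finset.mem_coe.mpr hp)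
    have h1' : p.1 = ∅ := Finset.card_eq_zero.mp h1
    refine ⟨h1', ?_, ?_, ?_⟩
    · rw [h1, zero_add] at h2
      exact h2
    · rw [h1', Finset.sum_empty, zero_add] at h3
      exact h3
    · rw [h1', Finset.sum_empty, zero_add] at h4
      exact h4
  have hdeg : ∀ p ∈ S, ∑ v ∈ p.2, Finsupp.single v (1 : ℤ) -
      ∑ v ∈ p₀.2, Finsupp.single v (1 : ℤ) ∈ Divisor.degZero (K := K) (F := F) := by
    intro p hp
    rw [Divisor.mem_degZero, map_sub, degree_sumDiv htr, degree_sumDiv htr, (hsol p hp).2.1,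
      (hsol p₀ hp₀).2.1, sub_self]
  -- the map to the class group
  let φ : {p // p ∈ S} → Pic0 K F := fun p =>
    Pic0.mk ⟨∑ v ∈ p.1.2, Finsupp.single v (1 : ℤ) - ∑ v ∈ p₀.2, Finsupp.single v (1 : ℤ),
      hdeg p.1 p.2⟩
  have hφinj : Function.Injective φ := by
    intro p q hpq
    have h1 : (-(⟨∑ v ∈ p.1.2, Finsupp.single v (1 : ℤ) -
          ∑ v ∈ p₀.2, Finsupp.single v (1 : ℤ), hdeg p.1 p.2⟩ :
          Divisor.degZero (K := K) (F := F)) +
        ⟨∑ v ∈ q.1.2, Finsupp.single v (1 : ℤ) - ∑ v ∈ p₀.2, Finsupp.single v (1 : ℤ),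
          hdeg q.1 q.2⟩) ∈
        (Divisor.principal (K := K) (F := F)).addSubgroupOf
          (Divisor.degZero (K := K) (F := F)) := QuotientAddGroup.eq.mp hpq
    rw [AddSubgroup.mem_addSubgroupOf] at h1
    have h2 : ∑ v ∈ q.1.2, Finsupp.single v (1 : ℤ) - ∑ v ∈ p.1.2, Finsupp.single v (1 : ℤ) ∈
        Divisor.principal (K := K) (F := F) := by
      have e : ∑ v ∈ q.1.2, Finsupp.single v (1 : ℤ) - ∑ v ∈ p.1.2, Finsupp.single v (1 : ℤ) =
          -(∑ v ∈ p.1.2, Finsupp.single v (1 : ℤ) - ∑ v ∈ p₀.2, Finsupp.single v (1 : ℤ)) +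
            (∑ v ∈ q.1.2, Finsupp.single v (1 : ℤ) -
              ∑ v ∈ p₀.2, Finsupp.single v (1 : ℤ)) := by abel
      rw [e]
      exact h1
    have h3 : q.1.2 = p.1.2 := eq_of_principal_sub (hsol p.1 p.2).2.2.1 h2
    apply Subtype.ext
    refine Prod.ext ?_ h3.symm
    rw [(hsol p.1 p.2).1, (hsol q.1 q.2).1]
  refine ⟨Finset.univ.image φ, ?_, ?_⟩
  · intro x hx
    obtain ⟨p, -, rfl⟩ := Finset.mem_image.mp hx
    show n • (QuotientAddGroup.mk _ : Pic0 K F) = 0
    rw [← QuotientAddGroup.mk_nsmul, QuotientAddGroup.eq_zero_iff, AddSubgroup.mem_addSubgroupOf,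
      AddSubgroup.coe_nsmul]
    have e : n • (∑ v ∈ p.1.2, Finsupp.single v (1 : ℤ) -
          ∑ v ∈ p₀.2, Finsupp.single v (1 : ℤ)) =
        ((n : ℤ) • ∑ v ∈ p.1.2, Finsupp.single v (1 : ℤ) - c) -
          ((n : ℤ) • ∑ v ∈ p₀.2, Finsupp.single v (1 : ℤ) - c) := by
      rw [natCast_zsmul, natCast_zsmul, smul_sub]
      abel
    rw [e]
    exact AddSubgroup.sub_mem _ (hsol p.1 p.2).2.2.2 (hsol p₀ hp₀).2.2.2
  · rw [Finset.card_image_of_injective _ hφinj, Finset.card_univ, Fintype.card_coe]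

end Fermat.Agent.S27.G.EndLow
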