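import Mathlib
import Fermat.Agent.S17.R.LSpace
import Fermat.Agent.S17.R.LStep
import Fermat.Agent.S17.R.NonSpecialStep
import Fermat.Agent.S17.R.Places
import Fermat.Agent.S17.R.GenericPos
import Fermat.Agent.S27.Contract

/-!
# Program PJ (statement S27), strand G: the top end of the chain

* `topUnique` : a solution of type `(g, 0)` is unique in its class (an effective divisor `D`
  with `l(D) = 1` is the only effective divisor of its class) - the contract's `TopUnique`;
* `topExists` : there is a solution of type `(g, 0)` (a non-special set of `g` places, strand R's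
  generic position) - the contract's `TopExists`.
-/

set_option autoImplicit false

namespace Fermat.Agent.S27.G.EndUp

open AlgebraicCurve
open Fermat.Agent.S17 Fermat.Agent.S17.R

variable {K F : Type*} [Field K] [Field F] [Algebra K F]

/-- The value at a place of the reduced divisor of a finite set of places. -/
theorem sum_single_apply_of_mem {s : Finset (Place K F)} {v : Place K F} (h : v ∈ s) :
    (∑ u ∈ s, Finsupp.single u (1 : ℤ) : Divisor K F) v = 1 := by
  classical
  rw [Finsupp.finset_sum_apply]
  simp only [Finsupp.single_apply]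
  rw [Finset.sum_ite_eq' s v fun _ => (1 : ℤ), if_pos h]

theorem sum_single_apply_of_notMem {s : Finset (Place K F)} {v : Place K F} (h : v ∉ s) :
    (∑ u ∈ s, Finsupp.single u (1 : ℤ) : Divisor K F) v = 0 := by
  classical
  rw [Finsupp.finset_sum_apply]
  simp only [Finsupp.single_apply]
  rw [Finset.sum_ite_eq' s v fun _ => (1 : ℤ), if_neg h]

theorem sum_single_nonneg (s : Finset (Place K F)) :
    (0 : Divisor K F) ≤ ∑ u ∈ s, Finsupp.single u (1 : ℤ) := by
  classical
  rw [Finsupp.le_def]
  intro v
  by_cases h : v ∈ s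
  · rw [sum_single_apply_of_mem h]
    simp
  · rw [sum_single_apply_of_notMem h]
    simp

/-- A finite set of places is determined by its reduced divisor. -/
theorem eq_of_sum_single_eq {s t : Finset (Place K F)}
    (h : (∑ u ∈ s, Finsupp.single u (1 : ℤ) : Divisor K F) = ∑ u ∈ t, Finsupp.single u (1 : ℤ)) :
    s = t := by
  classical
  ext v
  have h1 := DFunLike.congr_fun h v
  by_cases hs : v ∈ s <;> by_cases ht : v ∈ t
  · exact ⟨fun _ => ht, fun _ => hs⟩
  · rw [sum_single_apply_of_mem hs, sum_single_apply_of_notMem ht] at h1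
    exact absurd h1 one_ne_zero
  · rw [sum_single_apply_of_notMem hs, sum_single_apply_of_mem ht] at h1
    exact absurd h1 zero_ne_one
  · exact ⟨fun h => absurd h hs, fun h => absurd h ht⟩

section Curve

variable [IsAlgClosed K] [CharZero K] [Algebra.EssFiniteType K F]

/-- The functions of `L(D)` are constant when `D ≥ 0` and `l(D) = 1`. -/
theorem const_of_finrank_eq_one (htr : Algebra.trdeg K F = 1) {D : Divisor K F} (hD : 0 ≤ D)
    (h1 : Module.finrank K ↥(riemannRochSpace D) = 1) {f : F} (hf : f ∈ riemannRochSpace D) :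
    ∃ a : K, f = algebraMap K F a := by
  have hfin := finite_L htr D
  have hle : riemannRochSpace (0 : Divisor K F) ≤ riemannRochSpace D := L_mono hD
  have heq : riemannRochSpace (0 : Divisor K F) = riemannRochSpace D :=
    Submodule.eq_of_le_of_finrank_eq hle (by rw [NonSpecialStep.finrank_L_zero htr, h1])
  rw [← heq, mem_L_zero_iff htr] at hf
  obtain ⟨a, ha⟩ := hf
  exact ⟨a, ha.symm⟩

/-- An effective divisor `D` with `l(D) = 1` is the only effective divisor of its class. -/
theorem eq_of_sub_mem_principal (htr : Algebra.trdeg K F = 1) {D D' : Divisor K F} (hD : 0 ≤ D)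
    (hD' : 0 ≤ D') (h1 : Module.finrank K ↥(riemannRochSpace D) = 1)
    (hp : D - D' ∈ Divisor.principal (K := K) (F := F)) : D = D' := by
  obtain ⟨f, hf0, hf⟩ := hp
  have hmem : f⁻¹ ∈ riemannRochSpace D := by
    rw [mem_L_of_ne_zero (inv_ne_zero hf0)]
    intro v
    have h2 := hf v
    rw [Finsupp.sub_apply] at h2
    have h3 : (0 : ℤ) ≤ D' v := by simpa using Finsupp.le_def.mp hD' v
    rw [v.ord_inv, ← h2]
    omega
  obtain ⟨a, ha⟩ := const_of_finrank_eq_one htr hD h1 hmem
  ext v
  have h2 := hf v
  rw [Finsupp.sub_apply] at h2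
  have h4 : v.ord f⁻¹ = 0 := by rw [ha]; exact Fermat.Agent.S24.FF.ord_algebraMap v a
  rw [v.ord_inv] at h4
  omega

/-- **Top end** (the contract's `TopUnique`): a solution of type `(g, 0)` is unique in its
class. -/
theorem topUnique (htr : Algebra.trdeg K F = 1) : TopUnique K F := by
  classical
  intro n c p q hp hq
  obtain ⟨-, hp1, hp2, hp3, hp4⟩ := hp
  obtain ⟨-, hq1, hq2, hq3, hq4⟩ := hq
  have hp0 : p.2 = ∅ := Finset.card_eq_zero.mp (by omega)
  have hq0 : q.2 = ∅ := Finset.card_eq_zero.mp (by omega)
  rw [hp0, Finset.sum_empty, add_zero] at hp3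
  rw [hp0, Finset.sum_empty, smul_zero, add_zero] at hp4
  rw [hq0, Finset.sum_empty, smul_zero, add_zero] at hq4
  have hsub : (∑ v ∈ p.1, Finsupp.single v (1 : ℤ) : Divisor K F) -
      ∑ v ∈ q.1, Finsupp.single v (1 : ℤ) ∈ Divisor.principal (K := K) (F := F) := by
    have h := sub_mem hp4 hq4
    rwa [sub_sub_sub_cancel_right] at h
  have h1 := eq_of_sub_mem_principal htr (sum_single_nonneg p.1) (sum_single_nonneg q.1) hp3 hsub
  exact Prod.ext (eq_of_sum_single_eq h1) (hp0.trans hq0.symm)

/-- **Top start** of the lower chain (the contract's `TopExists`): there is a solution of type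
`(g, 0)`. -/
theorem topExists (htr : Algebra.trdeg K F = 1) : TopExists K F := by
  classical
  intro n
  obtain ⟨Q₀⟩ := nonempty_place (K := K) (F := F) htr
  obtain ⟨E₀, hcard, -, -, h1, -⟩ := GenericPos.exists_generic_finset_sub htr Q₀ ∅
  refine ⟨∑ v ∈ E₀, Finsupp.single v (1 : ℤ), (E₀, ∅), Finset.disjoint_empty_right _, hcard, ?_,
    ?_, ?_⟩
  · show E₀.card + (∅ : Finset (Place K F)).card = gR K F
    rw [Finset.card_empty, add_zero, hcard]
  · show Module.finrank K ↥(riemannRochSpace (∑ v ∈ E₀, Finsupp.single v (1 : ℤ) +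
      ∑ v ∈ (∅ : Finset (Place K F)), Finsupp.single v (1 : ℤ))) = 1
    rw [Finset.sum_empty, add_zero]
    exact h1
  · show (∑ v ∈ E₀, Finsupp.single v (1 : ℤ) +
      (n : ℤ) • ∑ v ∈ (∅ : Finset (Place K F)), Finsupp.single v (1 : ℤ)) -
        ∑ v ∈ E₀, Finsupp.single v (1 : ℤ) ∈ Divisor.principal (K := K) (F := F)
    rw [Finset.sum_empty, smul_zero, add_zero, sub_self]
    exact zero_mem _

end Curve

end Fermat.Agent.S27.G.EndUp
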