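/-
PROGRAM PJ (statement S27), strand G, leaf START-UP: the core in strand-R vocabulary.

`F / K` a function field of one variable over an algebraically closed field of characteristic
zero, `g = gR K F`.

* `exists_regular_translates` : for finitely many divisors `D` of degree `0` there is ONE divisor
  `Z` such that every `Z + D` is linearly equivalent to a sum of `g` DISTINCT places with
  `l = 1` (a reduced non-special effective divisor).

Proof.  Parametrise `Z = κ - (P₁ + … + P_g)`, `deg κ = 2 g`, by tuples of places.  For one `D`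
the set of good tuples is non-empty (every class of degree `g` is effective: Riemann), and on
every coordinate line it is empty or cofinite (`pencil`): if `E` is reduced non-special and `B*`
any place, the divisor `W = E + B*` has `l(W) = 2`; for `f ∈ L(W)` non-constant and all but
finitely many places `B` the member `div (f - f(B)) + W` of the pencil through `B` is `B` plus a
reduced non-special divisor (`R.branch_finite`).  Finitely many such sets of tuples meet
(`exists_common`).
-/
import Mathlib
import Fermat.Agent.S17.R.LSpace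
import Fermat.Agent.S17.R.LStep
import Fermat.Agent.S17.R.Riemann
import Fermat.Agent.S17.R.Places
import Fermat.Agent.S17.R.Branch
import Fermat.Agent.S17.R.NonSpecialStep
import Fermat.Agent.S17.R.GenericPos

set_option autoImplicit false

namespace Fermat.Agent.S27.G.StartUpCore

open AlgebraicCurve Fermat.Agent.S17.R Fermat.Agent.S24.FF

/-- Finitely many predicates on `g`-tuples, each satisfiable and each stable under replacing any
one coordinate by all but finitely many values, have a common solution. -/
theorem exists_common {α ι : Type*} [Infinite α] {g : ℕ} (T : Finset ι)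
    (R : ι → (Fin g → α) → Prop) (hne : ∀ t ∈ T, ∃ P, R t P)
    (hline : ∀ t ∈ T, ∀ P, R t P → ∀ i : Fin g, ∃ Bad : Finset α, ∀ B, B ∉ Bad →
      R t (Function.update P i B)) :
    ∃ P, ∀ t ∈ T, R t P := by
  classical
  have key : ∀ j : ℕ, j ≤ g → ∃ P : Fin g → α, ∀ t ∈ T, ∃ Pt : Fin g → α, R t Pt ∧
      ∀ i : Fin g, (i : ℕ) < j → Pt i = P i := by
    intro j
    induction j with
    | zero =>
      intro _
      refine ⟨fun _ => Classical.arbitrary α, fun t ht => ?_⟩
      obtain ⟨Pt, hPt⟩ := hne t ht
      exact ⟨Pt, hPt, fun i hi => absurd hi (Nat.not_lt_zero _)⟩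
    | succ j ih =>
      intro hj
      obtain ⟨P, hP⟩ := ih (Nat.le_of_succ_le hj)
      let i0 : Fin g := ⟨j, hj⟩
      choose! Pt hPtR hPtP using hP
      have hb : ∀ t ∈ T, ∃ Bad : Finset α, ∀ B, B ∉ Bad →
          R t (Function.update (Pt t) i0 B) := fun t ht => hline t ht (Pt t) (hPtR t ht) i0
      choose! Bad hBad using hb
      obtain ⟨B, hB⟩ := Infinite.exists_notMem_finset (T.biUnion Bad)
      refine ⟨Function.update P i0 B, fun t ht => ⟨Function.update (Pt t) i0 B, ?_, ?_⟩⟩
      · exact hBad t ht B fun h => hB (Finset.mem_biUnion.mpr ⟨t, ht, h⟩)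
      · intro i hi
        by_cases hii : i = i0
        · rw [hii, Function.update_self, Function.update_self]
        · rw [Function.update_of_ne hii, Function.update_of_ne hii]
          apply hPtP t ht i
          have : (i : ℕ) ≠ j := fun h => hii (Fin.ext h)
          omega
  obtain ⟨P, hP⟩ := key g le_rfl
  refine ⟨P, fun t ht => ?_⟩
  obtain ⟨Pt, hR, hag⟩ := hP t ht
  have : Pt = P := funext fun i => hag i i.2
  rw [← this]
  exact hR

variable {K F : Type*} [Field K] [Field F] [Algebra K F]
variable [IsAlgClosed K] [CharZero K] [Algebra.EssFiniteType K F]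

omit [IsAlgClosed K] [CharZero K] [Algebra.EssFiniteType K F] in
theorem sum_single_apply [DecidableEq (Place K F)] (E : Finset (Place K F)) (v : Place K F) :
    (∑ w ∈ E, Finsupp.single w (1 : ℤ) : Divisor K F) v = if v ∈ E then 1 else 0 := by
  rw [Finsupp.finsetSum_apply]
  simp only [Finsupp.single_apply]
  rw [Finset.sum_ite_eq' E v]

/-- An effective divisor of degree `g` is a sum of `g` places. -/
theorem exists_tuple_of_effective (htr : Algebra.trdeg K F = 1) :
    ∀ (g : ℕ) (A : Divisor K F), 0 ≤ A → Divisor.degree A = g →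
      ∃ P : Fin g → Place K F, A = ∑ i, Finsupp.single (P i) (1 : ℤ) := by
  classical
  intro g
  induction g with
  | zero =>
    intro A hA hdeg
    have h1 := NonSpecialStep.card_support_le_degree htr hA
    rw [hdeg] at h1
    have h2 : A.support.card = 0 := by exact_mod_cast le_antisymm h1 (by positivity)
    have h3 : A = 0 := Finsupp.support_eq_empty.mp (Finset.card_eq_zero.mp h2)
    exact ⟨Fin.elim0, by rw [h3]; simp⟩
  | succ g ih =>
    intro A hA hdeg
    have hA0 : A ≠ 0 := by
      intro h
      rw [h, map_zero] at hdeg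
      have : (0 : ℤ) = (g : ℤ) + 1 := by exact_mod_cast hdeg
      omega
    obtain ⟨v, hv⟩ : ∃ v, A v ≠ 0 := by
      by_contra h
      push Not at h
      exact hA0 (Finsupp.ext h)
    have hv1 : 1 ≤ A v := by
      have := Finsupp.le_def.mp hA v
      rw [Finsupp.zero_apply] at this
      omega
    have hA' : 0 ≤ A - Finsupp.single v (1 : ℤ) := by
      rw [Finsupp.le_def]
      intro w
      rw [Finsupp.zero_apply, Finsupp.sub_apply, Finsupp.single_apply]
      by_cases hw : v = w
      · rw [if_pos hw, ← hw]; omega
      · rw [if_neg hw]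
        have := Finsupp.le_def.mp hA w
        rw [Finsupp.zero_apply] at this
        omega
    have hdeg' : Divisor.degree (A - Finsupp.single v (1 : ℤ)) = (g : ℤ) := by
      rw [map_sub, hdeg, NonSpecialStep.degree_single_one htr]
      push_cast
      ring
    obtain ⟨P', hP'⟩ := ih _ hA' hdeg'
    refine ⟨Fin.cons v P', ?_⟩
    rw [Fin.sum_univ_succ]
    simp only [Fin.cons_zero, Fin.cons_succ]
    rw [← hP']
    abel

/-- A function in `L(D)`, `D` effective with `l(D) = 1`, is constant. -/
theorem mem_range_of_mem_L (htr : Algebra.trdeg K F = 1) {D : Divisor K F} (hD : 0 ≤ D)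
    (hl : Module.finrank K ↥(riemannRochSpace D) = 1) {f : F} (hf : f ∈ riemannRochSpace D) :
    f ∈ Set.range (algebraMap K F) := by
  have h1 : (K ∙ (1 : F)) ≤ riemannRochSpace D := by
    rw [Submodule.span_singleton_le_iff_mem]
    exact L_mono hD RiemannAux.one_mem_L_zero
  have := finite_L htr D
  have h2 : (K ∙ (1 : F)) = riemannRochSpace D :=
    Submodule.eq_of_le_of_finrank_eq h1 (by rw [hl, finrank_span_singleton one_ne_zero])
  rw [← h2, Submodule.mem_span_singleton] at hf
  obtain ⟨c, rfl⟩ := hf
  exact ⟨c, by rw [Algebra.smul_def, mul_one]⟩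

/-- **The pencil through a reduced non-special divisor.**  `E` a set of `g` places with
`l(E) = 1` and `Bs` any place: for all but finitely many places `B` the class of
`E + Bs - B` contains a reduced non-special divisor `E'`. -/
theorem pencil (htr : Algebra.trdeg K F = 1) (E : Finset (Place K F))
    (hcard : E.card = gR K F)
    (hE : Module.finrank K ↥(riemannRochSpace (∑ v ∈ E, Finsupp.single v (1 : ℤ))) = 1)
    (Bs : Place K F) :
    ∃ Bad : Finset (Place K F), ∀ B, B ∉ Bad → ∃ E' : Finset (Place K F),
      E'.card = gR K F ∧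
      Module.finrank K ↥(riemannRochSpace (∑ v ∈ E', Finsupp.single v (1 : ℤ))) = 1 ∧
      (∑ v ∈ E', Finsupp.single v (1 : ℤ) + Finsupp.single B (1 : ℤ)) -
        (∑ v ∈ E, Finsupp.single v (1 : ℤ) + Finsupp.single Bs (1 : ℤ)) ∈
          Divisor.principal (K := K) (F := F) := by
  classical
  obtain ⟨DE, hDE⟩ : ∃ DE : Divisor K F, DE = ∑ v ∈ E, Finsupp.single v (1 : ℤ) := ⟨_, rfl⟩
  obtain ⟨W, hW⟩ : ∃ W : Divisor K F, W = DE + Finsupp.single Bs (1 : ℤ) := ⟨_, rfl⟩
  rw [← hDE] at hE ⊢
  rw [← hW]
  have hDE0 : (0 : Divisor K F) ≤ DE := by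
    rw [hDE]; exact NonSpecialStep.sum_single_nonneg E
  have hW0 : (0 : Divisor K F) ≤ W := by
    rw [hW]; exact add_nonneg hDE0 (NonSpecialStep.single_one_nonneg Bs)
  have hdegW : Divisor.degree W = (gR K F : ℤ) + 1 := by
    rw [hW, map_add, hDE, NonSpecialStep.degree_sum_single htr,
      NonSpecialStep.degree_single_one htr, hcard]
  have hWv : ∀ v : Place K F, W v = (if v ∈ E then 1 else 0) + (if v = Bs then 1 else 0) := by
    intro v
    rw [hW, Finsupp.add_apply, hDE, sum_single_apply, Finsupp.single_apply]
    by_cases h : v = Bs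
    · rw [if_pos h, if_pos h.symm]
    · rw [if_neg h, if_neg (fun h' : Bs = v => h h'.symm)]
  -- `l(W) = 2`
  have hfinDE := finite_L htr DE
  obtain ⟨hfinW, hle⟩ := LStep.step htr DE Bs hfinDE
  rw [← hW] at hfinW hle
  have hge := riemann_inequality htr W
  have hlW : Module.finrank K ↥(riemannRochSpace W) = 2 := by
    rw [hE] at hle
    rw [hdegW] at hge
    have h1 : (2 : ℤ) ≤ (Module.finrank K ↥(riemannRochSpace W) : ℤ) := by linarith
    have h2 : 2 ≤ Module.finrank K ↥(riemannRochSpace W) := by exact_mod_cast h1
    omega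
  -- a non-constant function in `L(W)`
  obtain ⟨f, hfW, hfK⟩ : ∃ f : F, f ∈ riemannRochSpace W ∧ f ∉ Set.range (algebraMap K F) := by
    by_contra hcon
    push Not at hcon
    have hsub : riemannRochSpace W ≤ K ∙ (1 : F) := by
      intro f hf
      obtain ⟨c, rfl⟩ := hcon f hf
      rw [Submodule.mem_span_singleton]
      exact ⟨c, by rw [Algebra.smul_def, mul_one]⟩
    have h1 := Submodule.finrank_mono hsub
    rw [hlW, finrank_span_singleton (one_ne_zero)] at h1
    omega
  have hftr : Transcendental K f := transcendental_of_not_mem_range hfK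
  have hf0 : f ≠ 0 := by
    rintro rfl
    exact hfK ⟨0, map_zero _⟩
  have hford : ∀ v : Place K F, -W v ≤ v.ord f := (mem_L_of_ne_zero hf0).mp hfW
  have hsub0 : ∀ c : K, f - algebraMap K F c ≠ 0 := by
    intro c h
    exact hfK ⟨c, (sub_eq_zero.mp h).symm⟩
  have hsubW : ∀ c : K, f - algebraMap K F c ∈ riemannRochSpace W := by
    intro c
    refine Submodule.sub_mem _ hfW (L_mono hW0 ?_)
    rw [Algebra.algebraMap_eq_smul_one]
    exact Submodule.smul_mem _ c RiemannAux.one_mem_L_zero
  -- at a double point of `W` the function has a pole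
  have hkey : ∀ v : Place K F, 0 ≤ v.ord f → W v ≤ 1 := by
    intro v hv
    by_contra hW2
    push Not at hW2
    have hvE : v ∈ E ∧ v = Bs := by
      have h := hWv v
      by_cases h1 : v ∈ E
      · by_cases h2 : v = Bs
        · exact ⟨h1, h2⟩
        · rw [if_pos h1, if_neg h2] at h
          omega
      · rw [if_neg h1] at h
        by_cases h2 : v = Bs
        · rw [if_pos h2] at h
          omega
        · rw [if_neg h2] at h
          omega
    have hfDE : f ∈ riemannRochSpace DE := by
      rw [mem_L_of_ne_zero hf0]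
      intro w
      by_cases hw : w = Bs
      · rw [hw, ← hvE.2]
        have h1 : (0 : ℤ) ≤ DE v := Finsupp.le_def.mp hDE0 v
        omega
      · have h1 := hford w
        rw [hW, Finsupp.add_apply, Finsupp.single_apply, if_neg (fun h => hw h.symm),
          add_zero] at h1
        exact h1
    exact hfK (mem_range_of_mem_L htr hDE0 hE hfDE)
  -- the bad values and the bad places
  have hbr := branch_finite htr hftr
  have hres : ∀ v : Place K F, ∃ c : K, 0 ≤ v.ord f → 0 < v.ord (f - algebraMap K F c) := by
    intro v
    by_cases hv : 0 ≤ v.ord f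
    · obtain ⟨c, hc⟩ := exists_residue htr v ((ord_nonneg_iff v hf0).mp hv)
      rcases hc with hc | hc
      · exact absurd ⟨c, hc.symm⟩ hfK
      · exact ⟨c, fun _ => hc⟩
    · exact ⟨0, fun h => absurd h hv⟩
  choose res hres using hres
  obtain ⟨BadVals, hBadVals⟩ : ∃ BadVals : Finset K, BadVals = hbr.toFinset ∪ W.support.image res :=
    ⟨_, rfl⟩
  have hz : ∀ c : K, {v : Place K F | v.ord (f - algebraMap K F c) ≠ 0}.Finite :=
    fun c => support_ord_finite htr (hsub0 c)
  refine ⟨W.support ∪ BadVals.biUnion (fun c => (hz c).toFinset), fun B hB => ?_⟩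
  have hBW : B ∉ W.support := fun h => hB (Finset.mem_union_left _ h)
  have hWB : W B = 0 := Finsupp.notMem_support_iff.mp hBW
  have hBf : 0 ≤ B.ord f := by
    have h1 := hford B
    rw [hWB] at h1
    omega
  obtain ⟨c, hc⟩ : ∃ c : K, c = res B := ⟨_, rfl⟩
  have hcB : 0 < B.ord (f - algebraMap K F c) := by
    rw [hc]; exact hres B hBf
  have hcBad : c ∉ BadVals := by
    intro h
    apply hB
    refine Finset.mem_union_right _ (Finset.mem_biUnion.mpr ⟨c, h, ?_⟩)
    rw [Set.Finite.mem_toFinset]
    show B.ord (f - algebraMap K F c) ≠ 0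
    omega
  have hnb : ∀ v : Place K F, v.ord (f - algebraMap K F c) ≤ 1 := by
    intro v
    by_contra hv
    push Not at hv
    apply hcBad
    rw [hBadVals]
    exact Finset.mem_union_left _ (hbr.mem_toFinset.mpr ⟨v, hv⟩)
  obtain ⟨h, hh⟩ : ∃ h : F, h = f - algebraMap K F c := ⟨_, rfl⟩
  rw [← hh] at hcB hnb
  have hh0 : h ≠ 0 := by rw [hh]; exact hsub0 c
  have hhW : h ∈ riemannRochSpace W := by rw [hh]; exact hsubW c
  have hhord : ∀ v : Place K F, -W v ≤ v.ord h := (mem_L_of_ne_zero hh0).mp hhW
  -- the member of the pencil through `B`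
  obtain ⟨A, hA⟩ : ∃ A : Divisor K F, A = divOf K h + W - Finsupp.single B (1 : ℤ) := ⟨_, rfl⟩
  have hAv : ∀ v : Place K F, A v = v.ord h + W v - (if v = B then 1 else 0) := by
    intro v
    rw [hA, Finsupp.sub_apply, Finsupp.add_apply, divOf_apply htr, Finsupp.single_apply]
    by_cases hv : v = B
    · rw [if_pos hv, if_pos hv.symm]
    · rw [if_neg hv, if_neg (fun h' : B = v => hv h'.symm)]
  have hA01 : ∀ v : Place K F, A v = 0 ∨ A v = 1 := by
    intro v
    rw [hAv]
    by_cases hvB : v = B
    · rw [if_pos hvB, hvB, hWB]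
      have h1 := hnb B
      left
      omega
    · rw [if_neg hvB]
      have h1 := hhord v
      have h2 := hnb v
      have hWv0 : (0 : ℤ) ≤ W v := Finsupp.le_def.mp hW0 v
      by_cases hvW : v ∈ W.support
      · have hWne : W v ≠ 0 := Finsupp.mem_support_iff.mp hvW
        by_cases hvf : 0 ≤ v.ord f
        · have hW1 : W v ≤ 1 := hkey v hvf
          have hne : res v ≠ c := by
            intro heq
            apply hcBad
            rw [hBadVals]
            exact Finset.mem_union_right _ (Finset.mem_image.mpr ⟨v, hvW, heq⟩)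
          have hrv := hres v hvf
          have hcne : algebraMap K F (res v - c) ≠ 0 := by
            rw [Ne, map_eq_zero, sub_eq_zero]
            exact hne
          have hord0 : v.ord h = 0 := by
            have e : h = algebraMap K F (res v - c) + (f - algebraMap K F (res v)) := by
              rw [hh, map_sub]; ring
            rw [e, ord_add_eq_of_lt v (by rw [ord_algebraMap]; exact hrv) hcne (hsub0 (res v)),
              ord_algebraMap]
          right
          omega
        · push Not at hvf
          have hord : v.ord h = v.ord f := by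
            by_cases hc0 : c = 0
            · rw [hh, hc0, map_zero, sub_zero]
            · rw [hh, sub_eq_add_neg, ← map_neg]
              exact ord_add_eq_of_lt v (by rw [ord_algebraMap]; exact hvf) hf0
                (by rw [Ne, map_eq_zero, neg_eq_zero]; exact hc0)
          have hW2 : W v ≤ 2 := by
            have h3 := hWv v
            by_cases h4 : v ∈ E
            · by_cases h5 : v = Bs
              · rw [if_pos h4, if_pos h5] at h3; omega
              · rw [if_pos h4, if_neg h5] at h3; omega
            · by_cases h5 : v = Bs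
              · rw [if_neg h4, if_pos h5] at h3; omega
              · rw [if_neg h4, if_neg h5] at h3; omega
          have h3 := hford v
          omega
      · have hWv0' : W v = 0 := Finsupp.notMem_support_iff.mp hvW
        rw [hWv0'] at h1 ⊢
        omega
  have hAsum : A = ∑ v ∈ A.support, Finsupp.single v (1 : ℤ) := by
    ext v
    rw [sum_single_apply]
    by_cases hv : v ∈ A.support
    · rw [if_pos hv]
      rcases hA01 v with h1 | h1
      · exact absurd h1 (Finsupp.mem_support_iff.mp hv)
      · exact h1
    · rw [if_neg hv]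
      exact Finsupp.notMem_support_iff.mp hv
  have hdegA : Divisor.degree A = (gR K F : ℤ) := by
    rw [hA, map_sub, map_add, degree_divOf htr, hdegW, NonSpecialStep.degree_single_one htr]
    ring
  have hcardA : A.support.card = gR K F := by
    have h1 := NonSpecialStep.degree_sum_single htr A.support
    rw [← hAsum, hdegA] at h1
    exact_mod_cast h1.symm
  refine ⟨A.support, hcardA, ?_, ?_⟩
  · rw [← hAsum]
    have hprin : A - (W - Finsupp.single B (1 : ℤ)) ∈ Divisor.principal (K := K) (F := F) := by
      have h1 : A - (W - Finsupp.single B (1 : ℤ)) = divOf K h := by rw [hA]; abel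
      rw [h1]
      exact divOf_mem_principal htr hh0
    rw [finrank_L_eq_of_principal htr hprin]
    have hWB' : (W - Finsupp.single B (1 : ℤ)) B = -1 := by
      rw [Finsupp.sub_apply, hWB, Finsupp.single_eq_same]
      norm_num
    have hlt : riemannRochSpace (W - Finsupp.single B (1 : ℤ)) < riemannRochSpace W := by
      refine lt_of_le_of_ne (L_mono ?_) ?_
      · exact sub_le_self W (NonSpecialStep.single_one_nonneg B)
      · intro heq
        have h1 : (1 : F) ∈ riemannRochSpace W := L_mono hW0 RiemannAux.one_mem_L_zero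
        rw [← heq, mem_L_of_ne_zero one_ne_zero] at h1
        have h2 := h1 B
        rw [hWB', Place.ord_one] at h2
        omega
    have h2 := Submodule.finrank_lt_finrank_of_lt hlt
    rw [hlW] at h2
    have hmem : h ∈ riemannRochSpace (W - Finsupp.single B (1 : ℤ)) := by
      rw [mem_L_of_ne_zero hh0]
      intro v
      by_cases hv : v = B
      · rw [hv, hWB']
        omega
      · rw [Finsupp.sub_apply, Finsupp.single_apply, if_neg (fun h' => hv h'.symm), sub_zero]
        exact hhord v
    have h3 : 0 < Module.finrank K ↥(riemannRochSpace (W - Finsupp.single B (1 : ℤ))) := by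
      have := finite_L htr (W - Finsupp.single B (1 : ℤ))
      rw [Module.finrank_pos_iff_exists_ne_zero]
      exact ⟨⟨h, hmem⟩, fun h0 => hh0 (congrArg Subtype.val h0)⟩
    omega
  · rw [← hAsum]
    have h1 : A + Finsupp.single B (1 : ℤ) - W = divOf K h := by rw [hA]; abel
    rw [h1]
    exact divOf_mem_principal htr hh0

/-- **Regular translates.**  For finitely many divisors `D` of degree `0` there is one divisor
`Z` such that every `Z + D` is linearly equivalent to a sum of `g` distinct places with
`l = 1`. -/
theorem exists_regular_translates (htr : Algebra.trdeg K F = 1) (T : Finset (Divisor K F))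
    (hT : ∀ D ∈ T, Divisor.degree D = 0) :
    ∃ Z : Divisor K F, ∀ D ∈ T, ∃ E : Finset (Place K F), E.card = gR K F ∧
      Module.finrank K ↥(riemannRochSpace (∑ v ∈ E, Finsupp.single v (1 : ℤ))) = 1 ∧
      (∑ v ∈ E, Finsupp.single v (1 : ℤ)) - (Z + D) ∈ Divisor.principal (K := K) (F := F) := by
  classical
  have := infinite_place (K := K) (F := F) htr
  obtain ⟨v₀⟩ := nonempty_place (K := K) (F := F) htr
  obtain ⟨κ, hκ⟩ : ∃ κ : Divisor K F, Divisor.degree κ = 2 * (gR K F : ℤ) :=
    ⟨(2 * (gR K F : ℤ)) • Finsupp.single v₀ (1 : ℤ), by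
      rw [map_zsmul, NonSpecialStep.degree_single_one htr, smul_eq_mul, mul_one]⟩
  have hmain : ∃ P : Fin (gR K F) → Place K F, ∀ D ∈ T, ∃ E : Finset (Place K F),
      E.card = gR K F ∧
      Module.finrank K ↥(riemannRochSpace (∑ v ∈ E, Finsupp.single v (1 : ℤ))) = 1 ∧
      (∑ v ∈ E, Finsupp.single v (1 : ℤ)) - (κ - ∑ i, Finsupp.single (P i) (1 : ℤ) + D) ∈
        Divisor.principal (K := K) (F := F) := by
    refine exists_common T (fun D P => ∃ E : Finset (Place K F), E.card = gR K F ∧
      Module.finrank K ↥(riemannRochSpace (∑ v ∈ E, Finsupp.single v (1 : ℤ))) = 1 ∧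
      (∑ v ∈ E, Finsupp.single v (1 : ℤ)) - (κ - ∑ i, Finsupp.single (P i) (1 : ℤ) + D) ∈
        Divisor.principal (K := K) (F := F)) ?_ ?_
    · intro D hD
      obtain ⟨E, hcard, -, -, hl, -⟩ := GenericPos.exists_generic_finset htr v₀ ∅
      obtain ⟨M, hM⟩ : ∃ M : Divisor K F, M = κ + D - ∑ v ∈ E, Finsupp.single v (1 : ℤ) :=
        ⟨_, rfl⟩
      have hdegM : Divisor.degree M = (gR K F : ℤ) := by
        rw [hM, map_sub, map_add, hκ, hT D hD, NonSpecialStep.degree_sum_single htr, hcard]
        ring
      have hri := riemann_inequality htr M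
      rw [hdegM] at hri
      have hpos : 0 < Module.finrank K ↥(riemannRochSpace M) := by
        have h1 : (1 : ℤ) ≤ (Module.finrank K ↥(riemannRochSpace M) : ℤ) := by linarith
        exact_mod_cast h1
      have := finite_L htr M
      obtain ⟨⟨f, hfM⟩, hf0⟩ := Module.finrank_pos_iff_exists_ne_zero.mp hpos
      have hf0' : f ≠ 0 := fun h => hf0 (Subtype.ext h)
      have hA0 := add_divOf_nonneg htr hf0' hfM
      have hdegA : Divisor.degree (M + divOf K f) = ((gR K F : ℕ) : ℤ) := by
        rw [map_add, degree_divOf htr, hdegM, add_zero]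
      obtain ⟨P, hP⟩ := exists_tuple_of_effective htr (gR K F) _ hA0 hdegA
      refine ⟨P, E, hcard, hl, ?_⟩
      rw [← hP]
      have h1 : (∑ v ∈ E, Finsupp.single v (1 : ℤ)) - (κ - (M + divOf K f) + D) = divOf K f := by
        rw [hM]; abel
      rw [h1]
      exact divOf_mem_principal htr hf0'
    · rintro D hD P ⟨E, hcard, hl, hprin⟩ i
      obtain ⟨Bad, hBad⟩ := pencil htr E hcard hl (P i)
      refine ⟨Bad, fun B hB => ?_⟩
      obtain ⟨E', hcard', hl', hprin'⟩ := hBad B hB
      refine ⟨E', hcard', hl', ?_⟩
      have hsum : (∑ j, Finsupp.single (Function.update P i B j) (1 : ℤ) : Divisor K F) =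
          ∑ j, Finsupp.single (P j) (1 : ℤ) - Finsupp.single (P i) (1 : ℤ) +
            Finsupp.single B (1 : ℤ) := by
        rw [← Finset.add_sum_erase Finset.univ
            (fun j => (Finsupp.single (Function.update P i B j) (1 : ℤ) : Divisor K F))
            (Finset.mem_univ i),
          ← Finset.add_sum_erase Finset.univ
            (fun j => (Finsupp.single (P j) (1 : ℤ) : Divisor K F)) (Finset.mem_univ i)]
        have h1 : ∑ j ∈ Finset.univ.erase i,
            (Finsupp.single (Function.update P i B j) (1 : ℤ) : Divisor K F) =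
            ∑ j ∈ Finset.univ.erase i, (Finsupp.single (P j) (1 : ℤ) : Divisor K F) :=
          Finset.sum_congr rfl fun j hj => by
            rw [Function.update_of_ne (Finset.ne_of_mem_erase hj)]
        rw [h1, Function.update_self]
        abel
      rw [hsum]
      have h2 : (∑ v ∈ E', Finsupp.single v (1 : ℤ) : Divisor K F) -
          (κ - (∑ j, Finsupp.single (P j) (1 : ℤ) - Finsupp.single (P i) (1 : ℤ) +
            Finsupp.single B (1 : ℤ)) + D) =
          ((∑ v ∈ E', Finsupp.single v (1 : ℤ) + Finsupp.single B (1 : ℤ)) -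
            (∑ v ∈ E, Finsupp.single v (1 : ℤ) + Finsupp.single (P i) (1 : ℤ))) +
          ((∑ v ∈ E, Finsupp.single v (1 : ℤ)) -
            (κ - ∑ j, Finsupp.single (P j) (1 : ℤ) + D)) := by
        abel
      rw [h2]
      exact (Divisor.principal (K := K) (F := F)).add_mem hprin' hprin
  obtain ⟨P, hP⟩ := hmain
  exact ⟨κ - ∑ i, Finsupp.single (P i) (1 : ℤ), hP⟩

end Fermat.Agent.S27.G.StartUpCore
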