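/-
PROGRAM PJ (statement S27), strand G, leaf START-UP (row S27.G.StartUp): the start of the upper
chain in general position, in the vocabulary of the contract (`S27/Contract.lean`).

`upperStart0 : UpperStart0 K F` with the constant `1`: for every `n` and every finite set `T` of
classes killed by `n` there are a divisor `c` and `card T` solutions of type `(0, g)` in the
class of `c` at level `n`.

Proof.  Choose representatives `D_t` of degree `0` of the classes `t ∈ T`.  By
`StartUpCore.exists_regular_translates` there is ONE divisor `Z` such that every `Z + D_t` is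
linearly equivalent to a sum `E_t` of `g` distinct places with `l(E_t) = 1`.  Put `c = n Z`:
`n E_t - n Z = n (E_t - Z - D_t) + n D_t` is principal, and `t ↦ E_t` is injective because
`E_t = E_t'` makes `D_t - D_t'` principal.
-/
import Mathlib
import Fermat.Agent.S27.Contract
import Fermat.Agent.S27.G.StartUpCore

set_option autoImplicit false

namespace Fermat.Agent.S27.G.StartUp

open AlgebraicCurve Fermat.Agent.S17.R

variable {K F : Type*} [Field K] [Field F] [Algebra K F]
variable [IsAlgClosed K] [CharZero K] [Algebra.EssFiniteType K F]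

/-- **START-UP** (`UpperStart0` of the contract, constant `1`): finitely many classes killed by
`n` are represented by as many solutions of type `(0, g)` in one class. -/
theorem upperStart0 (htr : Algebra.trdeg K F = 1) : UpperStart0 K F := by
  classical
  refine ⟨1, fun n _ T hT => ?_⟩
  have hrep : ∀ t : Pic0 K F, ∃ D : Divisor.degZero (K := K) (F := F), Pic0.mk D = t :=
    Pic0.mk_surjective
  choose rep hrep using hrep
  obtain ⟨Z, hZ⟩ := StartUpCore.exists_regular_translates htr
    (T.image fun t => (rep t : Divisor K F)) (by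
      intro D hD
      obtain ⟨t, -, rfl⟩ := Finset.mem_image.mp hD
      exact Divisor.mem_degZero.mp (rep t).2)
  have hE : ∀ t : Pic0 K F, ∃ E : Finset (Place K F), t ∈ T → (E.card = gR K F ∧
      Module.finrank K ↥(riemannRochSpace (∑ v ∈ E, Finsupp.single v (1 : ℤ))) = 1 ∧
      (∑ v ∈ E, Finsupp.single v (1 : ℤ)) - (Z + (rep t : Divisor K F)) ∈
        Divisor.principal (K := K) (F := F)) := by
    intro t
    by_cases ht : t ∈ T
    · obtain ⟨E, h⟩ := hZ _ (Finset.mem_image_of_mem _ ht)
      exact ⟨E, fun _ => h⟩
    · exact ⟨∅, fun h => absurd h ht⟩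
  choose E hE using hE
  refine ⟨(n : ℤ) • Z, T.image (fun t => ((∅ : Finset (Place K F)), E t)), ?_, ?_⟩
  · intro p hp
    obtain ⟨t, ht, rfl⟩ := Finset.mem_image.mp (Finset.mem_coe.mp hp)
    obtain ⟨hcard, hl, hprin⟩ := hE t ht
    have hnt : (n : ℤ) • (rep t : Divisor K F) ∈ Divisor.principal (K := K) (F := F) := by
      have h1 : n • t = 0 := hT t ht
      rw [← hrep t] at h1
      have h2 : ((n • rep t : Divisor.degZero (K := K) (F := F)) : Pic0 K F) = 0 := by
        rw [QuotientAddGroup.mk_nsmul]
        exact h1
      rw [QuotientAddGroup.eq_zero_iff, AddSubgroup.mem_addSubgroupOf, AddSubgroup.coe_nsmul]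
        at h2
      rw [natCast_zsmul]
      exact h2
    show Disjoint (∅ : Finset (Place K F)) (E t) ∧ (∅ : Finset (Place K F)).card = 0 ∧
      (∅ : Finset (Place K F)).card + (E t).card = gR K F ∧
      Module.finrank K ↥(riemannRochSpace
        (∑ v ∈ (∅ : Finset (Place K F)), Finsupp.single v (1 : ℤ) +
          ∑ v ∈ E t, Finsupp.single v (1 : ℤ))) = 1 ∧
      (∑ v ∈ (∅ : Finset (Place K F)), Finsupp.single v (1 : ℤ) +
          (n : ℤ) • ∑ v ∈ E t, Finsupp.single v (1 : ℤ)) - (n : ℤ) • Z ∈
        Divisor.principal (K := K) (F := F)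
    refine ⟨Finset.disjoint_empty_left _, Finset.card_empty, ?_, ?_, ?_⟩
    · rw [Finset.card_empty, zero_add]
      exact hcard
    · rw [Finset.sum_empty, zero_add]
      exact hl
    · rw [Finset.sum_empty, zero_add]
      have h3 : (n : ℤ) • ∑ v ∈ E t, Finsupp.single v (1 : ℤ) - (n : ℤ) • Z =
          (n : ℤ) • ((∑ v ∈ E t, Finsupp.single v (1 : ℤ)) - (Z + (rep t : Divisor K F))) +
            (n : ℤ) • (rep t : Divisor K F) := by
        rw [smul_sub, smul_add]
        abel
      rw [h3]
      exact add_mem (AddSubgroup.zsmul_mem _ hprin _) hnt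
  · rw [one_mul]
    refine le_of_eq (Finset.card_image_of_injOn ?_).symm
    intro t ht t' ht' heq
    have hEE : E t = E t' := congrArg Prod.snd heq
    have h1 := (hE t ht).2.2
    have h2 := (hE t' ht').2.2
    rw [← hEE] at h2
    have h3 : -(rep t : Divisor K F) + (rep t' : Divisor K F) ∈
        Divisor.principal (K := K) (F := F) := by
      have e : -(rep t : Divisor K F) + (rep t' : Divisor K F) =
          ((∑ v ∈ E t, Finsupp.single v (1 : ℤ)) - (Z + (rep t : Divisor K F))) -
            ((∑ v ∈ E t, Finsupp.single v (1 : ℤ)) - (Z + (rep t' : Divisor K F))) := by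
        abel
      rw [e]
      exact sub_mem h1 h2
    have h4 : Pic0.mk (rep t) = Pic0.mk (rep t') :=
      QuotientAddGroup.eq.mpr (AddSubgroup.mem_addSubgroupOf.mpr (by
        rw [AddSubgroup.coe_add, AddSubgroup.coe_neg]
        exact h3))
    rw [← hrep t, ← hrep t']
    exact h4

end Fermat.Agent.S27.G.StartUp
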