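import Mathlib
import Fermat.Agent.S17.R.LSpace
import Fermat.Agent.S17.R.Places
import Fermat.Agent.S27.Contract
import Fermat.Agent.S27.G.Defs
import Fermat.Agent.S27.M.GP1

/-!
# Program PJ (statement S27), strand G: the steps of the chain from the transfers

`stepUp_of_transferUp`, `stepDown_of_transferDown`: the steps `StepUp K F k`, `StepDown K F k` of
the contract from the transfers `TransferUp K F k`, `TransferDown K F k` of `S27/G/Defs.lean`, by
general position of one added point.

UP: let `S` be a finite set of solutions of type `(k, g - k)` in the class of `c`.  For a general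
point `A` (outside the points of `S` and outside the exceptional sets of `M.GP1.swap` for the
members of `S`) the pairs `(insert A G, Fs)`, `(G, Fs) ∈ S`, are regular points of type
`(k + 1, g - k)` in the class of `c + A` through `A` in the first set.  The upper transfer gives,
for a general `B`, regular points `y` through `B` in the second set, and erasing `B` gives
solutions of type `(k + 1, g - k - 1)` in the class of `c + A - n B`.  DOWN: the mirror image.
-/

set_option autoImplicit false

namespace Fermat.Agent.S27.G.Steps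

open AlgebraicCurve Fermat.Agent.S17.R Fermat.Agent.S27.G.Defs

open Classical

variable {K F : Type*} [Field K] [Field F] [Algebra K F]

theorem sum_insert_single {A : Place K F} {s : Finset (Place K F)} (h : A ∉ s) :
    ∑ v ∈ insert A s, Finsupp.single v (1 : ℤ) =
      Finsupp.single A (1 : ℤ) + ∑ v ∈ s, Finsupp.single v (1 : ℤ) :=
  Finset.sum_insert h

theorem sum_erase_single {P : Place K F} {s : Finset (Place K F)} (h : P ∈ s) :
    ∑ v ∈ s.erase P, Finsupp.single v (1 : ℤ) =
      ∑ v ∈ s, Finsupp.single v (1 : ℤ) - Finsupp.single P (1 : ℤ) := by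
  rw [eq_sub_iff_add_eq, Finset.sum_erase_add _ _ h]

/-- A pair with the same divisor relation as a solution, disjoint of the right cardinalities and
non-special, is a solution. -/
theorem mem_sol_of {n k k' : ℕ} {c c' : Divisor K F} {p : Pt K F} (hp : p ∈ Sol K F n k c)
    (X Y : Finset (Place K F)) (hXY : Disjoint X Y) (hX : X.card = k')
    (hcard : X.card + Y.card = gR K F)
    (hfin : Module.finrank K
      ↥(riemannRochSpace (∑ v ∈ X ∪ Y, Finsupp.single v (1 : ℤ))) = 1)
    (hdiv : (∑ v ∈ X, Finsupp.single v (1 : ℤ) + (n : ℤ) • ∑ v ∈ Y, Finsupp.single v (1 : ℤ)) -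
        c' =
      (∑ v ∈ p.1, Finsupp.single v (1 : ℤ) + (n : ℤ) • ∑ v ∈ p.2, Finsupp.single v (1 : ℤ)) -
        c) :
    (X, Y) ∈ Sol K F n k' c' := by
  refine ⟨hXY, hX, hcard, ?_, ?_⟩
  · show Module.finrank K ↥(riemannRochSpace (∑ v ∈ X, Finsupp.single v (1 : ℤ) +
      ∑ v ∈ Y, Finsupp.single v (1 : ℤ))) = 1
    rw [← Finset.sum_union hXY]
    exact hfin
  · show (∑ v ∈ X, Finsupp.single v (1 : ℤ) + (n : ℤ) • ∑ v ∈ Y, Finsupp.single v (1 : ℤ)) -
      c' ∈ Divisor.principal (K := K) (F := F)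
    rw [hdiv]
    exact hp.2.2.2.2

/-- Inserting a general point in the first set of a solution of type `(k, g - k)` gives a regular
point of type `(k + 1, g - k)`. -/
theorem insert_left_mem_tup {n k : ℕ} {c : Divisor K F} {p : Pt K F} (hp : p ∈ Sol K F n k c)
    {A : Place K F} (hA1 : A ∉ p.1) (hA2 : A ∉ p.2)
    (hgp : ∀ P ∈ p.1 ∪ p.2, Module.finrank K ↥(riemannRochSpace
      (∑ v ∈ insert A ((p.1 ∪ p.2).erase P), Finsupp.single v (1 : ℤ))) = 1) :
    (insert A p.1, p.2) ∈ Tup K F n k (c + Finsupp.single A (1 : ℤ)) := by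
  obtain ⟨hd, hk, hg, -, -⟩ := id hp
  refine ⟨?_, ?_, ?_, ?_, ?_⟩
  · exact Finset.disjoint_insert_left.mpr ⟨hA2, hd⟩
  · show (insert A p.1).card = k + 1
    rw [Finset.card_insert_of_notMem hA1, hk]
  · show (insert A p.1).card + p.2.card = gR K F + 1
    rw [Finset.card_insert_of_notMem hA1]
    omega
  · intro P hP
    show ((insert A p.1).erase P, p.2) ∈
      Sol K F n k (c + Finsupp.single A (1 : ℤ) - Finsupp.single P (1 : ℤ))
    rcases Finset.mem_insert.mp hP with rfl | hP1
    · rw [Finset.erase_insert hA1, add_sub_cancel_right]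
      exact hp
    · have hPA : A ≠ P := fun h => hA1 (h ▸ hP1)
      have hP2 : P ∉ p.2 := fun h => Finset.disjoint_left.mp hd hP1 h
      have hAe : A ∉ p.1.erase P := fun h => hA1 (Finset.mem_of_mem_erase h)
      have hpos := Finset.card_pos.mpr ⟨P, hP1⟩
      rw [Finset.erase_insert_of_ne hPA]
      refine mem_sol_of hp (insert A (p.1.erase P)) p.2 ?_ ?_ ?_ ?_ ?_
      · exact Finset.disjoint_insert_left.mpr
          ⟨hA2, Finset.disjoint_of_subset_left (Finset.erase_subset _ _) hd⟩
      · rw [Finset.card_insert_of_notMem hAe, Finset.card_erase_of_mem hP1]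
        omega
      · rw [Finset.card_insert_of_notMem hAe, Finset.card_erase_of_mem hP1]
        omega
      · have e : insert A (p.1.erase P) ∪ p.2 = insert A ((p.1 ∪ p.2).erase P) := by
          ext v
          simp only [Finset.mem_union, Finset.mem_insert, Finset.mem_erase]
          constructor
          · rintro ((h1 | ⟨h1, h2⟩) | h3)
            · exact Or.inl h1
            · exact Or.inr ⟨h1, Or.inl h2⟩
            · exact Or.inr ⟨fun h => hP2 (h ▸ h3), Or.inr h3⟩
          · rintro (h1 | ⟨h1, h2 | h3⟩)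
            · exact Or.inl (Or.inl h1)
            · exact Or.inl (Or.inr ⟨h1, h2⟩)
            · exact Or.inr h3
        rw [e]
        exact hgp P (Finset.mem_union_left _ hP1)
      · rw [sum_insert_single hAe, sum_erase_single hP1]
        abel
  · intro Q hQ
    show (insert A p.1, p.2.erase Q) ∈
      Sol K F n (k + 1) (c + Finsupp.single A (1 : ℤ) - (n : ℤ) • Finsupp.single Q (1 : ℤ))
    have hQ : Q ∈ p.2 := hQ
    have hQ1 : Q ∉ p.1 := fun h => Finset.disjoint_left.mp hd h hQ
    have hpos := Finset.card_pos.mpr ⟨Q, hQ⟩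
    refine mem_sol_of hp (insert A p.1) (p.2.erase Q) ?_ ?_ ?_ ?_ ?_
    · exact Finset.disjoint_insert_left.mpr ⟨fun h => hA2 (Finset.mem_of_mem_erase h),
        Finset.disjoint_of_subset_right (Finset.erase_subset _ _) hd⟩
    · rw [Finset.card_insert_of_notMem hA1, hk]
    · rw [Finset.card_insert_of_notMem hA1, Finset.card_erase_of_mem hQ]
      omega
    · have e : insert A p.1 ∪ p.2.erase Q = insert A ((p.1 ∪ p.2).erase Q) := by
        ext v
        simp only [Finset.mem_union, Finset.mem_insert, Finset.mem_erase]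
        constructor
        · rintro ((h1 | h2) | ⟨h3, h4⟩)
          · exact Or.inl h1
          · exact Or.inr ⟨fun h => hQ1 (h ▸ h2), Or.inl h2⟩
          · exact Or.inr ⟨h3, Or.inr h4⟩
        · rintro (h1 | ⟨h1, h2 | h3⟩)
          · exact Or.inl (Or.inl h1)
          · exact Or.inl (Or.inr h2)
          · exact Or.inr ⟨h1, h3⟩
      rw [e]
      exact hgp Q (Finset.mem_union_right _ hQ)
    · rw [sum_insert_single hA1, sum_erase_single hQ, smul_sub]
      abel

/-- Inserting a general point in the second set of a solution of type `(k + 1, g - k - 1)` gives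
a regular point of type `(k + 1, g - k)`. -/
theorem insert_right_mem_tup {n k : ℕ} {c : Divisor K F} {q : Pt K F}
    (hq : q ∈ Sol K F n (k + 1) c) {B : Place K F} (hB1 : B ∉ q.1) (hB2 : B ∉ q.2)
    (hgp : ∀ P ∈ q.1 ∪ q.2, Module.finrank K ↥(riemannRochSpace
      (∑ v ∈ insert B ((q.1 ∪ q.2).erase P), Finsupp.single v (1 : ℤ))) = 1) :
    (q.1, insert B q.2) ∈ Tup K F n k (c + (n : ℤ) • Finsupp.single B (1 : ℤ)) := by
  obtain ⟨hd, hk, hg, -, -⟩ := id hq
  refine ⟨?_, ?_, ?_, ?_, ?_⟩
  · exact Finset.disjoint_insert_right.mpr ⟨hB1, hd⟩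
  · exact hk
  · show q.1.card + (insert B q.2).card = gR K F + 1
    rw [Finset.card_insert_of_notMem hB2]
    omega
  · intro P hP
    show (q.1.erase P, insert B q.2) ∈
      Sol K F n k (c + (n : ℤ) • Finsupp.single B (1 : ℤ) - Finsupp.single P (1 : ℤ))
    have hP : P ∈ q.1 := hP
    have hP2 : P ∉ q.2 := fun h => Finset.disjoint_left.mp hd hP h
    have hpos := Finset.card_pos.mpr ⟨P, hP⟩
    refine mem_sol_of hq (q.1.erase P) (insert B q.2) ?_ ?_ ?_ ?_ ?_
    · exact Finset.disjoint_insert_right.mpr ⟨fun h => hB1 (Finset.mem_of_mem_erase h),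
        Finset.disjoint_of_subset_left (Finset.erase_subset _ _) hd⟩
    · rw [Finset.card_erase_of_mem hP, hk]
      omega
    · rw [Finset.card_erase_of_mem hP, Finset.card_insert_of_notMem hB2]
      omega
    · have e : q.1.erase P ∪ insert B q.2 = insert B ((q.1 ∪ q.2).erase P) := by
        ext v
        simp only [Finset.mem_union, Finset.mem_insert, Finset.mem_erase]
        constructor
        · rintro (⟨h1, h2⟩ | h3 | h4)
          · exact Or.inr ⟨h1, Or.inl h2⟩
          · exact Or.inl h3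
          · exact Or.inr ⟨fun h => hP2 (h ▸ h4), Or.inr h4⟩
        · rintro (h1 | ⟨h1, h2 | h3⟩)
          · exact Or.inr (Or.inl h1)
          · exact Or.inl ⟨h1, h2⟩
          · exact Or.inr (Or.inr h3)
      rw [e]
      exact hgp P (Finset.mem_union_left _ hP)
    · rw [sum_insert_single hB2, sum_erase_single hP, smul_add]
      abel
  · intro Q hQ
    show (q.1, (insert B q.2).erase Q) ∈
      Sol K F n (k + 1) (c + (n : ℤ) • Finsupp.single B (1 : ℤ) -
        (n : ℤ) • Finsupp.single Q (1 : ℤ))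
    rcases Finset.mem_insert.mp hQ with rfl | hQ2
    · rw [Finset.erase_insert hB2, add_sub_cancel_right]
      exact hq
    · have hQB : B ≠ Q := fun h => hB2 (h ▸ hQ2)
      have hQ1 : Q ∉ q.1 := fun h => Finset.disjoint_left.mp hd h hQ2
      have hBe : B ∉ q.2.erase Q := fun h => hB2 (Finset.mem_of_mem_erase h)
      have hpos := Finset.card_pos.mpr ⟨Q, hQ2⟩
      rw [Finset.erase_insert_of_ne hQB]
      refine mem_sol_of hq q.1 (insert B (q.2.erase Q)) ?_ ?_ ?_ ?_ ?_
      · exact Finset.disjoint_insert_right.mpr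
          ⟨hB1, Finset.disjoint_of_subset_right (Finset.erase_subset _ _) hd⟩
      · exact hk
      · rw [Finset.card_insert_of_notMem hBe, Finset.card_erase_of_mem hQ2]
        omega
      · have e : q.1 ∪ insert B (q.2.erase Q) = insert B ((q.1 ∪ q.2).erase Q) := by
          ext v
          simp only [Finset.mem_union, Finset.mem_insert, Finset.mem_erase]
          constructor
          · rintro (h1 | h2 | ⟨h3, h4⟩)
            · exact Or.inr ⟨fun h => hQ1 (h ▸ h1), Or.inl h1⟩
            · exact Or.inl h2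
            · exact Or.inr ⟨h3, Or.inr h4⟩
          · rintro (h1 | ⟨h1, h2 | h3⟩)
            · exact Or.inr (Or.inl h1)
            · exact Or.inl h2
            · exact Or.inr (Or.inr ⟨h1, h3⟩)
        rw [e]
        exact hgp Q (Finset.mem_union_right _ hQ2)
      · rw [sum_insert_single hBe, sum_erase_single hQ2, smul_add, smul_sub]
        abel

variable [IsAlgClosed K] [CharZero K] [Algebra.EssFiniteType K F]

/-- General position of one added point with respect to a finite set of solutions. -/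
theorem exists_general (htr : Algebra.trdeg K F = 1) {n k : ℕ} {c : Divisor K F}
    (S : Finset (Pt K F)) (hS : (↑S : Set (Pt K F)) ⊆ Sol K F n k c) :
    ∃ Bad : Finset (Place K F), ∀ A : Place K F, A ∉ Bad → ∀ p ∈ S, A ∉ p.1 ∧ A ∉ p.2 ∧
      ∀ P ∈ p.1 ∪ p.2, Module.finrank K ↥(riemannRochSpace
        (∑ v ∈ insert A ((p.1 ∪ p.2).erase P), Finsupp.single v (1 : ℤ))) = 1 := by
  have h : ∀ p : {p // p ∈ S}, ∃ Sp : Finset (Place K F), p.1.1 ∪ p.1.2 ⊆ Sp ∧
      ∀ Z : Place K F, Z ∉ Sp → ∀ P ∈ p.1.1 ∪ p.1.2, Module.finrank K ↥(riemannRochSpace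
        (∑ v ∈ insert Z ((p.1.1 ∪ p.1.2).erase P), Finsupp.single v (1 : ℤ))) = 1 := by
    intro p
    obtain ⟨hd, -, hg, hfin, -⟩ := hS (Finset.mem_coe.mpr p.2)
    refine M.GP1.swap htr (p.1.1 ∪ p.1.2) ?_ ?_
    · rw [Finset.card_union_of_disjoint hd]
      exact hg
    · rw [Finset.sum_union hd]
      exact hfin
  choose Sp hSp1 hSp2 using h
  refine ⟨Finset.univ.biUnion Sp, fun A hA p hp => ?_⟩
  have hAp : A ∉ Sp ⟨p, hp⟩ := fun h' =>
    hA (Finset.mem_biUnion.mpr ⟨⟨p, hp⟩, Finset.mem_univ _, h'⟩)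
  exact ⟨fun h' => hAp (hSp1 ⟨p, hp⟩ (Finset.mem_union_left _ h')),
    fun h' => hAp (hSp1 ⟨p, hp⟩ (Finset.mem_union_right _ h')), hSp2 ⟨p, hp⟩ A hAp⟩

/-- **The step up of the contract from the upper transfer.** -/
theorem stepUp_of_transferUp (htr : Algebra.trdeg K F = 1) (k : ℕ) (h : TransferUp K F k) :
    StepUp K F k := by
  obtain ⟨C, hC⟩ := h
  refine ⟨C, fun n hn c S hS => ?_⟩
  obtain ⟨Bad₁, hBad₁⟩ := exists_general htr S hS
  obtain ⟨A, hA⟩ := exists_place_notMem htr Bad₁
  have hX : ∀ x ∈ S.image (fun p : Pt K F => ((insert A p.1, p.2) : Pt K F)),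
      x ∈ Tup K F n k (c + Finsupp.single A (1 : ℤ)) ∧ A ∈ x.1 := by
    intro x hx
    obtain ⟨p, hp, rfl⟩ := Finset.mem_image.mp hx
    obtain ⟨h1, h2, h3⟩ := hBad₁ A hA p hp
    exact ⟨insert_left_mem_tup (hS (Finset.mem_coe.mpr hp)) h1 h2 h3,
      Finset.mem_insert_self _ _⟩
  have hXcard : (S.image (fun p : Pt K F => ((insert A p.1, p.2) : Pt K F))).card = S.card := by
    refine Finset.card_image_of_injOn fun p hp q hq hpq => ?_
    have hp1 := (hBad₁ A hA p (Finset.mem_coe.mp hp)).1
    have hq1 := (hBad₁ A hA q (Finset.mem_coe.mp hq)).1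
    have e1 : insert A p.1 = insert A q.1 := (Prod.mk.inj hpq).1
    have e2 : p.2 = q.2 := (Prod.mk.inj hpq).2
    refine Prod.ext ?_ e2
    rw [← Finset.erase_insert hp1, e1, Finset.erase_insert hq1]
  obtain ⟨Bad₂, hBad₂⟩ := hC n hn (c + Finsupp.single A (1 : ℤ)) A _ hX
  obtain ⟨B, hB⟩ := exists_place_notMem htr Bad₂
  obtain ⟨Y, hY, hle⟩ := hBad₂ B hB
  refine ⟨c + Finsupp.single A (1 : ℤ) - (n : ℤ) • Finsupp.single B (1 : ℤ),
    Y.image (fun y : Pt K F => ((y.1, y.2.erase B) : Pt K F)), ?_, ?_⟩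
  · intro s hs
    obtain ⟨y, hy, rfl⟩ := Finset.mem_image.mp (Finset.mem_coe.mp hs)
    obtain ⟨-, -, -, -, hQ⟩ := (hY y hy).1
    exact hQ B (hY y hy).2
  · have hYcard : (Y.image (fun y : Pt K F => ((y.1, y.2.erase B) : Pt K F))).card = Y.card := by
      refine Finset.card_image_of_injOn fun y hy z hz hyz => ?_
      have hy2 := (hY y (Finset.mem_coe.mp hy)).2
      have hz2 := (hY z (Finset.mem_coe.mp hz)).2
      have e1 : y.1 = z.1 := (Prod.mk.inj hyz).1
      have e2 : y.2.erase B = z.2.erase B := (Prod.mk.inj hyz).2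
      refine Prod.ext e1 ?_
      rw [← Finset.insert_erase hy2, e2, Finset.insert_erase hz2]
    rw [hYcard, ← hXcard]
    exact hle

/-- **The step down of the contract from the lower transfer.** -/
theorem stepDown_of_transferDown (htr : Algebra.trdeg K F = 1) (k : ℕ)
    (h : TransferDown K F k) : StepDown K F k := by
  obtain ⟨C, hC⟩ := h
  refine ⟨C, fun n hn c' S' hS' => ?_⟩
  obtain ⟨Bad₁, hBad₁⟩ := exists_general htr S' hS'
  obtain ⟨B, hB⟩ := exists_place_notMem htr Bad₁
  have hY : ∀ y ∈ S'.image (fun q : Pt K F => ((q.1, insert B q.2) : Pt K F)),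
      y ∈ Tup K F n k (c' + (n : ℤ) • Finsupp.single B (1 : ℤ)) ∧ B ∈ y.2 := by
    intro y hy
    obtain ⟨q, hq, rfl⟩ := Finset.mem_image.mp hy
    obtain ⟨h1, h2, h3⟩ := hBad₁ B hB q hq
    exact ⟨insert_right_mem_tup (hS' (Finset.mem_coe.mpr hq)) h1 h2 h3,
      Finset.mem_insert_self _ _⟩
  have hYcard : (S'.image (fun q : Pt K F => ((q.1, insert B q.2) : Pt K F))).card =
      S'.card := by
    refine Finset.card_image_of_injOn fun p hp q hq hpq => ?_
    have hp2 := (hBad₁ B hB p (Finset.mem_coe.mp hp)).2.1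
    have hq2 := (hBad₁ B hB q (Finset.mem_coe.mp hq)).2.1
    have e1 : p.1 = q.1 := (Prod.mk.inj hpq).1
    have e2 : insert B p.2 = insert B q.2 := (Prod.mk.inj hpq).2
    refine Prod.ext e1 ?_
    rw [← Finset.erase_insert hp2, e2, Finset.erase_insert hq2]
  obtain ⟨Bad₂, hBad₂⟩ := hC n hn (c' + (n : ℤ) • Finsupp.single B (1 : ℤ)) B _ hY
  obtain ⟨A, hA⟩ := exists_place_notMem htr Bad₂
  obtain ⟨X, hX, hle⟩ := hBad₂ A hA
  refine ⟨c' + (n : ℤ) • Finsupp.single B (1 : ℤ) - Finsupp.single A (1 : ℤ),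
    X.image (fun x : Pt K F => ((x.1.erase A, x.2) : Pt K F)), ?_, ?_⟩
  · intro s hs
    obtain ⟨x, hx, rfl⟩ := Finset.mem_image.mp (Finset.mem_coe.mp hs)
    obtain ⟨-, -, -, hP, -⟩ := (hX x hx).1
    exact hP A (hX x hx).2
  · have hXcard : (X.image (fun x : Pt K F => ((x.1.erase A, x.2) : Pt K F))).card = X.card := by
      refine Finset.card_image_of_injOn fun y hy z hz hyz => ?_
      have hy1 := (hX y (Finset.mem_coe.mp hy)).2
      have hz1 := (hX z (Finset.mem_coe.mp hz)).2
      have e1 : y.1.erase A = z.1.erase A := (Prod.mk.inj hyz).1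
      have e2 : y.2 = z.2 := (Prod.mk.inj hyz).2
      refine Prod.ext ?_ e2
      rw [← Finset.insert_erase hy1, e1, Finset.insert_erase hz1]
    rw [hXcard, ← hYcard]
    exact hle

end Fermat.Agent.S27.G.Steps
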