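import Fermat.Agent.S27.G.ExitChain
import Fermat.Agent.S27.G.Steps
import Fermat.Agent.S27.G.Transfer
import Fermat.Agent.S27.G.EndUp
import Fermat.Agent.S27.G.EndLow
import Fermat.Agent.S27.G.StartUp

/-!
# Program PJ (statement S27), strand G: the wiring of the chain

Everything of the global chain that is on main, composed: the two bounds of the contract
(`UpperBound K F l`, `LowerBound K F l`) follow

* `bounds_of_transfers` : from the two transfers `Defs.TransferUp K F k`, `Defs.TransferDown K F k`
  for every `k < g` (steps `G/Steps`, ends `G/EndUp`, `G/EndLow`, start `G/StartUp`, exit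
  `G/ExitChain`);
* `bounds_of_curves` : from a system of curves on every set of regular points
  `Defs.Tup K F n k c`, `k < g`, `n ≥ 2`, with the relation of the local theorem between the two
  degrees (`G/Transfer`).

So the only input of strand G left open is the system of curves (leaf `AsmInst`: the exits of the
carrier, the local theorem, the fibres and formal uniqueness through `Asm.exists_curves`).
-/

set_option autoImplicit false

namespace Fermat.Agent.S27.G.Wire

open AlgebraicCurve Fermat.Agent.S27

variable {K F : Type*} [Field K] [Field F] [Algebra K F]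
variable [IsAlgClosed K] [CharZero K] [Algebra.EssFiniteType K F]

/-- The two bounds of the contract from the two transfers at every type. -/
theorem bounds_of_transfers (htr : Algebra.trdeg K F = 1) (l : ℕ) (hl : 2 ≤ l)
    (hT : ∀ k, k < S17.R.gR K F → Defs.TransferUp K F k ∧ Defs.TransferDown K F k) :
    UpperBound K F l ∧ LowerBound K F l :=
  ExitChain.bounds l hl
    (fun k hk => Steps.stepUp_of_transferUp htr k (hT k hk).1)
    (fun k hk => Steps.stepDown_of_transferDown htr k (hT k hk).2)
    (EndUp.topUnique htr) (EndUp.topExists htr) (EndLow.bottomLower htr) (StartUp.upperStart0 htr)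

/-- The two bounds of the contract from the systems of curves on the regular points. -/
theorem bounds_of_curves (htr : Algebra.trdeg K F = 1) (l : ℕ) (hl : 2 ≤ l)
    (hcur : ∀ k, k < S17.R.gR K F → ∃ C₁ C₂ : ℕ, ∀ n : ℕ, 2 ≤ n → ∀ c : Divisor K F,
      Transfer.HasCurves (Defs.Tup K F n k c) C₂
        (fun d₁ d₂ => d₁ ≤ C₁ * n ^ 2 * d₂ ∧ n ^ 2 * d₂ ≤ C₁ * d₁)) :
    UpperBound K F l ∧ LowerBound K F l :=
  bounds_of_transfers htr l hl fun k hk => by
    obtain ⟨C₁, C₂, h⟩ := hcur k hk
    exact Transfer.transferUp_transferDown k C₁ C₂ h

end Fermat.Agent.S27.G.Wire
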