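import Fermat.Agent.S27.G.AsmInst
import Fermat.Agent.S27.G.PropExit
import Fermat.Agent.S27.G.Ordering
import Fermat.Agent.S27.G.PlaceEquiv
import Fermat.Agent.S27.L.LocExit
import Fermat.Agent.S27.G.Wire

/-!
# Program PJ (statement S27), strand G: the assembly wired on the landed leaves

`AsmInst.hcur_of_exits` with its leaves on main plugged in: the propagation of the invariant
(`PropExit.propExit`), the transport of places (`PlaceEquiv.exists_place_equiv`,
`PlaceEquiv.place_ext_ord`), the ordering of a regular point (`Ordering.exists_ordering`) and the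
local theorem in natural numbers (`L.LocExit.exists_locExit`).  What remains as hypotheses is
exactly: the character of the regular points (`AsmInst.GoodChar`) and the two exits of strand C
(`AsmIface.CarrierExit`, `AsmIface.UniqueExit`), for one non-zero derivation `δ`.

* `hcur_of_carrier` : the hypothesis `hcur` of `Wire.bounds_of_curves`;
* `bounds_of_carrier` : the two bounds of the contract, `UpperBound K F l ∧ LowerBound K F l`.
-/

set_option autoImplicit false

open AlgebraicCurve

namespace Fermat.Agent.S27.G.AsmWire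

open Fermat.Agent.S17 Fermat.Agent.S17.HB Fermat.Agent.S27.G.AsmIface

universe u v

variable {K : Type u} {F : Type v} [Field K] [Field F] [Algebra K F]
variable [IsAlgClosed K] [CharZero K] [Algebra.EssFiniteType K F]

/-- The transport of places, in the literal of `AsmInst.Transport`. -/
theorem transport (htr : Algebra.trdeg K F = 1) : AsmInst.Transport htr :=
  fun _ _ _ _ _ _ _ _ htrM htrM' φ w => PlaceEquiv.exists_place_equiv htr htrM htrM' φ w

/-- A place is determined by its order function, in the literal of `AsmInst.PlaceExt`. -/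
theorem placeExt : AsmInst.PlaceExt K :=
  fun _ _ _ _ w w' h => PlaceEquiv.place_ext_ord w w' h

/-- The ordering of a regular point, in the literal of `AsmInst.Ordering`. -/
theorem ordering (htr : Algebra.trdeg K F = 1) : AsmInst.Ordering htr := by
  intro n k hk c x hx
  obtain ⟨T, h1, h2, h3, -⟩ := Ordering.exists_ordering htr n k hk c x hx
  exact ⟨T, h1, h2, h3⟩

/-- **The systems of curves** (the hypothesis `hcur` of `Wire.bounds_of_curves`) from the
character of the regular points and the two exits of strand C. -/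
theorem hcur_of_carrier (htr : Algebra.trdeg K F = 1) (δ : Derivation K F F) (hδ : δ ≠ 0)
    (hchar : AsmInst.GoodChar htr)
    (hcar : ∀ e₁ e₂ n : ℕ, 0 < n → e₁ + e₂ = R.gR K F + 1 → CarrierExit htr e₁ e₂ n δ)
    (huniq : ∀ e₁ e₂ n : ℕ, 0 < n → e₁ + e₂ = R.gR K F + 1 → UniqueExit htr e₁ e₂ n δ) :
    ∀ k, k < R.gR K F → ∃ C₁ C₂ : ℕ, ∀ n, 2 ≤ n → ∀ c : Divisor K F,
      Transfer.HasCurves (Defs.Tup K F n k c) C₂
        (fun d₁ d₂ => d₁ ≤ C₁ * n ^ 2 * d₂ ∧ n ^ 2 * d₂ ≤ C₁ * d₁) :=
  AsmInst.hcur_of_exits htr (PropExit.propExit htr) hchar (transport htr) placeExt (ordering htr)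
    δ hcar huniq (L.LocExit.exists_locExit htr δ hδ)

/-- **The two bounds of the contract** from the character of the regular points and the two
exits of strand C. -/
theorem bounds_of_carrier (htr : Algebra.trdeg K F = 1) (l : ℕ) (hl : 2 ≤ l)
    (δ : Derivation K F F) (hδ : δ ≠ 0) (hchar : AsmInst.GoodChar htr)
    (hcar : ∀ e₁ e₂ n : ℕ, 0 < n → e₁ + e₂ = R.gR K F + 1 → CarrierExit htr e₁ e₂ n δ)
    (huniq : ∀ e₁ e₂ n : ℕ, 0 < n → e₁ + e₂ = R.gR K F + 1 → UniqueExit htr e₁ e₂ n δ) :
    UpperBound K F l ∧ LowerBound K F l :=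
  Wire.bounds_of_curves htr l hl (hcur_of_carrier htr δ hδ hchar hcar huniq)

end Fermat.Agent.S27.G.AsmWire
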