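import Mathlib
import Fermat.Agent.S27.Contract

/-!
# Program PJ (statement S27), strand G: the exit adapter

The chain of strand G bounds the `n`-torsion of `Pic0 K F` for all `n` above a THRESHOLD `n₀`
(with one constant `C`), either on finite sets of classes killed by `n` or on
`Nat.card (Pic0.torsion K F n)` together with its finiteness.  The contract
(`Fermat.Agent.S27.UpperBound`, `Fermat.Agent.S27.LowerBound`) asks for the finite-set form along
`n = l ^ j` for ALL `j`.  This file is the adapter: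

* below the threshold, the upper half uses `Pic0[l ^ j] ⊆ Pic0[l ^ n₀]` and the lower half the
  set `{0}`; the price is a factor `(l ^ n₀) ^ (2 g)` in the constant;
* in genus zero both literals follow from the triviality of `Pic0` (`Fermat.Agent.S27.GenusZero`).

Mathlib + the contract only.
-/

set_option autoImplicit false

open AlgebraicCurve

namespace Fermat.Agent.S27.G.Exit

variable {K F : Type*} [Field K] [Field F] [Algebra K F]

/-! ### Membership in `Pic0.torsion` in `ℕ`-form -/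

theorem mem_torsion_iff_nsmul {n : ℕ} {x : Pic0 K F} :
    x ∈ Pic0.torsion K F n ↔ n • x = 0 := by
  rw [Pic0.mem_torsion, natCast_zsmul]

theorem nsmul_eq_zero_of_dvd {m n : ℕ} (h : m ∣ n) {x : Pic0 K F} (hx : m • x = 0) :
    n • x = 0 := by
  obtain ⟨d, rfl⟩ := h
  rw [mul_nsmul, hx, nsmul_zero]

/-! ### The threshold forms of the two bounds -/

/-- Upper bound of the chain, finite-set form, above a threshold. -/
def UpperFrom (K F : Type*) [Field K] [Field F] [Algebra K F] (C n₀ : ℕ) : Prop :=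
  ∀ n : ℕ, n₀ ≤ n → ∀ T : Finset (Pic0 K F), (∀ x ∈ T, n • x = 0) →
    T.card ≤ C * n ^ (2 * S17.R.gR K F)

/-- Lower bound of the chain, finite-set form, above a threshold. -/
def LowerFrom (K F : Type*) [Field K] [Field F] [Algebra K F] (C n₀ : ℕ) : Prop :=
  ∀ n : ℕ, n₀ ≤ n → ∃ T : Finset (Pic0 K F), (∀ x ∈ T, n • x = 0) ∧
    n ^ (2 * S17.R.gR K F) ≤ C * T.card

/-- The conclusion of the chain in `Nat.card` form: above the threshold the torsion is finite
and its cardinality is `n ^ (2 g)` up to the constant `C` on both sides. -/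
def TorsionBoundsFrom (K F : Type*) [Field K] [Field F] [Algebra K F] (C n₀ : ℕ) : Prop :=
  ∀ n : ℕ, n₀ ≤ n → (↑(Pic0.torsion K F n) : Set (Pic0 K F)).Finite ∧
    Nat.card (Pic0.torsion K F n) ≤ C * n ^ (2 * S17.R.gR K F) ∧
    n ^ (2 * S17.R.gR K F) ≤ C * Nat.card (Pic0.torsion K F n)

theorem threshold_le_pow {l : ℕ} (hl : 2 ≤ l) (n₀ : ℕ) : n₀ ≤ l ^ n₀ :=
  (Nat.lt_pow_self hl).le

/-! ### The exit, finite-set form -/

/-- **Upper exit**: the upper bound above a threshold gives the contract literal for every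
`l ≥ 2`. -/
theorem upperBound_of_upperFrom {C n₀ : ℕ} (h : UpperFrom K F C n₀) {l : ℕ} (hl : 2 ≤ l) :
    UpperBound K F l := by
  have hJ : n₀ ≤ l ^ n₀ := threshold_le_pow hl n₀
  have hlpos : 0 < l := by omega
  have hone : ∀ m : ℕ, 1 ≤ (l ^ m) ^ (2 * S17.R.gR K F) := fun m =>
    Nat.one_le_pow _ _ (pow_pos hlpos _)
  refine ⟨C * (l ^ n₀) ^ (2 * S17.R.gR K F), fun j T hT => ?_⟩
  rcases le_or_gt n₀ j with hj | hj
  · -- above the threshold
    have hge : n₀ ≤ l ^ j := hJ.trans (Nat.pow_le_pow_right hlpos hj)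
    calc T.card ≤ C * (l ^ j) ^ (2 * S17.R.gR K F) := h (l ^ j) hge T hT
      _ = C * 1 * (l ^ j) ^ (2 * S17.R.gR K F) := by rw [mul_one]
      _ ≤ C * (l ^ n₀) ^ (2 * S17.R.gR K F) * (l ^ j) ^ (2 * S17.R.gR K F) :=
        Nat.mul_le_mul_right _ (Nat.mul_le_mul_left _ (hone n₀))
  · -- below the threshold: the classes are killed by `l ^ n₀`
    have hdvd : l ^ j ∣ l ^ n₀ := pow_dvd_pow l hj.le
    calc T.card ≤ C * (l ^ n₀) ^ (2 * S17.R.gR K F) :=
          h (l ^ n₀) hJ T (fun x hx => nsmul_eq_zero_of_dvd hdvd (hT x hx))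
      _ = C * (l ^ n₀) ^ (2 * S17.R.gR K F) * 1 := by rw [mul_one]
      _ ≤ C * (l ^ n₀) ^ (2 * S17.R.gR K F) * (l ^ j) ^ (2 * S17.R.gR K F) :=
        Nat.mul_le_mul_left _ (hone j)

/-- **Lower exit**: the lower bound above a threshold gives the contract literal for every
`l ≥ 2`. -/
theorem lowerBound_of_lowerFrom {C n₀ : ℕ} (h : LowerFrom K F C n₀) {l : ℕ} (hl : 2 ≤ l) :
    LowerBound K F l := by
  have hJ : n₀ ≤ l ^ n₀ := threshold_le_pow hl n₀
  have hlpos : 0 < l := by omega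
  refine ⟨C + (l ^ n₀) ^ (2 * S17.R.gR K F), fun j => ?_⟩
  rcases le_or_gt n₀ j with hj | hj
  · have hge : n₀ ≤ l ^ j := hJ.trans (Nat.pow_le_pow_right hlpos hj)
    obtain ⟨T, hT, hle⟩ := h (l ^ j) hge
    exact ⟨T, hT, hle.trans (Nat.mul_le_mul_right _ (Nat.le_add_right _ _))⟩
  · refine ⟨{0}, fun x hx => ?_, ?_⟩
    · rw [Finset.mem_singleton.mp hx, nsmul_zero]
    · have h1 : (l ^ j) ^ (2 * S17.R.gR K F) ≤ (l ^ n₀) ^ (2 * S17.R.gR K F) :=
        Nat.pow_le_pow_left (Nat.pow_le_pow_right hlpos hj.le) _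
      rw [Finset.card_singleton, mul_one]
      exact h1.trans (Nat.le_add_left _ _)

/-! ### From the `Nat.card` form to the finite-set form -/

theorem card_le_natCard_torsion {n : ℕ}
    (hfin : (↑(Pic0.torsion K F n) : Set (Pic0 K F)).Finite)
    (T : Finset (Pic0 K F)) (hT : ∀ x ∈ T, n • x = 0) :
    T.card ≤ Nat.card (Pic0.torsion K F n) := by
  have h1 : (↑T : Set (Pic0 K F)) ⊆ ↑(Pic0.torsion K F n) := fun x hx =>
    mem_torsion_iff_nsmul.mpr (hT x (Finset.mem_coe.mp hx))
  have h2 := Set.ncard_le_ncard h1 hfin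
  rw [Set.ncard_coe_finset] at h2
  have h3 : Nat.card (Pic0.torsion K F n) = (↑(Pic0.torsion K F n) : Set (Pic0 K F)).ncard :=
    Nat.card_coe_set_eq _
  rw [h3]
  exact h2

theorem upperFrom_of_torsionBoundsFrom {C n₀ : ℕ} (h : TorsionBoundsFrom K F C n₀) :
    UpperFrom K F C n₀ := fun n hn T hT =>
  (card_le_natCard_torsion (h n hn).1 T hT).trans (h n hn).2.1

theorem lowerFrom_of_torsionBoundsFrom {C n₀ : ℕ} (h : TorsionBoundsFrom K F C n₀) :
    LowerFrom K F C n₀ := fun n hn => by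
  obtain ⟨hfin, -, hlow⟩ := h n hn
  refine ⟨hfin.toFinset, fun x hx => ?_, ?_⟩
  · exact mem_torsion_iff_nsmul.mp ((Set.Finite.mem_toFinset hfin).mp hx)
  · have hc : hfin.toFinset.card = Nat.card (Pic0.torsion K F n) := by
      rw [← Set.ncard_eq_toFinset_card _ hfin]
      exact (Nat.card_coe_set_eq _).symm
    rw [hc]
    exact hlow

/-- `TorsionBoundsFrom` from the instance form of finiteness. -/
theorem torsionBoundsFrom_of_finite {C n₀ : ℕ}
    (hfin : ∀ n : ℕ, n₀ ≤ n → Finite ↥(Pic0.torsion K F n))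
    (hup : ∀ n : ℕ, n₀ ≤ n → Nat.card (Pic0.torsion K F n) ≤ C * n ^ (2 * S17.R.gR K F))
    (hlow : ∀ n : ℕ, n₀ ≤ n → n ^ (2 * S17.R.gR K F) ≤ C * Nat.card (Pic0.torsion K F n)) :
    TorsionBoundsFrom K F C n₀ := fun n hn =>
  ⟨Set.finite_coe_iff.mp (hfin n hn), hup n hn, hlow n hn⟩

/-! ### The exit of strand G -/

/-- **Exit of strand G, finite-set form**: the two bounds above thresholds (each with its own
constant) give both literals of the contract, for every `l ≥ 2`. -/
theorem bounds_of_from {C₁ n₁ C₂ n₂ : ℕ} (hU : UpperFrom K F C₁ n₁) (hL : LowerFrom K F C₂ n₂)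
    {l : ℕ} (hl : 2 ≤ l) : UpperBound K F l ∧ LowerBound K F l :=
  ⟨upperBound_of_upperFrom hU hl, lowerBound_of_lowerFrom hL hl⟩

/-- **Exit of strand G, `Nat.card` form** (the shape `TorsionBounds` of the chain): one constant
and one threshold give both literals of the contract, for every `l ≥ 2`. -/
theorem bounds_of_torsionBounds
    (h : ∃ C n₀ : ℕ, ∀ n : ℕ, n₀ ≤ n →
      (↑(Pic0.torsion K F n) : Set (Pic0 K F)).Finite ∧
      Nat.card (Pic0.torsion K F n) ≤ C * n ^ (2 * S17.R.gR K F) ∧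
      n ^ (2 * S17.R.gR K F) ≤ C * Nat.card (Pic0.torsion K F n))
    {l : ℕ} (hl : 2 ≤ l) : UpperBound K F l ∧ LowerBound K F l := by
  obtain ⟨C, n₀, hC⟩ := h
  have hT : TorsionBoundsFrom K F C n₀ := hC
  exact bounds_of_from (upperFrom_of_torsionBoundsFrom hT) (lowerFrom_of_torsionBoundsFrom hT) hl

/-! ### Genus zero -/

/-- Both literals when `Pic0` is trivial. -/
theorem bounds_of_trivial (htriv : ∀ x : Pic0 K F, x = 0) (hg : S17.R.gR K F = 0) (l : ℕ) :
    UpperBound K F l ∧ LowerBound K F l := by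
  refine ⟨⟨1, fun j T _ => ?_⟩, ⟨1, fun j => ⟨{0}, fun x hx => ?_, ?_⟩⟩⟩
  · have h1 : T.card ≤ 1 := by
      rw [Finset.card_le_one]
      intro a _ b _
      rw [htriv a, htriv b]
    rw [hg, mul_zero, pow_zero, mul_one]
    exact h1
  · rw [Finset.mem_singleton.mp hx, nsmul_zero]
  · rw [hg, mul_zero, pow_zero, Finset.card_singleton, mul_one]

/-- **Genus zero**: both literals from the contract's `GenusZero`. -/
theorem bounds_of_genusZero (hZ : GenusZero K F) (hg : S17.R.gR K F = 0) (l : ℕ) :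
    UpperBound K F l ∧ LowerBound K F l :=
  bounds_of_trivial (hZ hg) hg l

/-- **Exit of strand G with the genus-zero door**: if the chain is only available in positive
genus, `GenusZero` closes the other case. -/
theorem bounds_of_pos_or_genusZero (hZ : GenusZero K F)
    (h : 0 < S17.R.gR K F → ∃ C n₀ : ℕ, ∀ n : ℕ, n₀ ≤ n →
      (↑(Pic0.torsion K F n) : Set (Pic0 K F)).Finite ∧
      Nat.card (Pic0.torsion K F n) ≤ C * n ^ (2 * S17.R.gR K F) ∧
      n ^ (2 * S17.R.gR K F) ≤ C * Nat.card (Pic0.torsion K F n))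
    {l : ℕ} (hl : 2 ≤ l) : UpperBound K F l ∧ LowerBound K F l := by
  rcases Nat.eq_zero_or_pos (S17.R.gR K F) with hg | hg
  · exact bounds_of_genusZero hZ hg l
  · exact bounds_of_torsionBounds (h hg) hl

end Fermat.Agent.S27.G.Exit
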