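import Mathlib
import Fermat.Agent.S27.Contract
import Fermat.Agent.S27.G.Exit

/-!
# Program PJ (statement S27), strand G: the concrete chain

The two bounds of the contract (`UpperBound K F l`, `LowerBound K F l`) from the steps of the
chain and its ends, all in the vocabulary of `S27/Contract.lean`:

* `card_le_of_stepUp` : the steps up `k, k + 1, .., g - 1` and `TopUnique` bound every finite
  set of solutions of type `(k, g - k)` in one class by `D * (n ^ 2) ^ (g - k)`;
* `upperFrom_of_steps`, `upperBound_of_steps` : with `UpperStart0`, every finite set of classes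
  killed by `n ≥ 2` has at most `C * n ^ (2 g)` elements;
* `upperFrom_of_start1`, `upperBound_of_start1` : the same from `UpperStart1` (the Kummer
  start) and the steps up for `1 ≤ k` only, with `GenusZero` for genus zero;
* `le_card_of_stepDown` : the steps down and one solution of type `(g, 0)` give, in type
  `(k, g - k)`, a finite set of solutions in one class with `(n ^ 2) ^ (g - k) ≤ D * card`;
* `lowerFrom_of_steps`, `lowerBound_of_steps` : with `TopExists` and `BottomLower`, some finite
  set of classes killed by `n ≥ 2` has at least `n ^ (2 g) / C` elements.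

Arithmetic on the Props of the contract only; the adapters to all `j` are those of `G/Exit`.
-/

set_option autoImplicit false

open AlgebraicCurve

namespace Fermat.Agent.S27.G.Bounds

variable {K F : Type*} [Field K] [Field F] [Algebra K F]

/-- A finite set of solutions of type `(g, 0)` in one class has at most one element. -/
theorem card_le_one_of_topUnique (htop : TopUnique K F) (n : ℕ) (c : Divisor K F)
    (S : Finset (Finset (Place K F) × Finset (Place K F)))
    (hS : (↑S : Set _) ⊆ Sol K F n (S17.R.gR K F) c) : S.card ≤ 1 :=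
  Finset.card_le_one.mpr fun p hp q hq =>
    htop n c p q (hS (Finset.mem_coe.mpr hp)) (hS (Finset.mem_coe.mpr hq))

/-- **The upper chain**: the steps up from the type `(k, g - k)` to the top bound every finite
set of solutions of type `(k, g - k)` in one class. -/
theorem card_le_of_stepUp (htop : TopUnique K F) (m : ℕ) :
    ∀ k : ℕ, k + m = S17.R.gR K F →
      (∀ i, k ≤ i → i < S17.R.gR K F → StepUp K F i) →
      ∃ D : ℕ, ∀ n : ℕ, 2 ≤ n → ∀ (c : Divisor K F)
        (S : Finset (Finset (Place K F) × Finset (Place K F))),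
        (↑S : Set _) ⊆ Sol K F n k c → S.card ≤ D * (n ^ 2) ^ m := by
  induction m with
  | zero =>
    intro k hk _
    refine ⟨1, fun n _ c S hS => ?_⟩
    rw [add_zero] at hk
    rw [hk] at hS
    simpa using card_le_one_of_topUnique htop n c S hS
  | succ m ih =>
    intro k hk hstep
    obtain ⟨C, hC⟩ := hstep k le_rfl (by omega)
    obtain ⟨D, hD⟩ := ih (k + 1) (by omega) (fun i hi hig => hstep i (by omega) hig)
    refine ⟨C * D, fun n hn c S hS => ?_⟩
    obtain ⟨c', S', hS', hle⟩ := hC n hn c S hS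
    calc S.card ≤ C * n ^ 2 * S'.card := hle
      _ ≤ C * n ^ 2 * (D * (n ^ 2) ^ m) := Nat.mul_le_mul_left _ (hD n hn c' S' hS')
      _ = C * D * (n ^ 2) ^ (m + 1) := by ring

/-- **Upper half above the threshold `2`**, from `UpperStart0`. -/
theorem upperFrom_of_steps (hstep : ∀ k, k < S17.R.gR K F → StepUp K F k) (htop : TopUnique K F)
    (hstart : UpperStart0 K F) : ∃ C : ℕ, Exit.UpperFrom K F C 2 := by
  obtain ⟨C₀, hC₀⟩ := hstart
  obtain ⟨D, hD⟩ := card_le_of_stepUp htop (S17.R.gR K F) 0 (zero_add _)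
    (fun i _ hi => hstep i hi)
  refine ⟨C₀ * D, fun n hn T hT => ?_⟩
  obtain ⟨c, S, hS, hle⟩ := hC₀ n hn T hT
  calc T.card ≤ C₀ * S.card := hle
    _ ≤ C₀ * (D * (n ^ 2) ^ S17.R.gR K F) := Nat.mul_le_mul_left _ (hD n hn c S hS)
    _ = C₀ * D * n ^ (2 * S17.R.gR K F) := by rw [← pow_mul, mul_assoc]

/-- **The upper bound of the contract** from the steps up, `TopUnique` and `UpperStart0`. -/
theorem upperBound_of_steps (l : ℕ) (hl : 2 ≤ l)
    (hstep : ∀ k, k < S17.R.gR K F → StepUp K F k) (htop : TopUnique K F)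
    (hstart : UpperStart0 K F) : UpperBound K F l := by
  obtain ⟨C, hC⟩ := upperFrom_of_steps hstep htop hstart
  exact Exit.upperBound_of_upperFrom hC hl

/-- **Upper half above the threshold `2`**, from `UpperStart1` (the Kummer start), in positive
genus; only the steps up for `1 ≤ k` are used. -/
theorem upperFrom_of_start1 (hg : 0 < S17.R.gR K F)
    (hstep : ∀ k, 1 ≤ k → k < S17.R.gR K F → StepUp K F k) (htop : TopUnique K F)
    (hstart : UpperStart1 K F) : ∃ C : ℕ, Exit.UpperFrom K F C 2 := by
  obtain ⟨C₁, hC₁⟩ := hstart hg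
  obtain ⟨D, hD⟩ := card_le_of_stepUp htop (S17.R.gR K F - 1) 1 (by omega)
    (fun i hi hig => hstep i hi hig)
  refine ⟨C₁ * D, fun n hn T hT => ?_⟩
  obtain ⟨c, S, hS, hle⟩ := hC₁ n hn T hT
  have hpow : n ^ 2 * (n ^ 2) ^ (S17.R.gR K F - 1) = n ^ (2 * S17.R.gR K F) := by
    rw [← pow_succ', ← pow_mul]
    congr 1
    omega
  calc T.card ≤ C₁ * n ^ 2 * S.card := hle
    _ ≤ C₁ * n ^ 2 * (D * (n ^ 2) ^ (S17.R.gR K F - 1)) :=
        Nat.mul_le_mul_left _ (hD n hn c S hS)
    _ = C₁ * D * (n ^ 2 * (n ^ 2) ^ (S17.R.gR K F - 1)) := by ring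
    _ = C₁ * D * n ^ (2 * S17.R.gR K F) := by rw [hpow]

/-- **The upper bound of the contract** from the Kummer start: the steps up for `1 ≤ k`,
`TopUnique`, `UpperStart1`, and `GenusZero` for genus zero. -/
theorem upperBound_of_start1 (l : ℕ) (hl : 2 ≤ l)
    (hstep : ∀ k, 1 ≤ k → k < S17.R.gR K F → StepUp K F k) (htop : TopUnique K F)
    (hstart : UpperStart1 K F) (h0 : GenusZero K F) : UpperBound K F l := by
  rcases Nat.eq_zero_or_pos (S17.R.gR K F) with hg | hg
  · exact (Exit.bounds_of_genusZero h0 hg l).1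
  · obtain ⟨C, hC⟩ := upperFrom_of_start1 hg hstep htop hstart
    exact Exit.upperBound_of_upperFrom hC hl

/-- **The lower chain**: the steps down from the top to the type `(k, g - k)` turn a finite set
of solutions of type `(g, 0)` in one class into a finite set of solutions of type `(k, g - k)`
in one class, with the factor `(n ^ 2) ^ (g - k)`. -/
theorem le_card_of_stepDown (m : ℕ) :
    ∀ k : ℕ, k + m = S17.R.gR K F →
      (∀ i, k ≤ i → i < S17.R.gR K F → StepDown K F i) →
      ∃ D : ℕ, ∀ n : ℕ, 2 ≤ n → ∀ (c' : Divisor K F)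
        (S' : Finset (Finset (Place K F) × Finset (Place K F))),
        (↑S' : Set _) ⊆ Sol K F n (S17.R.gR K F) c' →
        ∃ (c : Divisor K F) (S : Finset (Finset (Place K F) × Finset (Place K F))),
          (↑S : Set _) ⊆ Sol K F n k c ∧ (n ^ 2) ^ m * S'.card ≤ D * S.card := by
  induction m with
  | zero =>
    intro k hk _
    refine ⟨1, fun n _ c' S' hS' => ⟨c', S', ?_, by simp⟩⟩
    rw [add_zero] at hk
    rw [hk]
    exact hS'
  | succ m ih =>
    intro k hk hstep
    obtain ⟨C, hC⟩ := hstep k le_rfl (by omega)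
    obtain ⟨D, hD⟩ := ih (k + 1) (by omega) (fun i hi hig => hstep i (by omega) hig)
    refine ⟨D * C, fun n hn c' S' hS' => ?_⟩
    obtain ⟨c₁, S₁, hS₁, h1⟩ := hD n hn c' S' hS'
    obtain ⟨c, S, hS, h2⟩ := hC n hn c₁ S₁ hS₁
    refine ⟨c, S, hS, ?_⟩
    calc (n ^ 2) ^ (m + 1) * S'.card = n ^ 2 * ((n ^ 2) ^ m * S'.card) := by ring
      _ ≤ n ^ 2 * (D * S₁.card) := Nat.mul_le_mul_left _ h1
      _ = D * (n ^ 2 * S₁.card) := by ring
      _ ≤ D * (C * S.card) := Nat.mul_le_mul_left _ h2
      _ = D * C * S.card := by ring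

/-- **Lower half above the threshold `2`**. -/
theorem lowerFrom_of_steps (hstep : ∀ k, k < S17.R.gR K F → StepDown K F k)
    (htop : TopExists K F) (hbot : BottomLower K F) : ∃ C : ℕ, Exit.LowerFrom K F C 2 := by
  classical
  obtain ⟨D, hD⟩ := le_card_of_stepDown (K := K) (F := F) (S17.R.gR K F) 0 (zero_add _)
    (fun i _ hi => hstep i hi)
  refine ⟨D, fun n hn => ?_⟩
  obtain ⟨c', p, hp⟩ := htop n
  obtain ⟨c, S, hS, hle⟩ := hD n hn c' {p} (by
    intro q hq
    rw [Finset.coe_singleton, Set.mem_singleton_iff] at hq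
    rw [hq]
    exact hp)
  obtain ⟨T, hT, hST⟩ := hbot n c S hS
  refine ⟨T, hT, ?_⟩
  rw [Finset.card_singleton, mul_one, ← pow_mul] at hle
  exact hle.trans (Nat.mul_le_mul_left _ hST)

/-- **The lower bound of the contract** from the steps down, `TopExists` and `BottomLower`. -/
theorem lowerBound_of_steps (l : ℕ) (hl : 2 ≤ l)
    (hstep : ∀ k, k < S17.R.gR K F → StepDown K F k) (htop : TopExists K F)
    (hbot : BottomLower K F) : LowerBound K F l := by
  obtain ⟨C, hC⟩ := lowerFrom_of_steps hstep htop hbot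
  exact Exit.lowerBound_of_lowerFrom hC hl

end Fermat.Agent.S27.G.Bounds
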