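import Mathlib

/-!
# Program PJ (statement S27), strand G: the abstract chain on finite sets

Nothing in this file knows a curve.  `Sol k` is a type of "good solutions of type `k`"
(`k = 0, .., g`), `cls k : Sol k → Cls` their class.  The geometric strands prove, for every finite
set `S` of solutions of type `k` in ONE class, the existence of a finite set `S'` of solutions of
type `k + 1` in one class with `|S| ≤ A |S'|` (upper step), resp. for `S` of type `k + 1` a set
`S'` of type `k` with `a |S| ≤ B |S'|` (lower step).  This file chains the steps: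

* `upper_chain` : `|S| ≤ A ^ (g - k) * E` for every finite set of solutions of type `k` in one
  class, `E` a bound for the sets of type `g`;
* `lower_chain` : from one solution of type `g`, a finite set `S` of solutions of type `0` in one
  class with `a ^ g ≤ B ^ g * |S|`;
* `upper_chain_real`, `lower_chain_real` : the same for a predicate `Sol k c s` ("`s` is a good
  solution of type `k` and class `c`") with one real constant per step;
* `step_of_carrier` : the bookkeeping of one step ("counting without components"): the solutions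
  of `S` are carried by finitely many configurations `M ∈ MM`, at most `d0 M` of them by `M`;
  `d0 M ≤ I₁ M`, the local theorem `a * I₁ M ≤ C * I₂ M`, and the fibres
  `∑ M ∈ MM, I₂ M ≤ D * N'` give `a * |S| ≤ C * D * N'`;
* `finite_and_card_le_of_forall_finset` : a type all of whose finite subsets have at most `N`
  elements is finite with at most `N` elements (finiteness of the torsion out of the upper chain).
-/

set_option autoImplicit false

namespace Fermat.Agent.S27.G.Chain

/-- **The upper chain.** -/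
theorem upper_chain {g : ℕ} {Cls : Type*} {Sol : ℕ → Type*} (cls : ∀ k, Sol k → Cls) (A E : ℕ)
    (hstep : ∀ k, k < g → ∀ (c : Cls) (S : Finset (Sol k)), (∀ s ∈ S, cls k s = c) →
      ∃ (c' : Cls) (S' : Finset (Sol (k + 1))), (∀ s ∈ S', cls (k + 1) s = c') ∧
        S.card ≤ A * S'.card)
    (hend : ∀ (c : Cls) (S : Finset (Sol g)), (∀ s ∈ S, cls g s = c) → S.card ≤ E) :
    ∀ k, k ≤ g → ∀ (c : Cls) (S : Finset (Sol k)), (∀ s ∈ S, cls k s = c) →
      S.card ≤ A ^ (g - k) * E := by
  have key : ∀ j k, k + j = g → ∀ (c : Cls) (S : Finset (Sol k)), (∀ s ∈ S, cls k s = c) →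
      S.card ≤ A ^ j * E := by
    intro j
    induction j with
    | zero =>
      intro k hk c S hS
      have hk' : k = g := by omega
      subst hk'
      simpa using hend c S hS
    | succ j ih =>
      intro k hk c S hS
      obtain ⟨c', S', hS', hle⟩ := hstep k (by omega) c S hS
      have h1 := ih (k + 1) (by omega) c' S' hS'
      calc S.card ≤ A * S'.card := hle
        _ ≤ A * (A ^ j * E) := Nat.mul_le_mul_left A h1
        _ = A ^ (j + 1) * E := by ring
  intro k hk c S hS
  exact key (g - k) k (by omega) c S hS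

/-- **The lower chain.** -/
theorem lower_chain {g : ℕ} {Cls : Type*} {Sol : ℕ → Type*} (cls : ∀ k, Sol k → Cls) (a B : ℕ)
    (hstep : ∀ k, k < g → ∀ (c : Cls) (S : Finset (Sol (k + 1))),
      (∀ s ∈ S, cls (k + 1) s = c) →
      ∃ (c' : Cls) (S' : Finset (Sol k)), (∀ s ∈ S', cls k s = c') ∧
        a * S.card ≤ B * S'.card)
    (s₀ : Sol g) :
    ∃ (c : Cls) (S : Finset (Sol 0)), (∀ s ∈ S, cls 0 s = c) ∧ a ^ g ≤ B ^ g * S.card := by
  classical
  have key : ∀ j k, k + j = g → ∃ (c : Cls) (S : Finset (Sol k)), (∀ s ∈ S, cls k s = c) ∧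
      a ^ j ≤ B ^ j * S.card := by
    intro j
    induction j with
    | zero =>
      intro k hk
      have hk' : k = g := by omega
      subst hk'
      refine ⟨cls k s₀, {s₀}, fun s hs => ?_, ?_⟩
      · rw [Finset.mem_singleton.mp hs]
      · simp
    | succ j ih =>
      intro k hk
      obtain ⟨c, S, hS, hle⟩ := ih (k + 1) (by omega)
      obtain ⟨c', S', hS', hle'⟩ := hstep k (by omega) c S hS
      refine ⟨c', S', hS', ?_⟩
      calc a ^ (j + 1) = a ^ j * a := pow_succ a j
        _ ≤ B ^ j * S.card * a := Nat.mul_le_mul_right a hle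
        _ = B ^ j * (a * S.card) := by ring
        _ ≤ B ^ j * (B * S'.card) := Nat.mul_le_mul_left _ hle'
        _ = B ^ (j + 1) * S'.card := by ring
  exact key g 0 (by omega)

/-- **The upper chain, predicate form with real constants** (the vocabulary of the PJ contract:
`Sol k c s` = "`s` is a good solution of type `k` and class `c`"; one constant per step). -/
theorem upper_chain_real {g : ℕ} {Cls σ : Type*} (Sol : ℕ → Cls → σ → Prop) (A : ℕ → ℝ)
    (E : ℝ) (hA : ∀ k, k < g → 0 ≤ A k)
    (hstep : ∀ k, k < g → ∀ (c : Cls) (S : Finset σ), (∀ s ∈ S, Sol k c s) →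
      ∃ (c' : Cls) (S' : Finset σ), (∀ s ∈ S', Sol (k + 1) c' s) ∧
        (S.card : ℝ) ≤ A k * S'.card)
    (hend : ∀ (c : Cls) (S : Finset σ), (∀ s ∈ S, Sol g c s) → (S.card : ℝ) ≤ E) :
    ∀ k, k ≤ g → ∀ (c : Cls) (S : Finset σ), (∀ s ∈ S, Sol k c s) →
      (S.card : ℝ) ≤ (∏ i ∈ Finset.Ico k g, A i) * E := by
  have key : ∀ j k, k + j = g → ∀ (c : Cls) (S : Finset σ), (∀ s ∈ S, Sol k c s) →
      (S.card : ℝ) ≤ (∏ i ∈ Finset.Ico k g, A i) * E := by
    intro j
    induction j with
    | zero =>
      intro k hk c S hS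
      have hk' : k = g := by omega
      subst hk'
      simpa using hend c S hS
    | succ j ih =>
      intro k hk c S hS
      obtain ⟨c', S', hS', hle⟩ := hstep k (by omega) c S hS
      have h1 := ih (k + 1) (by omega) c' S' hS'
      have hprod : ∏ i ∈ Finset.Ico k g, A i = A k * ∏ i ∈ Finset.Ico (k + 1) g, A i :=
        Finset.prod_eq_prod_Ico_succ_bot (by omega) A
      rw [hprod, mul_assoc]
      exact le_trans hle (mul_le_mul_of_nonneg_left h1 (hA k (by omega)))
  intro k hk c S hS
  exact key (g - k) k (by omega) c S hS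

/-- **The lower chain, predicate form with real constants.** -/
theorem lower_chain_real {g : ℕ} {Cls σ : Type*} (Sol : ℕ → Cls → σ → Prop) (a B : ℕ → ℝ)
    (ha : ∀ k, k < g → 0 ≤ a k) (hB : ∀ k, k < g → 0 ≤ B k)
    (hstep : ∀ k, k < g → ∀ (c : Cls) (S : Finset σ), (∀ s ∈ S, Sol (k + 1) c s) →
      ∃ (c' : Cls) (S' : Finset σ), (∀ s ∈ S', Sol k c' s) ∧
        a k * S.card ≤ B k * S'.card)
    (c₀ : Cls) (s₀ : σ) (h₀ : Sol g c₀ s₀) :
    ∃ (c : Cls) (S : Finset σ), (∀ s ∈ S, Sol 0 c s) ∧
      ∏ i ∈ Finset.range g, a i ≤ (∏ i ∈ Finset.range g, B i) * S.card := by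
  classical
  have key : ∀ j k, k + j = g → ∃ (c : Cls) (S : Finset σ), (∀ s ∈ S, Sol k c s) ∧
      ∏ i ∈ Finset.Ico k g, a i ≤ (∏ i ∈ Finset.Ico k g, B i) * S.card := by
    intro j
    induction j with
    | zero =>
      intro k hk
      have hk' : k = g := by omega
      subst hk'
      refine ⟨c₀, {s₀}, fun s hs => ?_, ?_⟩
      · rw [Finset.mem_singleton.mp hs]
        exact h₀
      · simp
    | succ j ih =>
      intro k hk
      obtain ⟨c, S, hS, hle⟩ := ih (k + 1) (by omega)
      obtain ⟨c', S', hS', hle'⟩ := hstep k (by omega) c S hS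
      refine ⟨c', S', hS', ?_⟩
      have hpa : ∏ i ∈ Finset.Ico k g, a i = a k * ∏ i ∈ Finset.Ico (k + 1) g, a i :=
        Finset.prod_eq_prod_Ico_succ_bot (by omega) a
      have hpB : ∏ i ∈ Finset.Ico k g, B i = B k * ∏ i ∈ Finset.Ico (k + 1) g, B i :=
        Finset.prod_eq_prod_Ico_succ_bot (by omega) B
      have hPB : 0 ≤ ∏ i ∈ Finset.Ico (k + 1) g, B i :=
        Finset.prod_nonneg fun i hi => hB i (Finset.mem_Ico.mp hi).2
      rw [hpa, hpB]
      calc a k * ∏ i ∈ Finset.Ico (k + 1) g, a i
          ≤ a k * ((∏ i ∈ Finset.Ico (k + 1) g, B i) * S.card) :=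
            mul_le_mul_of_nonneg_left hle (ha k (by omega))
        _ = (∏ i ∈ Finset.Ico (k + 1) g, B i) * (a k * S.card) := by ring
        _ ≤ (∏ i ∈ Finset.Ico (k + 1) g, B i) * (B k * S'.card) :=
            mul_le_mul_of_nonneg_left hle' hPB
        _ = B k * (∏ i ∈ Finset.Ico (k + 1) g, B i) * S'.card := by ring
  obtain ⟨c, S, hS, hle⟩ := key g 0 (by omega)
  refine ⟨c, S, hS, ?_⟩
  rwa [Nat.Ico_zero_eq_range] at hle

/-- **One step, counting without components.** The solutions of `S` are carried by the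
configurations of `MM`, at most `d0 M` of them by `M`. -/
theorem step_of_carrier {σ μ : Type*} [DecidableEq μ] (S : Finset σ) (MM : Finset μ)
    (car : σ → μ) (hcar : ∀ s ∈ S, car s ∈ MM) (d0 I₁ I₂ : μ → ℕ)
    (hfib : ∀ M ∈ MM, (S.filter fun s => car s = M).card ≤ d0 M)
    (h0 : ∀ M ∈ MM, d0 M ≤ I₁ M) (a C : ℕ) (hloc : ∀ M ∈ MM, a * I₁ M ≤ C * I₂ M)
    (D N' : ℕ) (hfibre : ∑ M ∈ MM, I₂ M ≤ D * N') :
    a * S.card ≤ C * D * N' := by
  have h1 : S.card = ∑ M ∈ MM, (S.filter fun s => car s = M).card :=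
    Finset.card_eq_sum_card_fiberwise hcar
  calc a * S.card = ∑ M ∈ MM, a * (S.filter fun s => car s = M).card := by
        rw [h1, Finset.mul_sum]
    _ ≤ ∑ M ∈ MM, C * I₂ M := Finset.sum_le_sum fun M hM =>
        le_trans (Nat.mul_le_mul_left a (le_trans (hfib M hM) (h0 M hM))) (hloc M hM)
    _ = C * ∑ M ∈ MM, I₂ M := (Finset.mul_sum _ _ _).symm
    _ ≤ C * (D * N') := Nat.mul_le_mul_left C hfibre
    _ = C * D * N' := (mul_assoc C D N').symm

/-- The upper step: `step_of_carrier` at `a = 1`. -/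
theorem upper_step_of_carrier {σ μ : Type*} [DecidableEq μ] (S : Finset σ) (MM : Finset μ)
    (car : σ → μ) (hcar : ∀ s ∈ S, car s ∈ MM) (d0 IG IF : μ → ℕ)
    (hfib : ∀ M ∈ MM, (S.filter fun s => car s = M).card ≤ d0 M)
    (h0 : ∀ M ∈ MM, d0 M ≤ IG M) (A : ℕ) (hloc : ∀ M ∈ MM, IG M ≤ A * IF M)
    (D N' : ℕ) (hfibre : ∑ M ∈ MM, IF M ≤ D * N') :
    S.card ≤ A * D * N' := by
  have h := step_of_carrier S MM car hcar d0 IG IF hfib h0 1 A
    (fun M hM => by rw [one_mul]; exact hloc M hM) D N' hfibre
  rwa [one_mul] at h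

/-- A type all of whose finite subsets have at most `N` elements is finite, with at most `N`
elements. -/
theorem finite_and_card_le_of_forall_finset {X : Type*} (N : ℕ)
    (h : ∀ T : Finset X, T.card ≤ N) : Finite X ∧ Nat.card X ≤ N := by
  have hfin : Finite X := by
    by_contra hinf
    rw [not_finite_iff_infinite] at hinf
    obtain ⟨T, hT⟩ := Infinite.exists_subset_card_eq X (N + 1)
    have := h T
    omega
  refine ⟨hfin, ?_⟩
  have := Fintype.ofFinite X
  rw [Nat.card_eq_fintype_card, ← Finset.card_univ]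
  exact h Finset.univ

end Fermat.Agent.S27.G.Chain
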