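import Mathlib
import Fermat.Agent.S27.G.Exit

/-!
# Program PJ (statement S27), strand G, leaf G6: the two chains of the contract

The steps and the ends of the chain (`StepUp`, `StepDown`, `TopUnique`, `TopExists`,
`BottomLower`, `UpperStart0`, `UpperStart1`, `GenusZero` of `S27/Contract.lean`) give the two
literals `UpperBound K F l` and `LowerBound K F l` that the contract asks of strand G.

* `exists_const_upper` : from type `(k, g - k)` to the top, `d = g - k` steps up: every finite
  set of solutions of type `(k, g - k)` in one class has at most `C * (n ^ 2) ^ d` elements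
  (`n ≥ 2`, one constant `C`).
* `exists_const_lower` : from the top down to type `(k, g - k)`: some finite set of solutions of
  type `(k, g - k)` in one class has at least `(n ^ 2) ^ d / C` elements.
* `upperFrom`, `lowerFrom` : the two bounds for every `n ≥ 2` (`Exit.UpperFrom`,
  `Exit.LowerFrom` with threshold `2`).
* `upperBound`, `lowerBound`, `upperBound_of_start1`, `bounds`, `bounds_of_start1` : the exit.

The levels `l ^ j`, `j ≥ 1`, are `≥ 2`; the level `l ^ 0 = 1` is absorbed by the threshold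
adapter of `S27/G/Exit.lean`.  Mathlib + the contract only.
-/

set_option autoImplicit false

open AlgebraicCurve

namespace Fermat.Agent.S27.G.ExitChain

variable {K F : Type*} [Field K] [Field F] [Algebra K F]

/-! ### The two chains, one constant each -/

/-- **The upper chain** from type `(k, g - k)` to the top, for `k₀ ≤ k`: one constant. -/
theorem exists_const_upper (k₀ : ℕ)
    (hstep : ∀ k, k₀ ≤ k → k < S17.R.gR K F → StepUp K F k) (htop : TopUnique K F) :
    ∀ d k, k₀ ≤ k → k + d = S17.R.gR K F → ∃ C : ℕ, ∀ n : ℕ, 2 ≤ n → ∀ (c : Divisor K F)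
      (S : Finset (Finset (Place K F) × Finset (Place K F))), (↑S : Set _) ⊆ Sol K F n k c →
      S.card ≤ C * (n ^ 2) ^ d := by
  intro d
  induction d with
  | zero =>
    intro k _ hk
    have hk' : k = S17.R.gR K F := by omega
    subst hk'
    refine ⟨1, fun n _ c S hS => ?_⟩
    rw [pow_zero, Nat.mul_one]
    exact Finset.card_le_one.mpr fun p hp q hq =>
      htop n c p q (hS (Finset.mem_coe.mpr hp)) (hS (Finset.mem_coe.mpr hq))
  | succ d ih =>
    intro k hk₀ hk
    obtain ⟨C1, hC1⟩ := hstep k hk₀ (by omega)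
    obtain ⟨C2, hC2⟩ := ih (k + 1) (by omega) (by omega)
    refine ⟨C1 * C2, fun n hn c S hS => ?_⟩
    obtain ⟨c', S', hS', hle⟩ := hC1 n hn c S hS
    have h1 := hC2 n hn c' S' hS'
    calc S.card ≤ C1 * n ^ 2 * S'.card := hle
      _ ≤ C1 * n ^ 2 * (C2 * (n ^ 2) ^ d) := Nat.mul_le_mul_left _ h1
      _ = C1 * C2 * (n ^ 2) ^ (d + 1) := by ring

/-- **The lower chain** from the top down to type `(k, g - k)`: one constant. -/
theorem exists_const_lower (hex : TopExists K F)
    (hstep : ∀ k, k < S17.R.gR K F → StepDown K F k) :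
    ∀ d k, k + d = S17.R.gR K F → ∃ C : ℕ, ∀ n : ℕ, 2 ≤ n → ∃ (c : Divisor K F)
      (S : Finset (Finset (Place K F) × Finset (Place K F))), (↑S : Set _) ⊆ Sol K F n k c ∧
      (n ^ 2) ^ d ≤ C * S.card := by
  intro d
  induction d with
  | zero =>
    intro k hk
    have hk' : k = S17.R.gR K F := by omega
    subst hk'
    refine ⟨1, fun n _ => ?_⟩
    obtain ⟨c, p, hp⟩ := hex n
    refine ⟨c, {p}, fun q hq => ?_, ?_⟩
    · rw [Finset.mem_singleton.mp (Finset.mem_coe.mp hq)]
      exact hp
    · simp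
  | succ d ih =>
    intro k hk
    obtain ⟨C1, hC1⟩ := hstep k (by omega)
    obtain ⟨C2, hC2⟩ := ih (k + 1) (by omega)
    refine ⟨C2 * C1, fun n hn => ?_⟩
    obtain ⟨c', S', hS', hle'⟩ := hC2 n hn
    obtain ⟨c, S, hS, hle⟩ := hC1 n hn c' S' hS'
    refine ⟨c, S, hS, ?_⟩
    calc (n ^ 2) ^ (d + 1) = (n ^ 2) ^ d * n ^ 2 := pow_succ _ _
      _ ≤ C2 * S'.card * n ^ 2 := Nat.mul_le_mul_right _ hle'
      _ = C2 * (n ^ 2 * S'.card) := by ring
      _ ≤ C2 * (C1 * S.card) := Nat.mul_le_mul_left _ hle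
      _ = C2 * C1 * S.card := by ring

/-! ### The bounds for every level `n ≥ 2` -/

/-- The upper bound for every `n ≥ 2`, start in general position (`UpperStart0`). -/
theorem upperFrom (hstep : ∀ k, k < S17.R.gR K F → StepUp K F k) (htop : TopUnique K F)
    (hstart : UpperStart0 K F) : ∃ C : ℕ, Exit.UpperFrom K F C 2 := by
  obtain ⟨C0, hC0⟩ := hstart
  obtain ⟨C, hC⟩ := exists_const_upper 0 (fun k _ hk => hstep k hk) htop (S17.R.gR K F) 0
    le_rfl (Nat.zero_add _)
  refine ⟨C0 * C, fun n hn T hT => ?_⟩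
  obtain ⟨c, S, hS, hle⟩ := hC0 n hn T hT
  calc T.card ≤ C0 * S.card := hle
    _ ≤ C0 * (C * (n ^ 2) ^ S17.R.gR K F) := Nat.mul_le_mul_left _ (hC n hn c S hS)
    _ = C0 * C * n ^ (2 * S17.R.gR K F) := by rw [← pow_mul, Nat.mul_assoc]

/-- The upper bound for every `n ≥ 2` in positive genus, Kummer start (`UpperStart1`, landing in
type `(1, g - 1)`). -/
theorem upperFrom_of_start1 (hpos : 0 < S17.R.gR K F)
    (hstep : ∀ k, 1 ≤ k → k < S17.R.gR K F → StepUp K F k) (htop : TopUnique K F)
    (hstart : UpperStart1 K F) : ∃ C : ℕ, Exit.UpperFrom K F C 2 := by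
  obtain ⟨C1, hC1⟩ := hstart hpos
  have hg : 1 + (S17.R.gR K F - 1) = S17.R.gR K F := by omega
  obtain ⟨C, hC⟩ := exists_const_upper 1 hstep htop (S17.R.gR K F - 1) 1 le_rfl hg
  refine ⟨C1 * C, fun n hn T hT => ?_⟩
  obtain ⟨c, S, hS, hle⟩ := hC1 n hn T hT
  have hpow : n ^ 2 * (n ^ 2) ^ (S17.R.gR K F - 1) = n ^ (2 * S17.R.gR K F) := by
    rw [← pow_succ', ← pow_mul]
    congr 1
    omega
  calc T.card ≤ C1 * n ^ 2 * S.card := hle
    _ ≤ C1 * n ^ 2 * (C * (n ^ 2) ^ (S17.R.gR K F - 1)) :=
        Nat.mul_le_mul_left _ (hC n hn c S hS)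
    _ = C1 * C * (n ^ 2 * (n ^ 2) ^ (S17.R.gR K F - 1)) := by ring
    _ = C1 * C * n ^ (2 * S17.R.gR K F) := by rw [hpow]

/-- The lower bound for every `n ≥ 2`. -/
theorem lowerFrom (hstep : ∀ k, k < S17.R.gR K F → StepDown K F k) (htop : TopExists K F)
    (hbot : BottomLower K F) : ∃ C : ℕ, Exit.LowerFrom K F C 2 := by
  obtain ⟨C, hC⟩ := exists_const_lower htop hstep (S17.R.gR K F) 0 (Nat.zero_add _)
  refine ⟨C, fun n hn => ?_⟩
  obtain ⟨c, S, hS, hle⟩ := hC n hn
  obtain ⟨T, hT, hST⟩ := hbot n c S hS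
  refine ⟨T, hT, ?_⟩
  calc n ^ (2 * S17.R.gR K F) = (n ^ 2) ^ S17.R.gR K F := pow_mul _ _ _
    _ ≤ C * S.card := hle
    _ ≤ C * T.card := Nat.mul_le_mul_left _ hST

/-! ### The exit of strand G -/

/-- **Leaf G6, upper half**: the contract literal from the steps up, the top end and the start
in general position. -/
theorem upperBound (l : ℕ) (hl : 2 ≤ l) (hstep : ∀ k, k < S17.R.gR K F → StepUp K F k)
    (htop : TopUnique K F) (hstart : UpperStart0 K F) : UpperBound K F l := by
  obtain ⟨C, hC⟩ := upperFrom hstep htop hstart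
  exact Exit.upperBound_of_upperFrom hC hl

/-- **Leaf G6, lower half**: the contract literal from the steps down, the top start and the
bottom end. -/
theorem lowerBound (l : ℕ) (hl : 2 ≤ l) (hstep : ∀ k, k < S17.R.gR K F → StepDown K F k)
    (htop : TopExists K F) (hbot : BottomLower K F) : LowerBound K F l := by
  obtain ⟨C, hC⟩ := lowerFrom hstep htop hbot
  exact Exit.lowerBound_of_lowerFrom hC hl

/-- **Leaf G6, upper half, spare door**: the Kummer start `UpperStart1` (steps up only from
type `(1, g - 1)` on) with the genus-zero end. -/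
theorem upperBound_of_start1 (l : ℕ) (hl : 2 ≤ l)
    (hstep : ∀ k, 1 ≤ k → k < S17.R.gR K F → StepUp K F k) (htop : TopUnique K F)
    (hstart : UpperStart1 K F) (h0 : GenusZero K F) : UpperBound K F l := by
  rcases Nat.eq_zero_or_pos (S17.R.gR K F) with hg | hg
  · exact (Exit.bounds_of_genusZero h0 hg l).1
  · obtain ⟨C, hC⟩ := upperFrom_of_start1 hg hstep htop hstart
    exact Exit.upperBound_of_upperFrom hC hl

/-- **The exit of strand G**: both literals of the contract from the steps and the ends. -/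
theorem bounds (l : ℕ) (hl : 2 ≤ l) (hup : ∀ k, k < S17.R.gR K F → StepUp K F k)
    (hdown : ∀ k, k < S17.R.gR K F → StepDown K F k) (htopU : TopUnique K F)
    (htopE : TopExists K F) (hbot : BottomLower K F) (hstart : UpperStart0 K F) :
    UpperBound K F l ∧ LowerBound K F l :=
  ⟨upperBound l hl hup htopU hstart, lowerBound l hl hdown htopE hbot⟩

/-- **The exit of strand G, Kummer start.** -/
theorem bounds_of_start1 (l : ℕ) (hl : 2 ≤ l)
    (hup : ∀ k, 1 ≤ k → k < S17.R.gR K F → StepUp K F k)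
    (hdown : ∀ k, k < S17.R.gR K F → StepDown K F k) (htopU : TopUnique K F)
    (htopE : TopExists K F) (hbot : BottomLower K F) (hstart : UpperStart1 K F)
    (h0 : GenusZero K F) : UpperBound K F l ∧ LowerBound K F l :=
  ⟨upperBound_of_start1 l hl hup htopU hstart h0, lowerBound l hl hdown htopE hbot⟩

end Fermat.Agent.S27.G.ExitChain
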