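import Fermat.Agent.S27.G.AsmC
import Fermat.Agent.S27.C.UniqueExit
import Fermat.Agent.S27.C.CarrierExit

/-!
# Program PJ (statement S27), strand G: the two bounds of the contract

`bounds htr l hl : UpperBound K F l ∧ LowerBound K F l` for every `l ≥ 2`, hypothesis-free from
`htr : Algebra.trdeg K F = 1`: `AsmC.bounds_of_C` at the two exits of strand C,
`C.CarrierExit.carrierExit` (a generated configuration through every ordered regular point) and
`C.UniqueExit.uniqueExit` (formal uniqueness).

With `S27/Contract.lean` (`result_of_contract`), `M.Trdeg.trdeg_eq_one` and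
`F.ExitAlg.exitAlg` this is the frozen statement S27.
-/

set_option autoImplicit false

open AlgebraicCurve

namespace Fermat.Agent.S27.G.Final

open Fermat.Agent.S17

universe u v

variable {K : Type u} {F : Type v} [Field K] [Field F] [Algebra K F]
variable [IsAlgClosed K] [CharZero K] [Algebra.EssFiniteType K F]

/-- **The exit of strand G**: the two bounds of the contract of program PJ. -/
theorem bounds (htr : Algebra.trdeg K F = 1) (l : ℕ) (hl : 2 ≤ l) :
    UpperBound K F l ∧ LowerBound K F l :=
  AsmC.bounds_of_C htr l hl
    (fun δ hδ e₁ e₂ n hn he => Fermat.Agent.S27.C.CarrierExit.carrierExit htr e₁ e₂ n hn he δ hδ)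
    (fun δ _ e₁ e₂ n hn he => Fermat.Agent.S27.C.UniqueExit.uniqueExit htr e₁ e₂ n hn he δ)

end Fermat.Agent.S27.G.Final
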