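import Mathlib
import Fermat.Agent.S17.R.CanonicalOff
import Fermat.Agent.S17.HB.Deg.Pullback
import Fermat.Agent.S27.C.Cen
import Fermat.Agent.S27.C.PlaceSol
import Fermat.Agent.S27.L.Defs
import Fermat.Agent.S27.G.Defs
import Fermat.Agent.S27.G.Asm
import Fermat.Agent.S27.M.FibreCount
import Fermat.Agent.S27.M.FibreAsm

/-!
# Program PJ (statement S27), strand G: propagation of goodness

`F / K` is the function field of the curve, `M / K` the function field of a configuration, the
points of the configuration are embeddings `ρ z : F →ₐ[K] M`, and `cen (ρ z) w` is the centre of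
the point `ρ z` at the place `w` of `M`.

* `Small w x` : `x = 0` or `x` vanishes at `w` (membership in the maximal ideal at `w`);
* `det_small_of_vec`, `exists_vec_of_det_small` : a square matrix over `M`, regular at `w`, has
  determinant in the maximal ideal at `w` if and only if a non-zero vector with entries in `K`
  is killed by it modulo the maximal ideal (the residue field at `w` is `K`);
* `exists_finset_nonspecial` : if the `g` points of a family have pairwise distinct centres at
  ONE place `w₀` and the centres are non-special there (`l(sum) = 1`), the same holds at all but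
  finitely many places of `M`;
* `exists_finset_tup` : if the unordered tuple of centres of a configuration of type
  `(k + 1, g - k)` is a regular point (`Defs.Tup`) at ONE place, it is one at all but finitely
  many places;
* `gen` : the exit (GEN) of `Asm.exists_curves` for one configuration: off a finite set of
  points `A` of the curve, the fibres over `A` along every point are full and consist of good
  places.
-/

set_option autoImplicit false
set_option linter.unusedSectionVars false

open AlgebraicCurve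

namespace Fermat.Agent.S27.G.GoodPlaces

open Fermat.Agent.S17 Fermat.Agent.S17.HB

open Fermat.Agent.S27.L (cen)

variable {K F M : Type*} [Field K] [Field F] [Algebra K F] [Field M] [Algebra K M]

/-- `x` is zero or vanishes at the place `w`. -/
def Small (w : Place K M) (x : M) : Prop := x = 0 ∨ 0 < w.ord x

theorem small_iff (w : Place K M) (x : M) :
    Small w x ↔ ∃ h : x ∈ w.toValuationSubring,
      (⟨x, h⟩ : w.toValuationSubring) ∈ IsLocalRing.maximalIdeal w.toValuationSubring := by
  constructor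
  · rintro (rfl | h)
    · exact ⟨zero_mem _, zero_mem _⟩
    · exact ⟨S24.FF.mem_of_ord_pos w h, S24.FF.mem_maximalIdeal_of_ord_pos w h⟩
  · rintro ⟨h, hm⟩
    by_cases hx : x = 0
    · exact Or.inl hx
    · exact Or.inr ((S24.FF.mem_maximalIdeal_iff_ord_pos w ⟨x, h⟩ hx).mp hm)

theorem small_of_mem (w : Place K M) (y : w.toValuationSubring)
    (hy : y ∈ IsLocalRing.maximalIdeal w.toValuationSubring) : Small w (y : M) :=
  (small_iff w _).mpr ⟨y.2, hy⟩

theorem mem_of_small (w : Place K M) (y : w.toValuationSubring) (hy : Small w (y : M)) :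
    y ∈ IsLocalRing.maximalIdeal w.toValuationSubring := by
  obtain ⟨_, hm⟩ := (small_iff w _).mp hy
  exact hm

/-- Cramer: a vector with entries in `K`, not zero, killed modulo the maximal ideal at `w` by a
matrix regular at `w`, forces the determinant into the maximal ideal. -/
theorem det_small_of_vec {g : ℕ} (w : Place K M) (A : Matrix (Fin g) (Fin g) M)
    (hA : ∀ i j, A i j ∈ w.toValuationSubring) (c : Fin g → K) (hc : c ≠ 0)
    (h : ∀ i, Small w (∑ j, c j • A i j)) : Small w A.det := by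
  classical
  set O := w.toValuationSubring with hO
  set A' : Matrix (Fin g) (Fin g) O := fun i j => ⟨A i j, hA i j⟩ with hA'
  have hdet : A.det = ((A'.det : O) : M) := by
    have h1 : A = A'.map O.subtype := by
      ext i j
      rfl
    rw [h1]
    exact (RingHom.map_det O.subtype A').symm
  rw [hdet]
  refine small_of_mem w _ ?_
  set c' : Fin g → O := fun j => algebraMap K O (c j) with hc'
  -- the entries of `A' *ᵥ c'` are in the maximal ideal
  have hv : ∀ i, (A'.mulVec c') i ∈ IsLocalRing.maximalIdeal O := by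
    intro i
    refine mem_of_small w _ ?_
    have h2 : (((A'.mulVec c') i : O) : M) = ∑ j, c j • A i j := by
      rw [Matrix.mulVec, dotProduct]
      rw [show ((∑ j, A' i j * c' j : O) : M) = ∑ j, ((A' i j * c' j : O) : M) from
        map_sum O.subtype _ _]
      refine Finset.sum_congr rfl fun j _ => ?_
      rw [Algebra.smul_def, mul_comm]
      rfl
    rw [h2]
    exact h i
  -- Cramer
  have hcr : A'.det • c' = A'.adjugate.mulVec (A'.mulVec c') := by
    rw [Matrix.mulVec_mulVec, Matrix.adjugate_mul, Matrix.smul_mulVec, Matrix.one_mulVec]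
  obtain ⟨b, hb⟩ : ∃ b, c b ≠ 0 := by
    by_contra hall
    push Not at hall
    exact hc (funext hall)
  have hmem : A'.det * c' b ∈ IsLocalRing.maximalIdeal O := by
    have h3 : A'.det * c' b = (A'.adjugate.mulVec (A'.mulVec c')) b := by
      rw [← hcr]
      rfl
    rw [h3, Matrix.mulVec, dotProduct]
    exact Ideal.sum_mem _ fun i _ => Ideal.mul_mem_left _ _ (hv i)
  have hunit : IsUnit (c' b) := (IsUnit.mk0 (c b) hb).map (algebraMap K O)
  exact (Ideal.mul_unit_mem_iff_mem _ hunit).mp hmem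

section Residue

variable [IsAlgClosed K]

/-- Conversely (the residue field at `w` is `K`): a matrix regular at `w` with determinant in
the maximal ideal kills, modulo the maximal ideal, a non-zero vector with entries in `K`. -/
theorem exists_vec_of_det_small (htrM : Algebra.trdeg K M = 1) {g : ℕ} (w : Place K M)
    (A : Matrix (Fin g) (Fin g) M) (hA : ∀ i j, A i j ∈ w.toValuationSubring)
    (h : Small w A.det) : ∃ c : Fin g → K, c ≠ 0 ∧ ∀ i, Small w (∑ j, c j • A i j) := by
  classical
  set O := w.toValuationSubring with hO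
  set A' : Matrix (Fin g) (Fin g) O := fun i j => ⟨A i j, hA i j⟩ with hA'
  have hdet : A.det = ((A'.det : O) : M) := by
    have h1 : A = A'.map O.subtype := by
      ext i j
      rfl
    rw [h1]
    exact (RingHom.map_det O.subtype A').symm
  rw [hdet] at h
  have hdm : A'.det ∈ IsLocalRing.maximalIdeal O := mem_of_small w _ h
  set res : O →+* IsLocalRing.ResidueField O := IsLocalRing.residue O with hres
  have hdet0 : (A'.map res).det = 0 := by
    have h1 : (A'.map res).det = res A'.det := (RingHom.map_det res A').symm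
    rw [h1]
    exact (IsLocalRing.residue_eq_zero_iff _).mpr hdm
  obtain ⟨v, hv0, hv⟩ := Matrix.exists_mulVec_eq_zero_iff.mpr hdet0
  have hsurj := S24.FF.algebraMap_residue_surjective htrM w
  choose c hcv using fun j => hsurj (v j)
  refine ⟨c, ?_, fun i => ?_⟩
  · intro hc0
    apply hv0
    funext j
    rw [← hcv j, hc0]
    simp
  · have h2 : (∑ j, c j • A i j) = ((∑ j, A' i j * algebraMap K O (c j) : O) : M) := by
      rw [show ((∑ j, A' i j * algebraMap K O (c j) : O) : M) =
        ∑ j, ((A' i j * algebraMap K O (c j) : O) : M) from map_sum O.subtype _ _]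
      refine Finset.sum_congr rfl fun j _ => ?_
      rw [Algebra.smul_def, mul_comm]
      rfl
    rw [h2]
    refine small_of_mem w _ ?_
    rw [← IsLocalRing.residue_eq_zero_iff, map_sum]
    have h3 := congrFun hv i
    rw [Matrix.mulVec, dotProduct] at h3
    rw [Pi.zero_apply] at h3
    rw [← h3]
    refine Finset.sum_congr rfl fun j _ => ?_
    rw [map_mul, Matrix.map_apply, ← hcv j]
    rfl

end Residue

section Curve

variable [IsAlgClosed K] [CharZero K] [Algebra.EssFiniteType K F] [Algebra.EssFiniteType K M]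

/-- A function of `F` vanishes at the centre of `ρ` at `w` iff its image vanishes at `w`. -/
theorem small_map_iff (htr : Algebra.trdeg K F = 1) (htrM : Algebra.trdeg K M = 1)
    (ρ : F →ₐ[K] M) (w : Place K M) (f : F) :
    Small w (ρ f) ↔ (f = 0 ∨ 0 < (cen htr htrM ρ w).ord f) := by
  constructor
  · rintro (h | h)
    · exact Or.inl ((map_eq_zero ρ.toRingHom).mp h)
    · right
      have h1 : w.ord (ρ f) = Loc2.ram ρ w * (cen htr htrM ρ w).ord f :=
        L.ord_map htr htrM ρ w f
      rw [h1] at h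
      by_contra hneg
      rw [not_lt] at hneg
      have h3 : (Loc2.ram ρ w : ℤ) * (cen htr htrM ρ w).ord f ≤ 0 :=
        mul_nonpos_of_nonneg_of_nonpos (Int.natCast_nonneg _) hneg
      omega
  · rintro (rfl | h)
    · exact Or.inl (map_zero ρ)
    · exact Or.inr (C.Cen.ord_map_pos htr htrM ρ w h)

/-- **Propagation of non-speciality.**  If the `g` points of a family have pairwise distinct
centres at one place `w₀` of `M` and these centres are non-special, then at all but finitely
many places of `M` the centres are pairwise distinct and non-special. -/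
theorem exists_finset_nonspecial (htr : Algebra.trdeg K F = 1) (htrM : Algebra.trdeg K M = 1)
    {ι : Type*} [Fintype ι] (hι : Fintype.card ι = R.gR K F) (ρ : ι → (F →ₐ[K] M))
    (w₀ : Place K M) (hinj₀ : Function.Injective fun z => cen htr htrM (ρ z) w₀)
    (h₀ : Module.finrank K ↥(riemannRochSpace
      (∑ z, Finsupp.single (cen htr htrM (ρ z) w₀) (1 : ℤ))) = 1) :
    ∃ S : Finset (Place K M), ∀ w, w ∉ S →
      Function.Injective (fun z => cen htr htrM (ρ z) w) ∧
      Module.finrank K ↥(riemannRochSpace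
        (∑ z, Finsupp.single (cen htr htrM (ρ z) w) (1 : ℤ))) = 1 := by
  classical
  -- the base tuple
  set E₀ : Finset (Place K F) := Finset.univ.image fun z => cen htr htrM (ρ z) w₀ with hE₀
  have hsum₀ : (∑ v ∈ E₀, Finsupp.single v (1 : ℤ) : Divisor K F) =
      ∑ z, Finsupp.single (cen htr htrM (ρ z) w₀) (1 : ℤ) := by
    rw [hE₀, Finset.sum_image fun x _ y _ h => hinj₀ h]
  have hcard₀ : E₀.card = R.gR K F := by
    rw [hE₀, Finset.card_image_of_injective _ hinj₀, Finset.card_univ, hι]
  obtain ⟨W, u, -, hRR, hWT, -, hspan, hval⟩ := R.CanonicalOff.exists_canonical_basis htr E₀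
  have hval₀ := hval E₀ (Finset.Subset.refl _) hcard₀ (by rw [hsum₀]; exact h₀)
  -- labels
  let e : Fin (R.gR K F) ≃ ι := (Fintype.equivFinOfCardEq hι).symm
  -- the evaluation matrix
  set A : Matrix (Fin (R.gR K F)) (Fin (R.gR K F)) M := fun i b => ρ (e i) (u b) with hA
  have hu_mem : ∀ b, u b ∈ riemannRochSpace W := fun b => by
    rw [← hspan]
    exact Submodule.subset_span ⟨b, rfl⟩
  -- sections of `L(W)` are regular at a centre off the support of `W`
  have hreg : ∀ (z : ι) (w : Place K M), W (cen htr htrM (ρ z) w) = 0 →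
      ∀ b, ρ z (u b) ∈ w.toValuationSubring := by
    intro z w hWz b
    rw [← L.mem_cen_iff htr htrM (ρ z) w]
    by_cases hub : u b = 0
    · rw [hub]
      exact zero_mem _
    · refine (S24.FF.ord_nonneg_iff _ hub).mp ?_
      have h2 := (R.mem_L_of_ne_zero hub).mp (hu_mem b) (cen htr htrM (ρ z) w)
      rw [hWz] at h2
      simpa using h2
  have hcomb : ∀ (c : Fin (R.gR K F) → K) (i : Fin (R.gR K F)),
      ∑ b, c b • A i b = ρ (e i) (∑ b, c b • u b) := by
    intro c i
    rw [map_sum]
    refine Finset.sum_congr rfl fun b _ => ?_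
    rw [map_smul]
  -- the determinant is a unit at `w₀`
  have hD₀ : ¬ Small w₀ A.det := by
    intro hsm
    have hA₀ : ∀ i j, A i j ∈ w₀.toValuationSubring := fun i j =>
      hreg (e i) w₀ (hWT _ (Finset.mem_image_of_mem _ (Finset.mem_univ _))) j
    obtain ⟨c, hc0, hc⟩ := exists_vec_of_det_small htrM w₀ A hA₀ hsm
    apply hc0
    refine hval₀ c fun P hP => ?_
    obtain ⟨z, -, rfl⟩ := Finset.mem_image.mp hP
    have h1 := hc (e.symm z)
    rw [hcomb, Equiv.apply_symm_apply] at h1
    exact (small_map_iff htr htrM (ρ z) w₀ _).mp h1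
  have hD0 : A.det ≠ 0 := fun h => hD₀ (Or.inl h)
  -- the bad set
  have hρinj : Function.Injective ρ := fun z z' h => hinj₀ (by
    show cen htr htrM (ρ z) w₀ = cen htr htrM (ρ z') w₀
    rw [h])
  obtain ⟨S₂, hS₂⟩ := C.PlaceSol.exists_finset_injective_cen htr htrM ρ hρinj
  have hS₃ : (⋃ z : ι, ⋃ v ∈ (W.support : Set (Place K F)),
      {w : Place K M | cen htr htrM (ρ z) w = v}).Finite :=
    Set.finite_iUnion fun z => Set.Finite.biUnion W.support.finite_toSet fun v _ =>
      Deg.Pullback.finite_centre_eq htr htrM (ρ z) v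
  refine ⟨(R.divOf K A.det).support ∪ S₂ ∪ hS₃.toFinset, fun w hw => ?_⟩
  rw [Finset.mem_union, Finset.mem_union, not_or, not_or] at hw
  obtain ⟨⟨hw1, hw2⟩, hw3⟩ := hw
  have hinj := hS₂ w hw2
  refine ⟨hinj, ?_⟩
  have hordD : w.ord A.det = 0 := by
    rw [Finsupp.mem_support_iff, not_not, R.divOf_apply htrM] at hw1
    exact hw1
  have hWz : ∀ z, W (cen htr htrM (ρ z) w) = 0 := by
    intro z
    by_contra hne
    apply hw3
    rw [Set.Finite.mem_toFinset, Set.mem_iUnion]
    refine ⟨z, ?_⟩
    rw [Set.mem_iUnion₂]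
    exact ⟨cen htr htrM (ρ z) w, Finsupp.mem_support_iff.mpr hne, rfl⟩
  have hAw : ∀ i j, A i j ∈ w.toValuationSubring := fun i j => hreg (e i) w (hWz _) j
  have hDw : ¬ Small w A.det := by
    rintro (h | h)
    · exact hD0 h
    · omega
  -- the tuple at `w`
  set E : Finset (Place K F) := Finset.univ.image fun z => cen htr htrM (ρ z) w with hE
  have hsum : (∑ v ∈ E, Finsupp.single v (1 : ℤ) : Divisor K F) =
      ∑ z, Finsupp.single (cen htr htrM (ρ z) w) (1 : ℤ) := by
    rw [hE, Finset.sum_image fun x _ y _ h => hinj h]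
  have hcard : E.card = R.gR K F := by
    rw [hE, Finset.card_image_of_injective _ hinj, Finset.card_univ, hι]
  rw [← hsum]
  -- `L(W - ∑ E) = ⊥`
  have hbot : riemannRochSpace (W - ∑ v ∈ E, Finsupp.single v (1 : ℤ)) = ⊥ := by
    rw [eq_bot_iff]
    intro f hf
    rw [Submodule.mem_bot]
    by_contra hf0
    have hfW : f ∈ riemannRochSpace W := by
      refine R.L_mono ?_ hf
      rw [sub_le_self_iff]
      exact Finset.sum_nonneg fun v _ => Finsupp.single_nonneg.mpr zero_le_one
    rw [← hspan] at hfW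
    obtain ⟨c, hc⟩ := (Submodule.mem_span_range_iff_exists_fun K).mp hfW
    have hc0 : c ≠ 0 := by
      rintro rfl
      apply hf0
      rw [← hc]
      simp
    have hsm : ∀ i, Small w (∑ b, c b • A i b) := by
      intro i
      rw [hcomb, hc]
      refine (small_map_iff htr htrM (ρ (e i)) w f).mpr (Or.inr ?_)
      have h1 := (R.mem_L_of_ne_zero hf0).mp hf (cen htr htrM (ρ (e i)) w)
      rw [Finsupp.sub_apply, hWz, R.CanonicalOff.sum_single_apply_of_mem
        (Finset.mem_image_of_mem _ (Finset.mem_univ _))] at h1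
      omega
    exact hDw (det_small_of_vec w A hAw c hc0 hsm)
  have h1 := hRR (∑ v ∈ E, Finsupp.single v (1 : ℤ))
  rw [hbot, finrank_bot, R.NonSpecialStep.degree_sum_single htr, hcard] at h1
  have h2 : (Module.finrank K ↥(riemannRochSpace (∑ v ∈ E, Finsupp.single v (1 : ℤ))) : ℤ)
      = 1 := by
    rw [h1]
    push_cast
    ring
  exact_mod_cast h2

end Curve

section Tup

variable [IsAlgClosed K] [CharZero K] [Algebra.EssFiniteType K F] [Algebra.EssFiniteType K M]
variable {α β : Type*} [Fintype α] [Fintype β]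

open Fermat.Agent.S27.C.PlaceSol (ptsG ptsF)

omit [IsAlgClosed K] [CharZero K] [Algebra.EssFiniteType K F] [Algebra.EssFiniteType K M]
  [Fintype α] [Fintype β] [Field K] [Field F] [Algebra K F] [Field M] [Algebra K M] in
/-- The sum over the labels other than `x₀`. -/
theorem sum_subtype_ne {X : Type*} [Fintype X] [DecidableEq X] {A : Type*} [AddCommGroup A]
    (h : X → A) (x₀ : X) : ∑ y : {y : X // y ≠ x₀}, h y.1 = ∑ y, h y - h x₀ := by
  rw [← Finset.sum_erase_eq_sub (Finset.mem_univ x₀)]
  exact (Finset.sum_subtype (Finset.univ.erase x₀) (fun y => by simp) h).symm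

omit [IsAlgClosed K] [CharZero K] [Algebra.EssFiniteType K F] [Algebra.EssFiniteType K M]
  [Fintype α] [Fintype β] [Field K] [Field F] [Algebra K F] [Field M] [Algebra K M] in
theorem card_subtype_ne {X : Type*} [Fintype X] [DecidableEq X] (x₀ : X) :
    Fintype.card {y : X // y ≠ x₀} + 1 = Fintype.card X := by
  rw [Fintype.card_subtype, Finset.filter_ne' Finset.univ x₀,
    Finset.card_erase_of_mem (Finset.mem_univ x₀), Finset.card_univ]
  have : 0 < Fintype.card X := Fintype.card_pos_iff.mpr ⟨x₀⟩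
  omega

open Classical in
/-- The divisor of the centres other than that of the simple point `a`, in label form. -/
theorem sum_erase_G (htr : Algebra.trdeg K F = 1) (htrM : Algebra.trdeg K M = 1)
    (ρ : α ⊕ β → (F →ₐ[K] M)) (w : Place K M)
    (hinj : Function.Injective fun x : α ⊕ β => cen htr htrM (ρ x) w) (a : α) :
    (∑ v ∈ (ptsG htr htrM ρ w).erase (cen htr htrM (ρ (Sum.inl a)) w), Finsupp.single v (1 : ℤ) +
      ∑ v ∈ ptsF htr htrM ρ w, Finsupp.single v (1 : ℤ) : Divisor K F) =
    ∑ y : {y : α ⊕ β // y ≠ Sum.inl a}, Finsupp.single (cen htr htrM (ρ y.1) w) (1 : ℤ) := by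
  have h1 : ∑ y : {y : α ⊕ β // y ≠ Sum.inl a},
        (Finsupp.single (cen htr htrM (ρ y.1) w) (1 : ℤ) : Divisor K F) =
      ∑ y : α ⊕ β, Finsupp.single (cen htr htrM (ρ y) w) (1 : ℤ) -
        Finsupp.single (cen htr htrM (ρ (Sum.inl a)) w) (1 : ℤ) :=
    sum_subtype_ne (fun y => (Finsupp.single (cen htr htrM (ρ y) w) (1 : ℤ) : Divisor K F))
      (Sum.inl a)
  have h2 : ∑ y : α ⊕ β, (Finsupp.single (cen htr htrM (ρ y) w) (1 : ℤ) : Divisor K F) =
      ∑ a', Finsupp.single (cen htr htrM (ρ (Sum.inl a')) w) (1 : ℤ) +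
        ∑ b, Finsupp.single (cen htr htrM (ρ (Sum.inr b)) w) (1 : ℤ) :=
    Fintype.sum_sum_type _
  have hG : ∑ v ∈ ptsG htr htrM ρ w, (Finsupp.single v (1 : ℤ) : Divisor K F) =
      ∑ a', Finsupp.single (cen htr htrM (ρ (Sum.inl a')) w) (1 : ℤ) := by
    unfold ptsG
    rw [Finset.sum_image fun a _ a' _ h => Sum.inl_injective (hinj h)]
  have hF : ∑ v ∈ ptsF htr htrM ρ w, (Finsupp.single v (1 : ℤ) : Divisor K F) =
      ∑ b, Finsupp.single (cen htr htrM (ρ (Sum.inr b)) w) (1 : ℤ) := by
    unfold ptsF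
    rw [Finset.sum_image fun b _ b' _ h => Sum.inr_injective (hinj h)]
  have h3 : (Finsupp.single (cen htr htrM (ρ (Sum.inl a)) w) (1 : ℤ) : Divisor K F) +
      ∑ v ∈ (ptsG htr htrM ρ w).erase (cen htr htrM (ρ (Sum.inl a)) w), Finsupp.single v (1 : ℤ)
      = ∑ v ∈ ptsG htr htrM ρ w, Finsupp.single v (1 : ℤ) :=
    Finset.add_sum_erase (ptsG htr htrM ρ w) (fun v => (Finsupp.single v (1 : ℤ) : Divisor K F))
      (C.PlaceSol.mem_ptsG htr htrM ρ w a)
  rw [h1, h2, ← hG, ← hF, ← h3]
  abel

open Classical in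
/-- The divisor of the centres other than that of the `n`-fold point `b`, in label form. -/
theorem sum_erase_F (htr : Algebra.trdeg K F = 1) (htrM : Algebra.trdeg K M = 1)
    (ρ : α ⊕ β → (F →ₐ[K] M)) (w : Place K M)
    (hinj : Function.Injective fun x : α ⊕ β => cen htr htrM (ρ x) w) (b : β) :
    (∑ v ∈ ptsG htr htrM ρ w, Finsupp.single v (1 : ℤ) +
      ∑ v ∈ (ptsF htr htrM ρ w).erase (cen htr htrM (ρ (Sum.inr b)) w), Finsupp.single v (1 : ℤ)
        : Divisor K F) =
    ∑ y : {y : α ⊕ β // y ≠ Sum.inr b}, Finsupp.single (cen htr htrM (ρ y.1) w) (1 : ℤ) := by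
  have h1 : ∑ y : {y : α ⊕ β // y ≠ Sum.inr b},
        (Finsupp.single (cen htr htrM (ρ y.1) w) (1 : ℤ) : Divisor K F) =
      ∑ y : α ⊕ β, Finsupp.single (cen htr htrM (ρ y) w) (1 : ℤ) -
        Finsupp.single (cen htr htrM (ρ (Sum.inr b)) w) (1 : ℤ) :=
    sum_subtype_ne (fun y => (Finsupp.single (cen htr htrM (ρ y) w) (1 : ℤ) : Divisor K F))
      (Sum.inr b)
  have h2 : ∑ y : α ⊕ β, (Finsupp.single (cen htr htrM (ρ y) w) (1 : ℤ) : Divisor K F) =
      ∑ a', Finsupp.single (cen htr htrM (ρ (Sum.inl a')) w) (1 : ℤ) +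
        ∑ b', Finsupp.single (cen htr htrM (ρ (Sum.inr b')) w) (1 : ℤ) :=
    Fintype.sum_sum_type _
  have hG : ∑ v ∈ ptsG htr htrM ρ w, (Finsupp.single v (1 : ℤ) : Divisor K F) =
      ∑ a', Finsupp.single (cen htr htrM (ρ (Sum.inl a')) w) (1 : ℤ) := by
    unfold ptsG
    rw [Finset.sum_image fun a _ a' _ h => Sum.inl_injective (hinj h)]
  have hF : ∑ v ∈ ptsF htr htrM ρ w, (Finsupp.single v (1 : ℤ) : Divisor K F) =
      ∑ b', Finsupp.single (cen htr htrM (ρ (Sum.inr b')) w) (1 : ℤ) := by
    unfold ptsF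
    rw [Finset.sum_image fun b _ b' _ h => Sum.inr_injective (hinj h)]
  have h3 : (Finsupp.single (cen htr htrM (ρ (Sum.inr b)) w) (1 : ℤ) : Divisor K F) +
      ∑ v ∈ (ptsF htr htrM ρ w).erase (cen htr htrM (ρ (Sum.inr b)) w), Finsupp.single v (1 : ℤ)
      = ∑ v ∈ ptsF htr htrM ρ w, Finsupp.single v (1 : ℤ) :=
    Finset.add_sum_erase (ptsF htr htrM ρ w) (fun v => (Finsupp.single v (1 : ℤ) : Divisor K F))
      (C.PlaceSol.mem_ptsF htr htrM ρ w b)
  rw [h1, h2, ← hG, ← hF, ← h3]
  abel

omit [IsAlgClosed K] [CharZero K] [Algebra.EssFiniteType K F] in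
/-- The regular points depend on the class of the divisor only. -/
theorem tup_of_principal {n k : ℕ} {c c' : Divisor K F}
    (h : c' - c ∈ Divisor.principal (K := K) (F := F))
    {x : Finset (Place K F) × Finset (Place K F)} (hx : x ∈ Defs.Tup K F n k c') :
    x ∈ Defs.Tup K F n k c := by
  obtain ⟨h1, h2, h3, h4, h5⟩ := hx
  refine ⟨h1, h2, h3, fun P hP => ?_, fun Q hQ => ?_⟩
  · obtain ⟨s1, s2, s3, s4, s5⟩ := h4 P hP
    refine ⟨s1, s2, s3, s4, ?_⟩
    have h6 := add_mem s5 h
    convert h6 using 1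
    abel
  · obtain ⟨s1, s2, s3, s4, s5⟩ := h5 Q hQ
    refine ⟨s1, s2, s3, s4, ?_⟩
    have h6 := add_mem s5 h
    convert h6 using 1
    abel

open Classical in
/-- **Propagation of goodness.**  On a profile configuration of type `(k + 1, g - k)`, if the
unordered tuple of centres is a regular point (`Defs.Tup`) of the class of `c` at ONE place `w₀`
of `M`, then at all but finitely many places of `M` the centres are pairwise distinct and their
unordered tuple is a regular point of the same class. -/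
theorem exists_finset_tup (htr : Algebra.trdeg K F = 1) (htrM : Algebra.trdeg K M = 1)
    {n m : ℕ} {B : Divisor K F} {δ : Derivation K F F}
    (d : L.Data htr M (α ⊕ β) (Sum.elim (fun _ : α => 1) (fun _ : β => n)) m B δ)
    {k : ℕ} (hα : Fintype.card α = k + 1)
    (hcard : Fintype.card α + Fintype.card β = R.gR K F + 1)
    (c : Divisor K F) (w₀ : Place K M)
    (h₀ : (ptsG htr htrM d.ρ w₀, ptsF htr htrM d.ρ w₀) ∈ Defs.Tup K F n k c) :
    ∃ S : Finset (Place K M), ∀ w, w ∉ S →
      Function.Injective (fun x : α ⊕ β => cen htr htrM (d.ρ x) w) ∧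
      (ptsG htr htrM d.ρ w, ptsF htr htrM d.ρ w) ∈ Defs.Tup K F n k c := by
  obtain ⟨hdis, hcG, hcGF, hG₀, hF₀⟩ := h₀
  have hcG' : (ptsG htr htrM d.ρ w₀).card = k + 1 := hcG
  have hcGF' : (ptsG htr htrM d.ρ w₀).card + (ptsF htr htrM d.ρ w₀).card = R.gR K F + 1 := hcGF
  -- the centres at `w₀` are pairwise distinct
  have hinjG : Function.Injective fun a : α => cen htr htrM (d.ρ (Sum.inl a)) w₀ := by
    refine Asm.injective_of_card_image ?_
    rw [hα]
    exact hcG'
  have hinjF : Function.Injective fun b : β => cen htr htrM (d.ρ (Sum.inr b)) w₀ := by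
    refine Asm.injective_of_card_image ?_
    have h1 : (ptsF htr htrM d.ρ w₀).card = Fintype.card β := by omega
    exact h1
  have hinj₀ : Function.Injective fun x : α ⊕ β => cen htr htrM (d.ρ x) w₀ := by
    rintro (a | b) (a' | b') h
    · exact congrArg Sum.inl (hinjG h)
    · exfalso
      have h' : cen htr htrM (d.ρ (Sum.inl a)) w₀ = cen htr htrM (d.ρ (Sum.inr b')) w₀ := h
      have hm := C.PlaceSol.mem_ptsF htr htrM d.ρ w₀ b'
      rw [← h'] at hm
      exact Finset.disjoint_left.mp hdis (C.PlaceSol.mem_ptsG htr htrM d.ρ w₀ a) hm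
    · exfalso
      have h' : cen htr htrM (d.ρ (Sum.inr b)) w₀ = cen htr htrM (d.ρ (Sum.inl a')) w₀ := h
      have hm := C.PlaceSol.mem_ptsF htr htrM d.ρ w₀ b
      rw [h'] at hm
      exact Finset.disjoint_left.mp hdis (C.PlaceSol.mem_ptsG htr htrM d.ρ w₀ a') hm
    · exact congrArg Sum.inr (hinjF h)
  -- non-speciality at `w₀` for every label
  have hns₀ : ∀ x : α ⊕ β, Module.finrank K ↥(riemannRochSpace
      (∑ y : {y : α ⊕ β // y ≠ x}, Finsupp.single (cen htr htrM (d.ρ y.1) w₀) (1 : ℤ))) = 1 := by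
    rintro (a | b)
    · rw [← sum_erase_G htr htrM d.ρ w₀ hinj₀ a]
      exact (hG₀ _ (C.PlaceSol.mem_ptsG htr htrM d.ρ w₀ a)).2.2.2.1
    · rw [← sum_erase_F htr htrM d.ρ w₀ hinj₀ b]
      exact (hF₀ _ (C.PlaceSol.mem_ptsF htr htrM d.ρ w₀ b)).2.2.2.1
  -- propagation for every label
  have hA : ∀ x : α ⊕ β, ∃ S : Finset (Place K M), ∀ w, w ∉ S →
      Module.finrank K ↥(riemannRochSpace
        (∑ y : {y : α ⊕ β // y ≠ x}, Finsupp.single (cen htr htrM (d.ρ y.1) w) (1 : ℤ))) = 1 := by
    intro x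
    have hι : Fintype.card {y : α ⊕ β // y ≠ x} = R.gR K F := by
      have h1 := card_subtype_ne x
      rw [Fintype.card_sum] at h1
      omega
    obtain ⟨S, hS⟩ := exists_finset_nonspecial htr htrM hι
      (fun y : {y : α ⊕ β // y ≠ x} => d.ρ y.1) w₀ (fun y y' h => Subtype.ext (hinj₀ h)) (hns₀ x)
    exact ⟨S, fun w hw => (hS w hw).2⟩
  choose S hS using hA
  obtain ⟨S', hS'⟩ := C.PlaceSol.exists_finset_injective_cen htr htrM d.ρ d.ρ_inj
  refine ⟨S' ∪ Finset.univ.biUnion S, fun w hw => ?_⟩
  rw [Finset.mem_union, not_or] at hw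
  have hinj := hS' w hw.1
  have hns : ∀ x : α ⊕ β, Module.finrank K ↥(riemannRochSpace
      (∑ y : {y : α ⊕ β // y ≠ x}, Finsupp.single (cen htr htrM (d.ρ y.1) w) (1 : ℤ))) = 1 :=
    fun x => hS x w fun h => hw.2 (Finset.mem_biUnion.mpr ⟨x, Finset.mem_univ x, h⟩)
  refine ⟨hinj, ?_⟩
  -- the regular point in the class of `B`
  have hB : (ptsG htr htrM d.ρ w, ptsF htr htrM d.ρ w) ∈ Defs.Tup K F n k B := by
    refine C.PlaceSol.mem_Tup htr htrM d w hinj hα hcard ?_ ?_
    · intro P hP
      have hP' := hP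
      unfold ptsG at hP'
      obtain ⟨a, -, rfl⟩ := Finset.mem_image.mp hP'
      rw [sum_erase_G htr htrM d.ρ w hinj a]
      exact hns (Sum.inl a)
    · intro Q hQ
      have hQ' := hQ
      unfold ptsF at hQ'
      obtain ⟨b, -, rfl⟩ := Finset.mem_image.mp hQ'
      rw [sum_erase_F htr htrM d.ρ w hinj b]
      exact hns (Sum.inr b)
  refine tup_of_principal ?_ hB
  -- `B - c` is principal: read off at `w₀`
  obtain ⟨a₀⟩ : Nonempty α := Fintype.card_pos_iff.mp (by omega)
  have h1 : (∑ v ∈ (ptsG htr htrM d.ρ w₀).erase (cen htr htrM (d.ρ (Sum.inl a₀)) w₀),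
        Finsupp.single v (1 : ℤ) + (n : ℤ) • ∑ v ∈ ptsF htr htrM d.ρ w₀, Finsupp.single v (1 : ℤ)) -
      (c - Finsupp.single (cen htr htrM (d.ρ (Sum.inl a₀)) w₀) (1 : ℤ)) ∈
      Divisor.principal (K := K) (F := F) :=
    (hG₀ _ (C.PlaceSol.mem_ptsG htr htrM d.ρ w₀ a₀)).2.2.2.2
  have h2 := C.PlaceSol.dv_mem_principal htr htrM d w₀ hinj₀
  have h3 : (Finsupp.single (cen htr htrM (d.ρ (Sum.inl a₀)) w₀) (1 : ℤ) : Divisor K F) +
      ∑ v ∈ (ptsG htr htrM d.ρ w₀).erase (cen htr htrM (d.ρ (Sum.inl a₀)) w₀),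
        Finsupp.single v (1 : ℤ) = ∑ v ∈ ptsG htr htrM d.ρ w₀, Finsupp.single v (1 : ℤ) :=
    Finset.add_sum_erase (ptsG htr htrM d.ρ w₀)
      (fun v => (Finsupp.single v (1 : ℤ) : Divisor K F))
      (C.PlaceSol.mem_ptsG htr htrM d.ρ w₀ a₀)
  have h4 := sub_mem h1 h2
  convert h4 using 1
  rw [← h3]
  abel

open Classical in
/-- **The exit (GEN) of the assembly, for one configuration.**  On a profile configuration of
type `(k + 1, g - k)` with one place `w₀` whose unordered tuple of centres is a regular point of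
the class of `c`: off a finite set `Bad` of places `A` of `F`, for every point `x` the fibre of
`A` along `x` is full, and at every place `w` of this fibre all the points are unramified, the
centres are pairwise distinct and their unordered tuple is a regular point of the class of
`c`. -/
theorem gen (htr : Algebra.trdeg K F = 1) (htrM : Algebra.trdeg K M = 1)
    {n m : ℕ} {B : Divisor K F} {δ : Derivation K F F}
    (d : L.Data htr M (α ⊕ β) (Sum.elim (fun _ : α => 1) (fun _ : β => n)) m B δ)
    {k : ℕ} (hα : Fintype.card α = k + 1)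
    (hcard : Fintype.card α + Fintype.card β = R.gR K F + 1)
    (c : Divisor K F) (w₀ : Place K M)
    (h₀ : (ptsG htr htrM d.ρ w₀, ptsF htr htrM d.ρ w₀) ∈ Defs.Tup K F n k c) :
    ∃ Bad : Finset (Place K F), ∀ A, A ∉ Bad → ∀ x : α ⊕ β,
      finrankAlong K (d.ρ x) ≤ {w : Place K M | cen htr htrM (d.ρ x) w = A}.ncard ∧
      ∀ w : Place K M, cen htr htrM (d.ρ x) w = A →
        (∀ y : α ⊕ β, Loc2.ram (d.ρ y) w = 1) ∧
        Function.Injective (fun y : α ⊕ β => cen htr htrM (d.ρ y) w) ∧
        (ptsG htr htrM d.ρ w, ptsF htr htrM d.ρ w) ∈ Defs.Tup K F n k c := by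
  obtain ⟨S, hS⟩ := exists_finset_tup htr htrM d hα hcard c w₀ h₀
  have hram : (⋃ y : α ⊕ β, {w : Place K M | 1 < Loc2.ram (d.ρ y) w}).Finite :=
    Set.finite_iUnion fun y => S27.M.FibreCount.finite_ram htr htrM (d.ρ y)
  obtain ⟨Bad, -, hBad⟩ := S27.M.FibreAsm.exists_bad_forall_full_avoid htr htrM d.ρ
    (↑S ∪ ⋃ y : α ⊕ β, {w : Place K M | 1 < Loc2.ram (d.ρ y) w})
    (S.finite_toSet.union hram) ∅
  refine ⟨Bad, fun A hA x => ⟨(hBad A hA x).1, fun w hw => ?_⟩⟩
  obtain ⟨hwS, -⟩ := (hBad A hA x).2 w hw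
  rw [Set.mem_union, not_or] at hwS
  obtain ⟨hw1, hw2⟩ := hwS
  have hw1' : w ∉ S := fun h => hw1 (Finset.mem_coe.mpr h)
  refine ⟨fun y => ?_, hS w hw1'⟩
  have h1 : ¬ 1 < Loc2.ram (d.ρ y) w := fun h => hw2 (Set.mem_iUnion.mpr ⟨y, h⟩)
  have h2 := L.ram_pos htr htrM (d.ρ y) w
  omega

end Tup

end Fermat.Agent.S27.G.GoodPlaces
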