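import Mathlib
import Fermat.Agent.S27.L.Defs
import Fermat.Agent.S27.G.Asm
import Fermat.Agent.S27.G.AsmIface

/-!
# Program PJ (statement S27), strand G: relabelling (plumbing of the assembly)

The assembly `Asm.exists_curves` asks for uniqueness `huni` on UNORDERED tuples; formal
uniqueness (strand C) is a statement on ORDERED tuples.  The bridge is a relabelling of the
points inside each of the two types.  This file holds that bridge.

Finite sets only:

* `exists_perm_of_image_eq` : two labellings with the same set of points, the first injective,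
  differ by a permutation of the labels;
* `exists_perm_of_tup_eq` : the same for the two sides of an unordered tuple `Asm.tup`;
* `tup_comp_perm` : the unordered tuple does not see a relabelling;
* `huni_of_ordered` : the hypothesis `huni` of `Asm.exists_curves` from uniqueness on ordered
  tuples, for a system of configurations closed under relabelling.

Profile configurations (`L.Data`):

* `reindex` : a profile configuration along a bijection of the labels;
* `relabel` : relabelling inside each of the two types of points (multiplicities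
  `Sum.elim (fun _ => a) (fun _ => b)`), with `relabel_ρ_inl`, `relabel_ρ_inr` (by `rfl`);
* `iUnion_range_reindex`, `adjoin_reindex`, `adjoin_relabel` : the field generated by the
  points does not change;
* `nsp_comp_equiv`, `nsp_reindex`, `nsp_relabel` : the ordered regular point `AsmIface.Nsp` does
  not depend on the labelling;
* `sum_finrankAlong_relabel_inl`, `sum_finrankAlong_relabel_inr` : the two total degrees do not
  change.
-/

set_option autoImplicit false

open AlgebraicCurve

namespace Fermat.Agent.S27.G.Relabel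

open Fermat.Agent.S17 Fermat.Agent.S17.HB

/-! ### Finite sets -/

section Perm

variable {P : Type*} [DecidableEq P]

/-- Two labellings with the same set of points, the first injective, differ by a permutation of
the labels. -/
theorem exists_perm_of_image_eq {ι : Type*} [Fintype ι] {f f' : ι → P}
    (hf : Function.Injective f) (h : Finset.univ.image f = Finset.univ.image f') :
    ∃ σ : Equiv.Perm ι, ∀ z, f' (σ z) = f z := by
  classical
  have hex : ∀ z, ∃ z', f' z' = f z := fun z => by
    have hz : f z ∈ Finset.univ.image f' := by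
      rw [← h]
      exact Finset.mem_image_of_mem _ (Finset.mem_univ z)
    obtain ⟨z', -, hz'⟩ := Finset.mem_image.mp hz
    exact ⟨z', hz'⟩
  choose s hs using hex
  have hinj : Function.Injective s := fun a b hab => hf (by rw [← hs a, ← hs b, hab])
  exact ⟨Equiv.ofBijective s (Finite.injective_iff_bijective.mp hinj), hs⟩

variable {ιG ιF : Type*} [Fintype ιG] [Fintype ιF]

/-- The unordered tuple does not see a relabelling inside each type. -/
theorem tup_comp_perm (f : ιG → P) (h : ιF → P) (σG : Equiv.Perm ιG) (σF : Equiv.Perm ιF) :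
    Asm.tup (f ∘ σG) (h ∘ σF) = Asm.tup f h := by
  classical
  unfold Asm.tup
  rw [← Finset.image_image, ← Finset.image_image, Finset.image_univ_equiv,
    Finset.image_univ_equiv]

/-- Two ordered tuples with the same unordered tuple, the first one injective on both sides,
differ by a relabelling inside each type. -/
theorem exists_perm_of_tup_eq {f f' : ιG → P} {h h' : ιF → P} (hf : Function.Injective f)
    (hh : Function.Injective h) (e : Asm.tup f h = Asm.tup f' h') :
    ∃ (σG : Equiv.Perm ιG) (σF : Equiv.Perm ιF), (∀ z, f' (σG z) = f z) ∧ ∀ z, h' (σF z) = h z := by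
  obtain ⟨σG, hG⟩ := exists_perm_of_image_eq hf (congrArg Prod.fst e)
  obtain ⟨σF, hF⟩ := exists_perm_of_image_eq hh (congrArg Prod.snd e)
  exact ⟨σG, σF, hG, hF⟩

/-- The same with the cardinalities of the unordered tuple in place of injectivity (the
hypothesis `hT` of `Asm.exists_curves`). -/
theorem exists_perm_of_tup_eq_of_card {f f' : ιG → P} {h h' : ιF → P}
    (hc : (Asm.tup f h).1.card = Fintype.card ιG ∧ (Asm.tup f h).2.card = Fintype.card ιF)
    (e : Asm.tup f h = Asm.tup f' h') :
    ∃ (σG : Equiv.Perm ιG) (σF : Equiv.Perm ιF), (∀ z, f' (σG z) = f z) ∧ ∀ z, h' (σF z) = h z :=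
  exists_perm_of_tup_eq (Asm.injective_of_card_image hc.1) (Asm.injective_of_card_image hc.2) e

/-- **`huni` from ordered uniqueness.**  For a system of configurations closed under
relabelling (`hrel`: the relabelled configuration `c''` of `c'`, with maps of places in both
directions), uniqueness on ORDERED tuples (`hord`) gives the hypothesis `huni` of
`Asm.exists_curves` on unordered tuples. -/
theorem huni_of_ordered (T : Set (Finset P × Finset P))
    (hT : ∀ x ∈ T, x.1.card = Fintype.card ιG ∧ x.2.card = Fintype.card ιF)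
    {Cfg : Type*} (Pl : Cfg → Type*) (cG : ∀ c, Pl c → ιG → P) (cF : ∀ c, Pl c → ιF → P)
    (hrel : ∀ (c' : Cfg) (σG : Equiv.Perm ιG) (σF : Equiv.Perm ιF),
      ∃ (c'' : Cfg) (j : Pl c'' → Pl c') (i : Pl c' → Pl c''),
        (∀ w, cG c'' w = cG c' (j w) ∘ σG ∧ cF c'' w = cF c' (j w) ∘ σF) ∧ ∀ w, j (i w) = w)
    (hord : ∀ c c' (w : Pl c) (w' : Pl c'), Asm.tup (cG c w) (cF c w) ∈ T →
      cG c w = cG c' w' → cF c w = cF c' w' →
      ∀ w₁ : Pl c, Asm.tup (cG c w₁) (cF c w₁) ∈ T →
        ∃ w₁' : Pl c', cG c' w₁' = cG c w₁ ∧ cF c' w₁' = cF c w₁) :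
    ∀ c c' (w : Pl c) (w' : Pl c'), Asm.tup (cG c w) (cF c w) ∈ T →
      Asm.tup (cG c w) (cF c w) = Asm.tup (cG c' w') (cF c' w') →
      ∀ w₁ : Pl c, Asm.tup (cG c w₁) (cF c w₁) ∈ T →
        ∃ w₁' : Pl c', Asm.tup (cG c' w₁') (cF c' w₁') = Asm.tup (cG c w₁) (cF c w₁) := by
  intro c c' w w' hw e w₁ hw₁
  obtain ⟨σG, σF, hG, hF⟩ := exists_perm_of_tup_eq_of_card (hT _ hw) e
  obtain ⟨c'', j, i, hc'', hji⟩ := hrel c' σG σF
  have h1 : cG c w = cG c'' (i w') := by
    rw [(hc'' (i w')).1, hji]
    exact funext fun z => (hG z).symm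
  have h2 : cF c w = cF c'' (i w') := by
    rw [(hc'' (i w')).2, hji]
    exact funext fun z => (hF z).symm
  obtain ⟨w₁'', hG₁, hF₁⟩ := hord c c'' w (i w') hw h1 h2 w₁ hw₁
  refine ⟨j w₁'', ?_⟩
  rw [← hG₁, ← hF₁, (hc'' w₁'').1, (hc'' w₁'').2, tup_comp_perm]

end Perm

/-! ### Profile configurations -/

section Data

variable {K F M : Type*} [Field K] [Field F] [Algebra K F] [Field M] [Algebra K M]
variable [IsAlgClosed K] [CharZero K] [Algebra.EssFiniteType K F]
variable {htr : Algebra.trdeg K F = 1} {m : ℕ} {B : Divisor K F} {δ : Derivation K F F}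

/-- A profile configuration along a bijection `e : ι' ≃ ι` of the labels. -/
noncomputable def reindex {ι : Type*} [Fintype ι] {μ : ι → ℕ} (d : L.Data htr M ι μ m B δ)
    {ι' : Type*} [Fintype ι'] (e : ι' ≃ ι) (μ' : ι' → ℕ) (hμ : ∀ z, μ' z = μ (e z)) :
    L.Data htr M ι' μ' m B δ where
  v := d.v
  v_indep := d.v_indep
  v_mem := d.v_mem
  B_nonneg := d.B_nonneg
  degree_B := by
    rw [d.degree_B, ← Equiv.sum_comp e]
    exact Finset.sum_congr rfl fun z _ => by rw [hμ z]
  ρ := fun z => d.ρ (e z)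
  ρ_inj := d.ρ_inj.comp e.injective
  cM := d.cM
  cM_zero := d.cM_zero
  chain := d.chain
  jets := fun z i hi => d.jets (e z) i (by rw [← hμ z]; exact hi)

theorem reindex_ρ {ι : Type*} [Fintype ι] {μ : ι → ℕ} (d : L.Data htr M ι μ m B δ)
    {ι' : Type*} [Fintype ι'] (e : ι' ≃ ι) (μ' : ι' → ℕ) (hμ : ∀ z, μ' z = μ (e z)) (z : ι') :
    (reindex d e μ' hμ).ρ z = d.ρ (e z) := rfl

theorem reindex_v {ι : Type*} [Fintype ι] {μ : ι → ℕ} (d : L.Data htr M ι μ m B δ)
    {ι' : Type*} [Fintype ι'] (e : ι' ≃ ι) (μ' : ι' → ℕ) (hμ : ∀ z, μ' z = μ (e z)) :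
    (reindex d e μ' hμ).v = d.v := rfl

theorem reindex_cM {ι : Type*} [Fintype ι] {μ : ι → ℕ} (d : L.Data htr M ι μ m B δ)
    {ι' : Type*} [Fintype ι'] (e : ι' ≃ ι) (μ' : ι' → ℕ) (hμ : ∀ z, μ' z = μ (e z)) :
    (reindex d e μ' hμ).cM = d.cM := rfl

/-- The set of elements of `M` in the images of the points does not change. -/
theorem iUnion_range_reindex {ι : Type*} [Fintype ι] {μ : ι → ℕ} (d : L.Data htr M ι μ m B δ)
    {ι' : Type*} [Fintype ι'] (e : ι' ≃ ι) (μ' : ι' → ℕ) (hμ : ∀ z, μ' z = μ (e z)) :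
    (⋃ z, Set.range ((reindex d e μ' hμ).ρ z)) = ⋃ z, Set.range (d.ρ z) :=
  e.surjective.iUnion_comp fun z => Set.range (d.ρ z)

/-- The field generated by the points does not change. -/
theorem adjoin_reindex {ι : Type*} [Fintype ι] {μ : ι → ℕ} (d : L.Data htr M ι μ m B δ)
    {ι' : Type*} [Fintype ι'] (e : ι' ≃ ι) (μ' : ι' → ℕ) (hμ : ∀ z, μ' z = μ (e z)) :
    IntermediateField.adjoin K (⋃ z, Set.range ((reindex d e μ' hμ).ρ z)) =
      IntermediateField.adjoin K (⋃ z, Set.range (d.ρ z)) := by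
  rw [iUnion_range_reindex]

variable {ιG ιF : Type*} [Fintype ιG] [Fintype ιF] {a b : ℕ}

/-- **Relabelling inside each of the two types of points**: the points `Sum.inl z` (of
multiplicity `a`) are permuted by `σG`, the points `Sum.inr z` (of multiplicity `b`) by `σF`. -/
noncomputable def relabel
    (d : L.Data htr M (ιG ⊕ ιF) (Sum.elim (fun _ => a) (fun _ => b)) m B δ)
    (σG : Equiv.Perm ιG) (σF : Equiv.Perm ιF) :
    L.Data htr M (ιG ⊕ ιF) (Sum.elim (fun _ => a) (fun _ => b)) m B δ :=
  reindex d (Equiv.sumCongr σG σF) _ (by rintro (z | z) <;> rfl)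

theorem relabel_ρ_inl (d : L.Data htr M (ιG ⊕ ιF) (Sum.elim (fun _ => a) (fun _ => b)) m B δ)
    (σG : Equiv.Perm ιG) (σF : Equiv.Perm ιF) (z : ιG) :
    (relabel d σG σF).ρ (Sum.inl z) = d.ρ (Sum.inl (σG z)) := rfl

theorem relabel_ρ_inr (d : L.Data htr M (ιG ⊕ ιF) (Sum.elim (fun _ => a) (fun _ => b)) m B δ)
    (σG : Equiv.Perm ιG) (σF : Equiv.Perm ιF) (z : ιF) :
    (relabel d σG σF).ρ (Sum.inr z) = d.ρ (Sum.inr (σF z)) := rfl

theorem relabel_v (d : L.Data htr M (ιG ⊕ ιF) (Sum.elim (fun _ => a) (fun _ => b)) m B δ)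
    (σG : Equiv.Perm ιG) (σF : Equiv.Perm ιF) : (relabel d σG σF).v = d.v := rfl

theorem relabel_cM (d : L.Data htr M (ιG ⊕ ιF) (Sum.elim (fun _ => a) (fun _ => b)) m B δ)
    (σG : Equiv.Perm ιG) (σF : Equiv.Perm ιF) : (relabel d σG σF).cM = d.cM := rfl

/-- A relabelled configuration is generated by its points if and only if the configuration is:
the field generated by the points does not change. -/
theorem adjoin_relabel (d : L.Data htr M (ιG ⊕ ιF) (Sum.elim (fun _ => a) (fun _ => b)) m B δ)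
    (σG : Equiv.Perm ιG) (σF : Equiv.Perm ιF) :
    IntermediateField.adjoin K (⋃ z, Set.range ((relabel d σG σF).ρ z)) =
      IntermediateField.adjoin K (⋃ z, Set.range (d.ρ z)) :=
  adjoin_reindex d _ _ _

/-- The unordered tuple of centres at a place does not see the relabelling. -/
theorem tup_cen_relabel [DecidableEq (Place K F)] (htrM : Algebra.trdeg K M = 1)
    (d : L.Data htr M (ιG ⊕ ιF) (Sum.elim (fun _ => a) (fun _ => b)) m B δ)
    (σG : Equiv.Perm ιG) (σF : Equiv.Perm ιF) (w : Place K M) :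
    Asm.tup (fun z => L.cen htr htrM ((relabel d σG σF).ρ (Sum.inl z)) w)
        (fun z => L.cen htr htrM ((relabel d σG σF).ρ (Sum.inr z)) w) =
      Asm.tup (fun z => L.cen htr htrM (d.ρ (Sum.inl z)) w)
        (fun z => L.cen htr htrM (d.ρ (Sum.inr z)) w) :=
  tup_comp_perm (fun z => L.cen htr htrM (d.ρ (Sum.inl z)) w)
    (fun z => L.cen htr htrM (d.ρ (Sum.inr z)) w) σG σF

/-- The two total degrees of a relabelled configuration. -/
theorem sum_finrankAlong_relabel_inl
    (d : L.Data htr M (ιG ⊕ ιF) (Sum.elim (fun _ => a) (fun _ => b)) m B δ)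
    (σG : Equiv.Perm ιG) (σF : Equiv.Perm ιF) :
    ∑ z, finrankAlong K ((relabel d σG σF).ρ (Sum.inl z)) =
      ∑ z, finrankAlong K (d.ρ (Sum.inl z)) :=
  Equiv.sum_comp σG fun z => finrankAlong K (d.ρ (Sum.inl z))

theorem sum_finrankAlong_relabel_inr
    (d : L.Data htr M (ιG ⊕ ιF) (Sum.elim (fun _ => a) (fun _ => b)) m B δ)
    (σG : Equiv.Perm ιG) (σF : Equiv.Perm ιF) :
    ∑ z, finrankAlong K ((relabel d σG σF).ρ (Sum.inr z)) =
      ∑ z, finrankAlong K (d.ρ (Sum.inr z)) :=
  Equiv.sum_comp σF fun z => finrankAlong K (d.ρ (Sum.inr z))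

end Data

/-! ### The ordered regular point -/

section Nsp

variable {K F M : Type*} [Field K] [Field F] [Algebra K F] [Field M] [Algebra K M]

/-- The ordered regular point `AsmIface.Nsp` does not depend on the labelling. -/
theorem nsp_comp_equiv (htr : Algebra.trdeg K F = 1) (htrM : Algebra.trdeg K M = 1)
    {ι ι' : Type*} [Fintype ι] [DecidableEq ι] [Fintype ι'] [DecidableEq ι'] (e : ι' ≃ ι)
    (ρ : ι → (F →ₐ[K] M)) (w : Place K M) :
    AsmIface.Nsp htr htrM (fun z => ρ (e z)) w ↔ AsmIface.Nsp htr htrM ρ w := by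
  have hsum : ∀ z' : ι', (∑ z'' ∈ Finset.univ.erase z',
      Finsupp.single (L.cen htr htrM (ρ (e z'')) w) (1 : ℤ)) =
      ∑ z ∈ Finset.univ.erase (e z'), Finsupp.single (L.cen htr htrM (ρ z) w) (1 : ℤ) := by
    intro z'
    refine Finset.sum_equiv e ?_ fun _ _ => rfl
    intro i
    rw [Finset.mem_erase, Finset.mem_erase]
    simp
  constructor
  · rintro ⟨hinj, hns⟩
    refine ⟨?_, fun z => ?_⟩
    · intro x y hxy
      have h := hinj (a₁ := e.symm x) (a₂ := e.symm y) (by
        show L.cen htr htrM (ρ (e (e.symm x))) w = L.cen htr htrM (ρ (e (e.symm y))) w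
        rw [e.apply_symm_apply, e.apply_symm_apply]
        exact hxy)
      exact e.symm.injective h
    · have h := hns (e.symm z)
      rw [hsum (e.symm z), e.apply_symm_apply] at h
      exact h
  · rintro ⟨hinj, hns⟩
    refine ⟨fun x y hxy => e.injective (hinj hxy), fun z' => ?_⟩
    rw [hsum z']
    exact hns (e z')

variable [IsAlgClosed K] [CharZero K] [Algebra.EssFiniteType K F]
variable {htr : Algebra.trdeg K F = 1} {m : ℕ} {B : Divisor K F} {δ : Derivation K F F}

theorem nsp_reindex {ι : Type*} [Fintype ι] [DecidableEq ι] {μ : ι → ℕ}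
    (d : L.Data htr M ι μ m B δ) {ι' : Type*} [Fintype ι'] [DecidableEq ι'] (e : ι' ≃ ι)
    (μ' : ι' → ℕ) (hμ : ∀ z, μ' z = μ (e z)) (htrM : Algebra.trdeg K M = 1) (w : Place K M) :
    AsmIface.Nsp htr htrM (reindex d e μ' hμ).ρ w ↔ AsmIface.Nsp htr htrM d.ρ w :=
  nsp_comp_equiv htr htrM e d.ρ w

theorem nsp_relabel {ιG ιF : Type*} [Fintype ιG] [Fintype ιF] [DecidableEq ιG] [DecidableEq ιF]
    {a b : ℕ} (d : L.Data htr M (ιG ⊕ ιF) (Sum.elim (fun _ => a) (fun _ => b)) m B δ)
    (σG : Equiv.Perm ιG) (σF : Equiv.Perm ιF) (htrM : Algebra.trdeg K M = 1) (w : Place K M) :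
    AsmIface.Nsp htr htrM (relabel d σG σF).ρ w ↔ AsmIface.Nsp htr htrM d.ρ w :=
  nsp_comp_equiv htr htrM (Equiv.sumCongr σG σF) d.ρ w

end Nsp

end Fermat.Agent.S27.G.Relabel
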