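import Mathlib

set_option autoImplicit false

namespace Fermat.Agent.S27.G.Weigh

open Finset

/-- Weighted double counting (the abstract counting step of both chains of program PJ).
`S` = base solutions, `P s` = the pairs (label, place over the general point) on the carrier of `s`,
`f s p` = the labelled solution at that place, `d s` = degree of the carrier over the parameter
point.  `hloc` is the local theorem, `hfib` the fibre bound (Hensel uniqueness + number of
embeddings of a finite extension). -/
theorem card_mul_le {σ ι τ : Type*} [DecidableEq σ] [DecidableEq ι] [DecidableEq τ]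
    (S : Finset σ) (P : σ → Finset ι) (T : Finset τ) (f : σ → ι → τ) (d : σ → ℕ) (a c : ℕ)
    (hd : ∀ s ∈ S, 0 < d s)
    (hloc : ∀ s ∈ S, a * d s ≤ c * (P s).card)
    (hT : ∀ s ∈ S, ∀ p ∈ P s, f s p ∈ T)
    (hfib : ∀ s0 ∈ S, ∀ p0 ∈ P s0,
      ((S.sigma P).filter (fun x => f x.1 x.2 = f s0 p0)).card ≤ d s0) :
    a * S.card ≤ c * T.card := by
  classical
  have key : (a : ℚ) * S.card ≤ c * T.card := by
    have h1 : (a : ℚ) * S.card ≤ c * ∑ x ∈ S.sigma P, (1 : ℚ) / d x.1 := by
      have hsum : ∑ x ∈ S.sigma P, (1 : ℚ) / d x.1 = ∑ s ∈ S, ((P s).card : ℚ) / d s := by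
        rw [Finset.sum_sigma]
        refine Finset.sum_congr rfl fun s _ => ?_
        show ∑ _p ∈ P s, (1 : ℚ) / d s = ((P s).card : ℚ) / d s
        rw [Finset.sum_const, nsmul_eq_mul, mul_one_div]
      rw [hsum, Finset.mul_sum]
      calc (a : ℚ) * S.card = ∑ _s ∈ S, (a : ℚ) := by
            rw [Finset.sum_const, nsmul_eq_mul, mul_comm]
        _ ≤ ∑ s ∈ S, (c : ℚ) * (((P s).card : ℚ) / d s) := by
          refine Finset.sum_le_sum fun s hs => ?_
          have hds : (0 : ℚ) < d s := by exact_mod_cast hd s hs
          have h' : (a : ℚ) * d s ≤ c * (P s).card := by exact_mod_cast hloc s hs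
          rw [← mul_div_assoc, le_div_iff₀ hds]
          exact h'
    have h2 : ∑ x ∈ S.sigma P, (1 : ℚ) / d x.1 ≤ T.card := by
      have hmaps : ∀ x ∈ S.sigma P, f x.1 x.2 ∈ T := by
        intro x hx
        rw [Finset.mem_sigma] at hx
        exact hT x.1 hx.1 x.2 hx.2
      rw [← Finset.sum_fiberwise_of_maps_to hmaps]
      calc ∑ t ∈ T, ∑ x ∈ S.sigma P with f x.1 x.2 = t, (1 : ℚ) / d x.1
          ≤ ∑ _t ∈ T, (1 : ℚ) := by
            refine Finset.sum_le_sum fun t _ => ?_
            rcases ((S.sigma P).filter (fun x => f x.1 x.2 = t)).eq_empty_or_nonempty with h0 | hne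
            · rw [h0]; simp
            · have hYpos : (0 : ℚ) < ((S.sigma P).filter (fun x => f x.1 x.2 = t)).card := by
                exact_mod_cast hne.card_pos
              calc ∑ x ∈ (S.sigma P).filter (fun x => f x.1 x.2 = t), (1 : ℚ) / d x.1
                  ≤ ∑ _x ∈ (S.sigma P).filter (fun x => f x.1 x.2 = t),
                      (1 : ℚ) / ((S.sigma P).filter (fun x => f x.1 x.2 = t)).card := by
                    refine Finset.sum_le_sum fun x hx => ?_
                    rw [Finset.mem_filter] at hx
                    obtain ⟨hxX, hxt⟩ := hx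
                    rw [Finset.mem_sigma] at hxX
                    have hle : ((S.sigma P).filter (fun x => f x.1 x.2 = t)).card ≤ d x.1 := by
                      have := hfib x.1 hxX.1 x.2 hxX.2
                      rw [hxt] at this
                      exact this
                    have hle' : (((S.sigma P).filter (fun x => f x.1 x.2 = t)).card : ℚ)
                        ≤ d x.1 := by exact_mod_cast hle
                    exact one_div_le_one_div_of_le hYpos hle'
                _ = 1 := by
                    rw [Finset.sum_const, nsmul_eq_mul]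
                    field_simp
        _ = T.card := by simp
    calc (a : ℚ) * S.card ≤ c * ∑ x ∈ S.sigma P, (1 : ℚ) / d x.1 := h1
      _ ≤ c * T.card := mul_le_mul_of_nonneg_left h2 (by positivity)
  exact_mod_cast key

end Fermat.Agent.S27.G.Weigh
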